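/-
GATE-L / PREP CUSP-VAL (helper18): the Gauss reduction datum of `F_N = ℚ̄(X₀(N))` at an ARBITRARY
cusp (coset `c ∈ I0 N = SL₂(ℤ) ⧸ Γ₀(N)`).

`cuspSigma N c : FN N →ₐ[ℚ̄] ℚ̄((t))`, `t = q^{1/N}` (helper62, `S24_helper62/CuspEmb.lean`) is the
expansion at the cusp `rep c · ∞`.  Its image `cuspField N c` is generated over `ℚ̄` by the series
`hermiteSer ζ N (herm N c d) = j(ζ_D^B t^m)`, whose coefficients lie in `ℤ[ζ_N]`, a finitely
generated `ℤ`-module; hence (helper45, `GK/Val/GaussFracGen.lean`) it has the Gauss fraction property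
for EVERY valuation subring `A` of `ℚ̄`, and the Gauss valuation of `ℚ̄((t))` restricts to a reduction
datum on it, which we transport back to `F_N`:

  `redDataCusp N A c : RedData ℚ̄ (FN N) k (FresCusp N A c)`,  `FresCusp N A c ⊆ k((t))`.

* generic: `comapEquivRD` (transport of a reduction datum along an isomorphism of DIFFERENT fields);
* `mem_RwCusp_iff`, `coe_redCusp` : membership and reduction are computed on the expansion;
* `unramified_cusp` : every value is the value of a constant (`e = 1` over `ℚ̄`);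
* `jdF_mem_RwCusp`, `coe_redCusp_jdF` : `red_c (j(q^d)) = j(ζ~_D^B t^m)` (the SAME Hermite series over
  the residue field, `ζ~` the reduction of `ζ`), `coe_redCusp_jF : red_c j = j~(t^N)`;
* `isGaussChart_jF_cusp` : `j` is a Gauss chart for every cusp valuation, so all of them extend the
  Gauss valuation of `ℚ̄(j)`.

For `N = q² M'` and `c = [[1,0],[q,1]]` this is the THIRD valuation `w₃` of the GATE-L design
(report 204 (2)).
-/
import Mathlib
import Fermat.Agent.S24_helper62.CuspEmb
import Fermat.Agent.GK.Val.GaussFracGen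

set_option autoImplicit false

noncomputable section

namespace Fermat.Agent.GL.CuspVal

open HahnSeries ModularCurve IsLocalRing
open Fermat.Agent.S24 Fermat.Agent.S28 Fermat.Agent.S28.CuspExp Fermat.Agent.S28.Assemble
open Fermat.Agent.S24_helper62 Fermat.Agent.S24.Degree
open Fermat.Agent.GJ.J1 Fermat.Agent.GJ.J1.Val Fermat.Agent.GK.Val

/-! ### Transport of a reduction datum along an isomorphism of fields -/

section Generic

variable {K F F' k Ft : Type*} [Field K] [Field F] [Field F'] [Algebra K F] [Algebra K F']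
  [Field k] [Field Ft] [Algebra k Ft]

/-- the ring isomorphism `Rw.comap e ≃+* Rw` induced by a ring isomorphism `e : F ≃+* F'` -/
def comapRingEquivRD (Rw : ValuationSubring F') (e : F ≃+* F') :
    (Rw.comap (e : F →+* F')) ≃+* Rw where
  toFun x := ⟨e x, x.2⟩
  invFun y := ⟨e.symm y, by
    show e (e.symm y) ∈ Rw
    rw [e.apply_symm_apply]; exact y.2⟩
  left_inv x := Subtype.ext (e.symm_apply_apply x)
  right_inv y := Subtype.ext (e.apply_symm_apply y)
  map_mul' x y := Subtype.ext (map_mul e (x : F) (y : F))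
  map_add' x y := Subtype.ext (map_add e (x : F) (y : F))

@[simp] theorem coe_comapRingEquivRD (Rw : ValuationSubring F') (e : F ≃+* F')
    (x : Rw.comap (e : F →+* F')) : ((comapRingEquivRD Rw e x : Rw) : F') = e x := rfl

theorem mem_maximalIdeal_comapRD_iff (Rw : ValuationSubring F') (e : F ≃+* F')
    (x : Rw.comap (e : F →+* F')) :
    x ∈ maximalIdeal (Rw.comap (e : F →+* F')) ↔ comapRingEquivRD Rw e x ∈ maximalIdeal Rw := by
  rw [mem_maximalIdeal, mem_maximalIdeal, mem_nonunits_iff, mem_nonunits_iff,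
    isUnit_map_iff (comapRingEquivRD Rw e)]

/-- **transport of a reduction datum** along a `K`-isomorphism `e : F ≃ F'`:
`Rw' = e⁻¹(Rw)`, `red' = red ∘ e`. -/
def comapEquivRD (R : RedData K F' k Ft) (e : F ≃ₐ[K] F') : RedData K F k Ft where
  Rw := R.Rw.comap ((e : F ≃+* F') : F →+* F')
  A := R.A
  mem_A_iff a := by
    rw [R.mem_A_iff, ValuationSubring.mem_comap]
    show _ ↔ e (algebraMap K F a) ∈ R.Rw
    rw [e.commutes]
  red := R.red.comp (comapRingEquivRD R.Rw (e : F ≃+* F') : _ →+* R.Rw)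
  red_surjective := by
    intro y
    obtain ⟨x, rfl⟩ := R.red_surjective y
    refine ⟨(comapRingEquivRD R.Rw (e : F ≃+* F')).symm x, ?_⟩
    show R.red (comapRingEquivRD R.Rw (e : F ≃+* F')
      ((comapRingEquivRD R.Rw (e : F ≃+* F')).symm x)) = _
    rw [RingEquiv.apply_symm_apply]
  red_eq_zero_iff x := by
    rw [mem_maximalIdeal_comapRD_iff, ← R.red_eq_zero_iff]
    rfl
  res := R.res
  res_surjective := R.res_surjective
  red_algebraMap a := by
    rw [← R.red_algebraMap a]
    show R.red _ = R.red _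
    congr 1
    exact Subtype.ext (e.commutes (a : K))

theorem mem_comapEquivRD_Rw (R : RedData K F' k Ft) (e : F ≃ₐ[K] F') (x : F) :
    x ∈ (comapEquivRD R e).Rw ↔ e x ∈ R.Rw := Iff.rfl

theorem comapEquivRD_red (R : RedData K F' k Ft) (e : F ≃ₐ[K] F') (x : F)
    (hx : x ∈ (comapEquivRD R e).Rw) :
    (comapEquivRD R e).red ⟨x, hx⟩ = R.red ⟨e x, hx⟩ := rfl

@[simp] theorem comapEquivRD_A (R : RedData K F' k Ft) (e : F ≃ₐ[K] F') :
    (comapEquivRD R e).A = R.A := rfl

@[simp] theorem comapEquivRD_res (R : RedData K F' k Ft) (e : F ≃ₐ[K] F') :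
    (comapEquivRD R e).res = R.res := rfl

end Generic


/-! ### The image of a cusp embedding -/

section CuspField

variable (N : ℕ) [NeZero N]

/-- the image of `F_N` under the expansion at the coset `c` -/
def cuspField (c : I0 N) : IntermediateField Kbar (LaurentSeries Kbar) :=
  (cuspSigma N c).fieldRange

theorem cuspSigma_mem_cuspField (c : I0 N) (f : FN N) : cuspSigma N c f ∈ cuspField N c :=
  ⟨f, rfl⟩

/-- the expansion at `c`, with values in its image -/
def cuspHom (c : I0 N) : FN N →ₐ[Kbar] cuspField N c :=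
  (cuspSigma N c).codRestrict (cuspField N c).toSubalgebra (cuspSigma_mem_cuspField N c)

@[simp] theorem coe_cuspHom (c : I0 N) (f : FN N) :
    ((cuspHom N c f : cuspField N c) : LaurentSeries Kbar) = cuspSigma N c f := rfl

theorem cuspHom_bijective (c : I0 N) : Function.Bijective (cuspHom N c) := by
  refine ⟨(cuspHom N c).toRingHom.injective, ?_⟩
  rintro ⟨y, f, rfl⟩
  exact ⟨f, rfl⟩

/-- the isomorphism `F_N ≃ cuspField N c` -/
def cuspEquiv (c : I0 N) : FN N ≃ₐ[Kbar] cuspField N c :=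
  AlgEquiv.ofBijective (cuspHom N c) (cuspHom_bijective N c)

@[simp] theorem coe_cuspEquiv (c : I0 N) (f : FN N) :
    ((cuspEquiv N c f : cuspField N c) : LaurentSeries Kbar) = cuspSigma N c f := rfl

/-- the image is generated by the expansions of the `j(q^d)` -/
theorem cuspField_eq_adjoin (c : I0 N) :
    cuspField N c = IntermediateField.adjoin Kbar (cuspSigma N c '' genSet N) := by
  rw [cuspField, AlgHom.fieldRange_eq_map, ← fieldGen N, IntermediateField.adjoin_map]

end CuspField


/-! ### The coefficient ring `ℤ[ζ_N]` -/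

section ZetaRing

variable (N : ℕ) [NeZero N]

/-- the subring `ℤ[ζ, ζ⁻¹]` of `ℚ̄`, `ζ = zetaBar N` -/
def zetaRing : Subring Kbar :=
  (Algebra.adjoin ℤ
    ({((zetaBar N : Kbarˣ) : Kbar), (((zetaBar N)⁻¹ : Kbarˣ) : Kbar)} : Set Kbar)).toSubring

theorem zetaBar_mem_zetaRing : ((zetaBar N : Kbarˣ) : Kbar) ∈ zetaRing N :=
  Algebra.subset_adjoin (Set.mem_insert _ _)

theorem zetaBar_inv_mem_zetaRing : (((zetaBar N)⁻¹ : Kbarˣ) : Kbar) ∈ zetaRing N :=
  Algebra.subset_adjoin (Set.mem_insert_of_mem _ rfl)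

theorem zetaBar_zpow_mem_zetaRing (z : ℤ) : (((zetaBar N) ^ z : Kbarˣ) : Kbar) ∈ zetaRing N := by
  obtain ⟨n, rfl | rfl⟩ := z.eq_nat_or_neg
  · rw [zpow_natCast, Units.val_pow_eq_pow_val]
    exact pow_mem (zetaBar_mem_zetaRing N) n
  · rw [zpow_neg, zpow_natCast, ← inv_pow, Units.val_pow_eq_pow_val]
    exact pow_mem (zetaBar_inv_mem_zetaRing N) n

theorem isIntegral_zetaBar : IsIntegral ℤ ((zetaBar N : Kbarˣ) : Kbar) := by
  refine IsIntegral.of_pow (Nat.pos_of_ne_zero (NeZero.ne N)) ?_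
  rw [← Units.val_pow_eq_pow_val, zetaBar_pow, Units.val_one]
  exact isIntegral_one

theorem isIntegral_zetaBar_inv : IsIntegral ℤ (((zetaBar N)⁻¹ : Kbarˣ) : Kbar) := by
  refine IsIntegral.of_pow (Nat.pos_of_ne_zero (NeZero.ne N)) ?_
  rw [← Units.val_pow_eq_pow_val, inv_pow, zetaBar_pow, inv_one, Units.val_one]
  exact isIntegral_one

/-- `ℤ[ζ_N]` is a finitely generated `ℤ`-module -/
theorem exists_finite_span_zetaRing :
    ∃ B₀ : Set Kbar, B₀.Finite ∧ ∀ x ∈ zetaRing N, x ∈ Submodule.span ℤ B₀ := by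
  have hfg : (Subalgebra.toSubmodule (Algebra.adjoin ℤ
      ({((zetaBar N : Kbarˣ) : Kbar), (((zetaBar N)⁻¹ : Kbarˣ) : Kbar)} : Set Kbar))).FG := by
    refine fg_adjoin_of_finite (Set.toFinite _) ?_
    rintro x (rfl | rfl)
    · exact isIntegral_zetaBar N
    · exact isIntegral_zetaBar_inv N
  obtain ⟨S, hS⟩ := hfg
  refine ⟨(S : Set Kbar), S.finite_toSet, fun x hx => ?_⟩
  rw [hS]
  exact hx

/-- the coefficients of `j` lie in every subring -/
theorem jqModC_coeff_mem (S : Subring Kbar) (n : ℤ) : (jqModC Kbar).coeff n ∈ S := by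
  rw [← coeffMap_jqModC (Int.castRingHom Kbar), coeffMap_coeff]
  exact intCast_mem S _

/-- the coefficients of `j(ξ t^m)`, `ξ` a power of `ζ`, lie in `ℤ[ζ]` -/
theorem jCusp_mem_coeffSubring (z : ℤ) (m : ℕ) :
    jCusp ((zetaBar N) ^ z) m ∈ coeffSubring (zetaRing N) := by
  intro k
  by_cases hm : m = 0
  · rw [jCusp, dif_pos hm, HahnSeries.coeff_zero]
    exact zero_mem _
  have : NeZero m := ⟨hm⟩
  by_cases hdvd : (m : ℤ) ∣ k
  · obtain ⟨n, rfl⟩ := hdvd
    rw [jCusp_coeff_mul, ← zpow_mul]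
    exact mul_mem (zetaBar_zpow_mem_zetaRing N _) (jqModC_coeff_mem _ n)
  · rw [jCusp_coeff_of_not_dvd _ m hdvd]
    exact zero_mem _

/-- the coefficients of the Hermite series lie in `ℤ[ζ]` -/
theorem hermiteSer_mem_coeffSubring {d : ℕ} {g : Matrix.SpecialLinearGroup (Fin 2) ℤ}
    (H : HermiteData d g) :
    (hermiteSer (zetaBar N) N H : LaurentSeries Kbar) ∈ coeffSubring (zetaRing N) := by
  rw [hermiteSer, xi]
  exact jCusp_mem_coeffSubring N _ _

end ZetaRing


/-! ### The Gauss reduction datum at a cusp -/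

section RedData

variable (N : ℕ) [NeZero N] (A : ValuationSubring Kbar)

/-- the generators of the image lie in `ℤ[ζ]((t))` -/
theorem image_genSet_subset (c : I0 N) :
    ∀ g ∈ cuspSigma N c '' genSet N, g ∈ coeffSubring (zetaRing N) := by
  rintro _ ⟨_, ⟨d, hne, hd, rfl⟩, rfl⟩
  rw [cuspSigma_jdF]
  exact hermiteSer_mem_coeffSubring N _

/-- **the image of every cusp embedding has the Gauss fraction property**, for every valuation
subring `A` of `ℚ̄` -/
theorem hasGaussFrac_cusp (c : I0 N) : HasGaussFrac A (cuspField N c) := by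
  obtain ⟨B₀, hfin, hB₀⟩ := exists_finite_span_zetaRing N
  rw [cuspField_eq_adjoin]
  exact hasGaussFrac_adjoin A (zetaRing N) B₀ hfin hB₀ _ (image_genSet_subset N c)

/-- the residue field of the Gauss valuation at the cusp `c`, inside `k((t))` -/
abbrev FresCusp (c : I0 N) : IntermediateField (ResidueField A) (LaurentSeries (ResidueField A)) :=
  Fres A (cuspField N c) (hasGaussFrac_cusp N A c)

/-- the Gauss reduction datum of the image field -/
abbrev redDataCuspField (c : I0 N) :
    RedData Kbar (cuspField N c) (ResidueField A) (FresCusp N A c) :=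
  redData A (cuspField N c) (hasGaussFrac_cusp N A c)

/-- **the Gauss reduction datum of `F_N` at the cusp `c`** -/
def redDataCusp (c : I0 N) : RedData Kbar (FN N) (ResidueField A) (FresCusp N A c) :=
  comapEquivRD (redDataCuspField N A c) (cuspEquiv N c)

@[simp] theorem redDataCusp_A (c : I0 N) : (redDataCusp N A c).A = A := rfl

theorem mem_RwCusp_iff (c : I0 N) (f : FN N) :
    f ∈ (redDataCusp N A c).Rw ↔
      cuspEquiv N c f ∈ Rw A (cuspField N c) (hasGaussFrac_cusp N A c) := Iff.rfl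

/-- membership in the valuation ring is decided on the expansion: `σ_c f = a / b` with
`a, b ∈ A((t)) ∩ σ_c(F_N)`, `b~ ≠ 0` -/
theorem mem_RwCusp_iff_isFrac (c : I0 N) (f : FN N) :
    f ∈ (redDataCusp N A c).Rw ↔
      ∃ a b : LaurentSeries A, IsFrac A (cuspField N c) (cuspSigma N c f) a b := Iff.rfl

/-- the reduction is computed on the expansion: `red_c f = a~ / b~` -/
theorem coe_redCusp (c : I0 N) (f : FN N) (hf : f ∈ (redDataCusp N A c).Rw)
    {a b : LaurentSeries A} (h : IsFrac A (cuspField N c) (cuspSigma N c f) a b) :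
    (((redDataCusp N A c).red ⟨f, hf⟩ : FresCusp N A c) : LaurentSeries (ResidueField A)) =
      rd A a / rd A b := by
  show redL A (cuspField N c) (hasGaussFrac_cusp N A c) ⟨cuspEquiv N c f, hf⟩ = _
  exact redL_eq h

/-- an element whose expansion has `A`-integral coefficients lies in the valuation ring -/
theorem mem_RwCusp_of_int (c : I0 N) (f : FN N) {a : LaurentSeries A}
    (ha : cuspSigma N c f = emb A a) : f ∈ (redDataCusp N A c).Rw := by
  rw [mem_RwCusp_iff_isFrac]
  refine ⟨a, 1, ?_⟩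
  rw [ha]
  exact IsFrac.of_int (by rw [← ha]; exact cuspSigma_mem_cuspField N c f)

/-- on elements with `A`-integral expansion the reduction is coefficientwise -/
theorem coe_redCusp_of_int (c : I0 N) (f : FN N) {a : LaurentSeries A}
    (ha : cuspSigma N c f = emb A a) (hf : f ∈ (redDataCusp N A c).Rw) :
    (((redDataCusp N A c).red ⟨f, hf⟩ : FresCusp N A c) : LaurentSeries (ResidueField A)) =
      rd A a := by
  have h : IsFrac A (cuspField N c) (cuspSigma N c f) a 1 := by
    rw [ha]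
    exact IsFrac.of_int (by rw [← ha]; exact cuspSigma_mem_cuspField N c f)
  rw [coe_redCusp N A c f hf h, map_one, div_one]

/-- **`e = 1`**: every nonzero element of `F_N` is a constant times a unit of the cusp valuation -/
theorem unramified_cusp (c : I0 N) (f : FN N) (hf : f ≠ 0) :
    ∃ a : Kbar, a ≠ 0 ∧ f / algebraMap Kbar (FN N) a ∈ (redDataCusp N A c).Rw ∧
      (f / algebraMap Kbar (FN N) a)⁻¹ ∈ (redDataCusp N A c).Rw := by
  have hf' : cuspEquiv N c f ≠ 0 := (map_ne_zero_iff _ (cuspEquiv N c).injective).mpr hf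
  obtain ⟨a, ha, h1, h2⟩ := unramified A (cuspField N c) (hasGaussFrac_cusp N A c) _ hf'
  refine ⟨a, ha, ?_, ?_⟩
  · rw [mem_RwCusp_iff, map_div₀, AlgEquiv.commutes]
    exact h1
  · rw [mem_RwCusp_iff, map_inv₀, map_div₀, AlgEquiv.commutes]
    exact h2

end RedData


/-! ### The series `j(ξ t^m)` over a commutative ring -/

section JCuspR

variable (R : Type*) [CommRing R]

/-- `j(ξ t^m)` over a commutative ring (`jCusp` of T24 is the field case) -/
def jCuspR (ξ : Rˣ) (m : ℕ) : LaurentSeries R :=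
  if h : m = 0 then 0 else
    haveI : NeZero m := ⟨h⟩
    cuspJ R ξ m

theorem jCusp_eq_jCuspR {K : Type*} [Field K] (ξ : Kˣ) (m : ℕ) : jCusp ξ m = jCuspR K ξ m := rfl

variable {R}

theorem coeffMap_jCuspR {S : Type*} [CommRing S] (f : R →+* S) (ξ : Rˣ) (m : ℕ) :
    coeffMap f (jCuspR R ξ m) = jCuspR S (Units.map (f : R →* S) ξ) m := by
  by_cases h : m = 0
  · rw [jCuspR, jCuspR, dif_pos h, dif_pos h, map_zero]
  · have : NeZero m := ⟨h⟩
    rw [jCuspR, jCuspR, dif_neg h, dif_neg h, coeffMap_cuspJ]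

end JCuspR

/-! ### The generators `j(q^d)` at a cusp -/

section Generators

variable (N : ℕ) [NeZero N] (A : ValuationSubring Kbar)

theorem zetaBar_mem : ((zetaBar N : Kbarˣ) : Kbar) ∈ A := by
  rcases A.mem_or_inv_mem ((zetaBar N : Kbarˣ) : Kbar) with h | h
  · exact h
  · have h1 : ((zetaBar N : Kbarˣ) : Kbar) = (((zetaBar N : Kbarˣ) : Kbar)⁻¹) ^ (N - 1) := by
      have h2 : ((zetaBar N : Kbarˣ) : Kbar) ^ N = 1 := by
        rw [← Units.val_pow_eq_pow_val, zetaBar_pow, Units.val_one]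
      have hN : N = (N - 1) + 1 := (Nat.sub_add_cancel (Nat.pos_of_ne_zero (NeZero.ne N))).symm
      rw [inv_pow]
      exact eq_inv_of_mul_eq_one_left (by rw [← pow_succ', ← hN, h2])
    rw [h1]
    exact pow_mem h _

theorem zetaBar_inv_mem : (((zetaBar N)⁻¹ : Kbarˣ) : Kbar) ∈ A := by
  have h1 : (((zetaBar N)⁻¹ : Kbarˣ) : Kbar) = ((zetaBar N : Kbarˣ) : Kbar) ^ (N - 1) := by
    have hN : N = (N - 1) + 1 := (Nat.sub_add_cancel (Nat.pos_of_ne_zero (NeZero.ne N))).symm
    rw [← Units.val_pow_eq_pow_val]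
    congr 1
    rw [inv_eq_iff_eq_inv, eq_inv_iff_mul_eq_one, ← pow_succ', ← hN, zetaBar_pow]
  rw [h1]
  exact pow_mem (zetaBar_mem N A) _

/-- `ζ_N` as a unit of `A` -/
def zetaA : Aˣ where
  val := ⟨((zetaBar N : Kbarˣ) : Kbar), zetaBar_mem N A⟩
  inv := ⟨(((zetaBar N)⁻¹ : Kbarˣ) : Kbar), zetaBar_inv_mem N A⟩
  val_inv := Subtype.ext (by simp)
  inv_val := Subtype.ext (by simp)

theorem map_subtype_zetaA : Units.map (A.subtype : A →* Kbar) (zetaA N A) = zetaBar N :=
  Units.ext rfl

/-- the reduction of `ζ_N` in the residue field of `A` -/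
def zetaRes : (ResidueField A)ˣ := Units.map (residue A : A →* ResidueField A) (zetaA N A)

theorem zetaRes_pow : zetaRes N A ^ N = 1 := by
  rw [zetaRes, ← map_pow]
  have h : zetaA N A ^ N = 1 := by
    apply Units.ext
    apply Subtype.ext
    show ((zetaBar N : Kbarˣ) : Kbar) ^ N = 1
    rw [← Units.val_pow_eq_pow_val, zetaBar_pow, Units.val_one]
  rw [h, map_one]

variable {N}

/-- the Hermite series over `ℚ̄` has coefficients in `A` -/
theorem hermiteSer_eq_emb {d : ℕ} {g : Matrix.SpecialLinearGroup (Fin 2) ℤ}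
    (H : HermiteData d g) :
    (hermiteSer (zetaBar N) N H : LaurentSeries Kbar) =
      emb A (jCuspR A (zetaA N A ^ (((N / H.Dn : ℕ) : ℤ) * H.B)) (H.expo N)) := by
  rw [emb, coeffMap_jCuspR, map_zpow, map_subtype_zetaA, hermiteSer, xi, jCusp_eq_jCuspR]

/-- the reduction of the Hermite series is the Hermite series of the reduced root of unity -/
theorem rd_hermiteSer {d : ℕ} {g : Matrix.SpecialLinearGroup (Fin 2) ℤ}
    (H : HermiteData d g) :
    rd A (jCuspR A (zetaA N A ^ (((N / H.Dn : ℕ) : ℤ) * H.B)) (H.expo N)) =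
      (hermiteSer (zetaRes N A) N H : LaurentSeries (ResidueField A)) := by
  rw [rd, coeffMap_jCuspR, map_zpow, hermiteSer, xi, jCusp_eq_jCuspR]
  rfl

variable (N)

/-- the generators lie in the valuation ring of every cusp -/
theorem jdF_mem_RwCusp (c : I0 N) {d : ℕ} [NeZero d] (hd : d ∣ N) :
    jdF N d hd ∈ (redDataCusp N A c).Rw :=
  mem_RwCusp_of_int N A c _ ((cuspSigma_jdF N c hd).trans (hermiteSer_eq_emb A _))

/-- **reduction of the generators**: `red_c (j(q^d)) = j(ζ~_D^B t^m)`, the Hermite series over the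
residue field -/
theorem coe_redCusp_jdF (c : I0 N) {d : ℕ} [NeZero d] (hd : d ∣ N)
    (h : jdF N d hd ∈ (redDataCusp N A c).Rw) :
    (((redDataCusp N A c).red ⟨jdF N d hd, h⟩ : FresCusp N A c) :
        LaurentSeries (ResidueField A)) =
      hermiteSer (zetaRes N A) N (herm N c ⟨d, hd⟩) := by
  rw [coe_redCusp_of_int N A c _ ((cuspSigma_jdF N c hd).trans (hermiteSer_eq_emb A _)) h,
    rd_hermiteSer]

theorem jF_mem_RwCusp (c : I0 N) : jF N ∈ (redDataCusp N A c).Rw := jdF_mem_RwCusp N A c _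

/-- `red_c j = j~(t^N)` at every cusp -/
theorem coe_redCusp_jF (c : I0 N) (h : jF N ∈ (redDataCusp N A c).Rw) :
    (((redDataCusp N A c).red ⟨jF N, h⟩ : FresCusp N A c) : LaurentSeries (ResidueField A)) =
      qExpand (ResidueField A) N (jqModC (ResidueField A)) := by
  exact (coe_redCusp_jdF N A c (one_dvd N) h).trans (hermiteSer_d_one _)

/-- **`j` is a Gauss chart for every cusp valuation** -/
theorem isGaussChart_jF_cusp (c : I0 N) : (redDataCusp N A c).IsGaussChart (jF N) := by
  refine ⟨jF_mem_RwCusp N A c, ?_⟩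
  apply Fres.transcendental_of_coe
  rw [coe_redCusp_jF]
  apply transcendental_of_order_neg
  apply order_neg_of_coeff_ne_zero (n := (N : ℤ) * (-1))
  · have : (0 : ℤ) < N := by exact_mod_cast Nat.pos_of_ne_zero (NeZero.ne N)
    linarith
  · rw [qExpand_coeff_mul, ModularCurve.coeff_jqModC_neg_one]
    exact one_ne_zero

end Generators

end Fermat.Agent.GL.CuspVal
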