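import Fermat.Agent.GK.Cusp.Witness

/-!
# GATE-L / PREP L7c (cusp part): orders of the generators `j(q^d)` at EVERY cusp, in closed form

For a cusp `c : I0 N` with chosen representative `rep N c ∈ SL₂(ℤ)`, lower-left entry `c₁₀`:
`ord_c (j_d) = -(N/d) · gcd(c₁₀, d)²` (in the local parameter `t = q^{1/N}` of T24's `cuspSigma`).

Consequences for `d ∣ d' ∣ N`, `d' = d e`: both `j_d / j_{d'}^e` and `j_{d'} / j_d^e` are regular at
ALL cusps (`RegOver ℚ̄ j⁻¹`), and at the Gauss valuation `w₁` over `ℓ` the pair `(j_d, j_{dℓ})` is a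
Kronecker pair: `red₁ j_{dℓ} = (red₁ j_d)^ℓ`.  So all the separators of `GK/Cusp/Witness.lean` are
available at every level (e.g. `j_{q²}/j^{q²}`, `j_q/j^q`, `j_q/j_{q²}^q`, `j_{q²}/j_q^q` for `q² ∣ N`).
-/

set_option autoImplicit false

noncomputable section

namespace Fermat.Agent.GL.CuspOrd

open AlgebraicCurve IntermediateField ModularCurve HahnSeries
open Fermat.Agent.S24 Fermat.Agent.S28 Fermat.Agent.S28.CuspExp Fermat.Agent.S28.Assemble
  Fermat.Agent.S24_helper62 Fermat.Agent.S24_helper76.CuspOrbit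
open Fermat.Agent.GJ.J1 Fermat.Agent.GJ.J1.Val Fermat.Agent.GK.Cusp
open scoped MatrixGroups

section Orders

variable (N : ℕ) [NeZero N]

/-- the lower-left entry of the chosen representative of the cusp `c` -/
def cuspC (c : I0 N) : ℤ := (rep N c) 1 0

/-- `g_d(c) = gcd(c₁₀, d)` -/
def cuspGcd (c : I0 N) (d : ℕ) : ℕ := Nat.gcd (cuspC N c).natAbs d

omit [NeZero N] in
theorem cuspGcd_pos (c : I0 N) {d : ℕ} (hd : 0 < d) : 0 < cuspGcd N c d :=
  Nat.gcd_pos_of_pos_right _ hd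

omit [NeZero N] in
theorem cuspGcd_dvd (c : I0 N) (d : ℕ) : cuspGcd N c d ∣ d := Nat.gcd_dvd_right _ _

omit [NeZero N] in
theorem cuspGcd_dvd_of_dvd (c : I0 N) {d d' : ℕ} (h : d ∣ d') : cuspGcd N c d ∣ cuspGcd N c d' :=
  Nat.gcd_dvd_gcd_of_dvd_right _ h

omit [NeZero N] in
/-- `gcd(c, d e) ∣ gcd(c, d) · e` -/
theorem cuspGcd_mul_dvd (c : I0 N) (d e : ℕ) : cuspGcd N c (d * e) ∣ cuspGcd N c d * e := by
  unfold cuspGcd
  exact (Nat.gcd_mul_right_dvd_mul_gcd _ d e).trans (Nat.mul_dvd_mul_left _ (Nat.gcd_dvd_right _ _))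

omit [NeZero N] in
theorem cuspGcd_one (c : I0 N) : cuspGcd N c 1 = 1 := Nat.gcd_one_right _

theorem expo_herm (c : I0 N) {d : ℕ} (hd : d ∣ N) :
    (herm N c ⟨d, hd⟩).expo N = N / d * cuspGcd N c d ^ 2 := by
  rw [HermiteData.expo, HermiteData.An_eq]
  rfl

/-- **`ord_c (j_d) = -(N/d) · gcd(c₁₀, d)²`** -/
theorem cuspVal_jdF_gcd (c : I0 N) {d : ℕ} [NeZero d] (hd : d ∣ N) :
    cuspVal N c (jdF N d hd) = -((N / d * cuspGcd N c d ^ 2 : ℕ) : ℤ) := by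
  rw [cuspVal_jdF, expo_herm]

theorem order_cuspSigma_jdF (c : I0 N) {d : ℕ} [NeZero d] (hd : d ∣ N) :
    (cuspSigma N c (jdF N d hd)).order = -((N / d * cuspGcd N c d ^ 2 : ℕ) : ℤ) :=
  cuspVal_jdF_gcd N c hd

/-- the order of a quotient of powers of two generators -/
theorem cuspVal_pow_div_pow (c : I0 N) {d d' : ℕ} [NeZero d] [NeZero d'] (hd : d ∣ N)
    (hd' : d' ∣ N) (a b : ℕ) :
    cuspVal N c (jdF N d hd ^ a / jdF N d' hd' ^ b) =
      (b : ℤ) * (N / d' * cuspGcd N c d' ^ 2 : ℕ) - (a : ℤ) * (N / d * cuspGcd N c d ^ 2 : ℕ) := by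
  have h1 := jdF_ne_zero N hd
  have h2 := jdF_ne_zero N hd'
  rw [(cuspVal N c).map_div (pow_ne_zero a h1) (pow_ne_zero b h2), (cuspVal N c).map_pow h1,
    (cuspVal N c).map_pow h2, cuspVal_jdF_gcd, cuspVal_jdF_gcd]
  ring

/-- regularity at all cusps of `j_d^a / j_{d'}^b` from the numerical inequality at every cusp -/
theorem regOver_pow_div_pow {d d' : ℕ} [NeZero d] [NeZero d'] (hd : d ∣ N) (hd' : d' ∣ N)
    (a b : ℕ)
    (h : ∀ c : I0 N, a * (N / d * cuspGcd N c d ^ 2) ≤ b * (N / d' * cuspGcd N c d' ^ 2)) :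
    RegOver Kbar (jF N)⁻¹ (jdF N d hd ^ a / jdF N d' hd' ^ b) := by
  apply regOver_inv_jF_of_order_nonneg
  intro c
  rw [← cuspVal_apply, cuspVal_pow_div_pow]
  have := h c
  have h2 : ((a * (N / d * cuspGcd N c d ^ 2) : ℕ) : ℤ) ≤
      ((b * (N / d' * cuspGcd N c d' ^ 2) : ℕ) : ℤ) := by exact_mod_cast this
  push_cast at h2 ⊢
  linarith

/-- **`j_d / j_{de}^e` is regular at all cusps** (`de ∣ N`) -/
theorem regOver_jdF_div_jdF_pow {d e : ℕ} [NeZero d] [NeZero (d * e)] (hde : d * e ∣ N) :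
    RegOver Kbar (jF N)⁻¹
      (jdF N d ((dvd_mul_right d e).trans hde) / jdF N (d * e) hde ^ e) := by
  have hd : d ∣ N := (dvd_mul_right d e).trans hde
  have h := regOver_pow_div_pow N hd hde 1 e ?_
  · rwa [pow_one] at h
  intro c
  have hd0 : 0 < d := Nat.pos_of_ne_zero (NeZero.ne d)
  have he0 : 0 < e := Nat.pos_of_ne_zero fun h0 => NeZero.ne (d * e) (by rw [h0, mul_zero])
  obtain ⟨m, rfl⟩ := hde
  have h1 : d * e * m / d = e * m := by
    rw [mul_assoc]; exact Nat.mul_div_cancel_left _ hd0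
  have h2 : d * e * m / (d * e) = m := Nat.mul_div_cancel_left _ (Nat.mul_pos hd0 he0)
  rw [h1, h2, one_mul]
  have h3 : cuspGcd (d * e * m) c d ≤ cuspGcd (d * e * m) c (d * e) :=
    Nat.le_of_dvd (cuspGcd_pos _ c (Nat.mul_pos hd0 he0))
      (cuspGcd_dvd_of_dvd _ c (dvd_mul_right d e))
  have h4 := Nat.pow_le_pow_left h3 2
  calc e * m * cuspGcd (d * e * m) c d ^ 2 ≤ e * m * cuspGcd (d * e * m) c (d * e) ^ 2 :=
        Nat.mul_le_mul_left _ h4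
    _ = e * (m * cuspGcd (d * e * m) c (d * e) ^ 2) := by ring

/-- **`j_{de} / j_d^e` is regular at all cusps** (`de ∣ N`) -/
theorem regOver_jdF_mul_div_jdF_pow {d e : ℕ} [NeZero d] [NeZero (d * e)] (hde : d * e ∣ N) :
    RegOver Kbar (jF N)⁻¹
      (jdF N (d * e) hde / jdF N d ((dvd_mul_right d e).trans hde) ^ e) := by
  have hd : d ∣ N := (dvd_mul_right d e).trans hde
  have h := regOver_pow_div_pow N hde hd 1 e ?_
  · rwa [pow_one] at h
  intro c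
  have hd0 : 0 < d := Nat.pos_of_ne_zero (NeZero.ne d)
  have he0 : 0 < e := Nat.pos_of_ne_zero fun h0 => NeZero.ne (d * e) (by rw [h0, mul_zero])
  obtain ⟨m, rfl⟩ := hde
  have h1 : d * e * m / d = e * m := by
    rw [mul_assoc]; exact Nat.mul_div_cancel_left _ hd0
  have h2 : d * e * m / (d * e) = m := Nat.mul_div_cancel_left _ (Nat.mul_pos hd0 he0)
  rw [h1, h2, one_mul]
  have h3 : cuspGcd (d * e * m) c (d * e) ≤ cuspGcd (d * e * m) c d * e :=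
    Nat.le_of_dvd (Nat.mul_pos (cuspGcd_pos _ c hd0) he0) (cuspGcd_mul_dvd _ c d e)
  have h4 := Nat.pow_le_pow_left h3 2
  calc m * cuspGcd (d * e * m) c (d * e) ^ 2 ≤ m * (cuspGcd (d * e * m) c d * e) ^ 2 :=
        Nat.mul_le_mul_left _ h4
    _ = e * (e * m * cuspGcd (d * e * m) c d ^ 2) := by ring

end Orders

/-! ### the Kronecker pairs `(j_d, j_{dℓ})` at the Gauss valuation `w₁` over `ℓ` -/

section Red

open Fermat.Agent.GJ.J1.Haupt Fermat.Agent.GK.Val.Degrees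

variable (N : ℕ) [NeZero N] (ℓ : ℕ) [hℓ : Fact ℓ.Prime] [NeZero ℓ]
  (A : ValuationSubring (AlgebraicClosure ℚ))

local notation "𝕜" => IsLocalRing.ResidueField A

omit hℓ [NeZero ℓ] in
/-- `red₁ j_d = j~(Q^d)` is transcendental over the residue field -/
theorem transcendental_red_jdF {d : ℕ} [NeZero d] (hd : d ∣ N) :
    Transcendental 𝕜 ((redDataBar N A).red ⟨jdF N d hd, jdF_mem_Rw N A hd⟩) := by
  apply Fres.transcendental_of_coe
  rw [coe_red_jdF]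
  apply transcendental_of_order_neg
  rw [Fermat.Agent.S24_helper76.CuspOrbit.order_qExpand_jqModC d 𝕜]
  have : (0 : ℤ) < d := by exact_mod_cast Nat.pos_of_ne_zero (NeZero.ne d)
  linarith

omit hℓ [NeZero ℓ] in
theorem red_jdF_ne_zero {d : ℕ} [NeZero d] (hd : d ∣ N) :
    (redDataBar N A).red ⟨jdF N d hd, jdF_mem_Rw N A hd⟩ ≠ 0 := fun h =>
  transcendental_red_jdF N A hd (h ▸ isAlgebraic_zero)

/-- **`red₁ j_{dℓ} = (red₁ j_d)^ℓ`** for `A` over `ℓ` -/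
theorem red_jdF_mul_eq_pow (hA : A.LiesOverPrime ℓ) {d : ℕ} [NeZero d] [NeZero (d * ℓ)]
    (hdl : d * ℓ ∣ N) :
    (redDataBar N A).red ⟨jdF N (d * ℓ) hdl, jdF_mem_Rw N A hdl⟩ =
      (redDataBar N A).red ⟨jdF N d ((dvd_mul_right d ℓ).trans hdl),
        jdF_mem_Rw N A ((dvd_mul_right d ℓ).trans hdl)⟩ ^ ℓ := by
  have : CharP 𝕜 ℓ := charP_residue A hℓ.out hA
  apply Subtype.ext
  rw [coe_red_jdF, SubmonoidClass.coe_pow, coe_red_jdF,
    Fermat.Agent.GJ.J3.QS.qExpand_mul_jqModC_char ℓ d]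

/-- `red₁ j_{dℓ²} = (red₁ j_d)^(ℓ²)` -/
theorem red_jdF_mul_sq_eq_pow (hA : A.LiesOverPrime ℓ) {d : ℕ} [NeZero d] [NeZero (d * ℓ)]
    [NeZero (d * ℓ * ℓ)] (hdl : d * ℓ * ℓ ∣ N) :
    (redDataBar N A).red ⟨jdF N (d * ℓ * ℓ) hdl, jdF_mem_Rw N A hdl⟩ =
      (redDataBar N A).red ⟨jdF N d ((dvd_mul_right d ℓ).trans ((dvd_mul_right (d * ℓ) ℓ).trans hdl)),
        jdF_mem_Rw N A _⟩ ^ (ℓ ^ 2) := by
  rw [red_jdF_mul_eq_pow N ℓ A hA (d := d * ℓ) hdl,
    red_jdF_mul_eq_pow N ℓ A hA (d := d) ((dvd_mul_right (d * ℓ) ℓ).trans hdl), ← pow_mul, pow_two]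

/-! ### the separators attached to a pair `(j_d, j_{de})` with `red₁ j_{de} = (red₁ j_d)^e` -/

/-- `1 - j_{de} / j_d^e` -/
def kronSep {d e : ℕ} [NeZero d] [NeZero (d * e)] (hde : d * e ∣ N) : FN N :=
  1 - jdF N (d * e) hde / jdF N d ((dvd_mul_right d e).trans hde) ^ e

/-- `1 - j_d / j_{de}^e` -/
def kronSep' {d e : ℕ} [NeZero d] [NeZero (d * e)] (hde : d * e ∣ N) : FN N :=
  1 - jdF N d ((dvd_mul_right d e).trans hde) / jdF N (d * e) hde ^ e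

omit hℓ [NeZero ℓ] in
theorem regOver_kronSep {d e : ℕ} [NeZero d] [NeZero (d * e)] (hde : d * e ∣ N) :
    RegOver Kbar (jF N)⁻¹ (kronSep N hde) :=
  (regOver_one _).sub (regOver_jdF_mul_div_jdF_pow N hde)

omit hℓ [NeZero ℓ] in
theorem regOver_kronSep' {d e : ℕ} [NeZero d] [NeZero (d * e)] (hde : d * e ∣ N) :
    RegOver Kbar (jF N)⁻¹ (kronSep' N hde) :=
  (regOver_one _).sub (regOver_jdF_div_jdF_pow N hde)

omit hℓ [NeZero ℓ] in
theorem kronSep_mem_Rw {d e : ℕ} [NeZero d] [NeZero (d * e)] (hde : d * e ∣ N) :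
    kronSep N hde ∈ (redDataBar N A).Rw :=
  kron_sep_mem (redDataBar N A) (jdF_mem_Rw N A _) (jdF_mem_Rw N A hde) e (red_jdF_ne_zero N A _)

omit hℓ [NeZero ℓ] in
/-- `red₁ (1 - j_{de}/j_d^e) = 0` for a Kronecker pair -/
theorem red_kronSep {d e : ℕ} [NeZero d] [NeZero (d * e)] (hde : d * e ∣ N)
    (hpair : (redDataBar N A).red ⟨jdF N (d * e) hde, jdF_mem_Rw N A hde⟩ =
      (redDataBar N A).red ⟨jdF N d ((dvd_mul_right d e).trans hde), jdF_mem_Rw N A _⟩ ^ e)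
    (h : kronSep N hde ∈ (redDataBar N A).Rw) :
    (redDataBar N A).red ⟨kronSep N hde, h⟩ = 0 :=
  red_kron_sep (redDataBar N A) (jdF_mem_Rw N A _) (jdF_mem_Rw N A hde) e (red_jdF_ne_zero N A _)
    hpair h

omit hℓ [NeZero ℓ] in
theorem kronSep'_mem_Rw {d e : ℕ} [NeZero d] [NeZero (d * e)] (hde : d * e ∣ N)
    (hpair : (redDataBar N A).red ⟨jdF N (d * e) hde, jdF_mem_Rw N A hde⟩ =
      (redDataBar N A).red ⟨jdF N d ((dvd_mul_right d e).trans hde), jdF_mem_Rw N A _⟩ ^ e) :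
    kronSep' N hde ∈ (redDataBar N A).Rw :=
  kron_sep_mem' (redDataBar N A) (jdF_mem_Rw N A _) (jdF_mem_Rw N A hde) e
    (red_jdF_ne_zero N A _) hpair

omit hℓ [NeZero ℓ] in
/-- `red₁ (1 - j_d/j_{de}^e) = 1 - (red₁ j_d)⁻¹^(e² - 1)` for a Kronecker pair -/
theorem red_kronSep' {d e : ℕ} [NeZero d] [NeZero (d * e)] (hde : d * e ∣ N)
    (hpair : (redDataBar N A).red ⟨jdF N (d * e) hde, jdF_mem_Rw N A hde⟩ =
      (redDataBar N A).red ⟨jdF N d ((dvd_mul_right d e).trans hde), jdF_mem_Rw N A _⟩ ^ e)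
    (he : 0 < e) (h : kronSep' N hde ∈ (redDataBar N A).Rw) :
    (redDataBar N A).red ⟨kronSep' N hde, h⟩ =
      1 - ((redDataBar N A).red ⟨jdF N d ((dvd_mul_right d e).trans hde),
        jdF_mem_Rw N A _⟩)⁻¹ ^ (e ^ 2 - 1) :=
  red_kron_sep' (redDataBar N A) (jdF_mem_Rw N A _) (jdF_mem_Rw N A hde) e
    (red_jdF_ne_zero N A _) hpair he h

omit hℓ [NeZero ℓ] in
theorem red_kronSep'_ne_zero {d e : ℕ} [NeZero d] [NeZero (d * e)] (hde : d * e ∣ N)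
    (hpair : (redDataBar N A).red ⟨jdF N (d * e) hde, jdF_mem_Rw N A hde⟩ =
      (redDataBar N A).red ⟨jdF N d ((dvd_mul_right d e).trans hde), jdF_mem_Rw N A _⟩ ^ e)
    (he : 1 < e) (h : kronSep' N hde ∈ (redDataBar N A).Rw) :
    (redDataBar N A).red ⟨kronSep' N hde, h⟩ ≠ 0 :=
  red_kron_sep'_ne_zero (redDataBar N A) (jdF_mem_Rw N A _) (jdF_mem_Rw N A hde) e
    (red_jdF_ne_zero N A _) hpair he (transcendental_red_jdF N A _) h

omit hℓ [NeZero ℓ] in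
/-- `(red₁ (1 - j_d/j_{de}^e))⁻¹` is regular over `(red₁ j_d)⁻¹ = 0` -/
theorem regOver_inv_red_kronSep' {d e : ℕ} [NeZero d] [NeZero (d * e)] (hde : d * e ∣ N)
    (hpair : (redDataBar N A).red ⟨jdF N (d * e) hde, jdF_mem_Rw N A hde⟩ =
      (redDataBar N A).red ⟨jdF N d ((dvd_mul_right d e).trans hde), jdF_mem_Rw N A _⟩ ^ e)
    (he : 1 < e) (h : kronSep' N hde ∈ (redDataBar N A).Rw) :
    RegOver 𝕜 ((redDataBar N A).red ⟨jdF N d ((dvd_mul_right d e).trans hde),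
        jdF_mem_Rw N A _⟩)⁻¹ ((redDataBar N A).red ⟨kronSep' N hde, h⟩)⁻¹ :=
  regOver_inv_red_kron_sep' (redDataBar N A) (jdF_mem_Rw N A _) (jdF_mem_Rw N A hde) e
    (red_jdF_ne_zero N A _) hpair he h

end Red

end Fermat.Agent.GL.CuspOrd
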