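/-
GATE-L / L3c (helper18): the `w₃`-ROWS of the table for the two degeneracy maps
`α = alphaB (M'q) q`, `β = betaB (M'q) q : F_{M'q} → F_{M'q·q}` (`q ∤ M'`), at helper93's cusp
`cusp3 = 1/(qM')` of level `N = M'q²`:

* generic transport (`Transport`): an algebra map `φ : F_{N₁} → F_N` whose expansion at a cusp `c`
  of level `N` is a coefficient-compatible substitution `θ` of the `q`-expansion
  (`σ_c (φ x) = θ x`) pulls the cusp valuation `w_c` back to the Gauss valuation `w₁'` of level `N₁`: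
  `φ x ∈ R_{w_c} ↔ x ∈ R_{w₁'}`, `red_c (φ x) = θ~ (red₁' x)` (helper15's `CoeffCompat`);
* `(α; w₃ → w₁')`: `σ₃ (α x) = x(t^N)`, so `α x ∈ R_{w₃} ↔ x ∈ R_{w₁'}`, `red₃ (α x) = (red₁' x)(t^N)`;
* `(β; w₃ → w₂')`: `σ₃ (β (W_q x)) = x(ξ₀ t^N)` with ONE `q`-th root of unity `ξ₀ = ζ_q^{1/M'}`, so
  `β y ∈ R_{w₃} ↔ y ∈ R_{w₂'}` (`w₂' = w₁' ∘ W_q`, helper42) and, for `A` over `q` (`ξ₀~ = 1`),
  `red₃ (β y) = (red₂' y)(t^N)`.
-/
import Fermat.Agent.GL.Val.ThirdVal
import Fermat.Agent.GK.QS.OldRed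
import Fermat.Agent.GK.AL.SecondVal
import Fermat.Agent.GJ.HN.Hermite
import Fermat.Agent.GJ.HN.NormMer

set_option autoImplicit false

noncomputable section

namespace Fermat.Agent.GL.W3Table

open HahnSeries ModularCurve IsLocalRing Matrix MatrixGroups CongruenceSubgroup
open Fermat.Agent.S24 Fermat.Agent.S28 Fermat.Agent.S28.CuspExp Fermat.Agent.S28.Assemble
open Fermat.Agent.S24_helper62 Fermat.Agent.S24_helper82
open Fermat.Agent.GJ.J1 Fermat.Agent.GJ.J1.Val Fermat.Agent.GL.CuspVal Fermat.Agent.GL.W3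
open Fermat.Agent.GK.QS Fermat.Agent.GK.AL Fermat.Agent.GJ.HN

/-! ### The substitution `Q ↦ ξ t^e` is coefficient-compatible -/

section Generic

variable {L : Type*} [Field L] (A : ValuationSubring L)

/-- the triple `Q ↦ ξ t^e` for a unit `ξ` of `A` -/
theorem coeffCompat_cuspS (ξ : Aˣ) (e : ℕ) [NeZero e] :
    CoeffCompat A (cuspS L (Units.map (A.subtype : A →* L) ξ) e) (cuspS A ξ e)
      (cuspS (ResidueField A) (Units.map (residue A : A →* ResidueField A) ξ) e) :=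
  ⟨fun a => coeffMap_cuspS _ ξ e a, fun a => coeffMap_cuspS _ ξ e a⟩

end Generic

/-! ### Transport of the Gauss valuation along an expansion identity -/

section Transport

variable {N₁ N : ℕ} [NeZero N₁] [NeZero N] (A : ValuationSubring Kbar)
variable {θL : LaurentSeries Kbar →+* LaurentSeries Kbar}
  {θA : LaurentSeries A →+* LaurentSeries A}
  {θk : LaurentSeries (ResidueField A) →+* LaurentSeries (ResidueField A)}
variable (hθ : CoeffCompat A θL θA θk) (φ : FN N₁ →ₐ[Kbar] FN N) (c : I0 N)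
  (hφ : ∀ x : FN N₁, cuspSigma N c (φ x) = θL (x : LaurentSeries Kbar))

include hφ in
theorem map_mem_cuspField : ∀ x ∈ modularFunctionFieldBar N₁, θL x ∈ cuspField N c := by
  intro x hx
  rw [← hφ ⟨x, hx⟩]
  exact cuspSigma_mem_cuspField N c _

include hθ hφ in
/-- **`φ x ∈ R_{w_c} ↔ x ∈ R_{w₁'}`** -/
theorem mem_RwCusp_map_iff (x : FN N₁) :
    φ x ∈ (redDataCusp N A c).Rw ↔ x ∈ (redDataBar N₁ A).Rw := by
  rw [mem_RwCusp_iff]
  have h1 := hθ.mem_Rw_map_iff (hasGaussFrac_bar N₁ A) (hasGaussFrac_cusp N A c)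
    (map_mem_cuspField φ c hφ) x
  have h2 : cuspEquiv N c (φ x) =
      ⟨θL (x : LaurentSeries Kbar), map_mem_cuspField φ c hφ _ x.2⟩ := Subtype.ext (hφ x)
  rw [h2]
  exact h1

include hθ hφ in
/-- **`red_c (φ x) = θ~ (red₁' x)`** -/
theorem coe_redCusp_map (x : FN N₁) (hx : x ∈ (redDataBar N₁ A).Rw)
    (h : φ x ∈ (redDataCusp N A c).Rw) :
    (((redDataCusp N A c).red ⟨φ x, h⟩ : FresCusp N A c) : LaurentSeries (ResidueField A)) =
      θk (((redDataBar N₁ A).red ⟨x, hx⟩ : FresBar N₁ A) : LaurentSeries (ResidueField A)) := by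
  have h1 := hθ.redL_map (hasGaussFrac_bar N₁ A) (hasGaussFrac_cusp N A c)
    (map_mem_cuspField φ c hφ) ⟨x, hx⟩
  show redL A (cuspField N c) (hasGaussFrac_cusp N A c) ⟨cuspEquiv N c (φ x), h⟩ = _
  have h2 : (⟨cuspEquiv N c (φ x), h⟩ : Rw A (cuspField N c) (hasGaussFrac_cusp N A c)) =
      ⟨⟨θL (x : LaurentSeries Kbar), map_mem_cuspField φ c hφ _ x.2⟩,
        hθ.mem_Rw_map (hasGaussFrac_bar N₁ A) (hasGaussFrac_cusp N A c)
          (map_mem_cuspField φ c hφ) hx⟩ := Subtype.ext (Subtype.ext (hφ x))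
  rw [h2]
  exact h1

end Transport

/-! ### Algebra-map forms of the substitutions -/

section Alg

/-- `x ↦ x(ξ t^e)` as a `ℚ̄`-algebra endomorphism of `ℚ̄((t))` -/
def cuspSAlg (ξ : Kbarˣ) (e : ℕ) [NeZero e] : LaurentSeries Kbar →ₐ[Kbar] LaurentSeries Kbar :=
  { cuspS Kbar ξ e with
    commutes' := fun a => by
      show cuspS Kbar ξ e (algebraMap Kbar (LaurentSeries Kbar) a) = _
      rw [EvalBridge.algebraMap_laurent_eq_C, cuspS_C] }

@[simp] theorem cuspSAlg_apply (ξ : Kbarˣ) (e : ℕ) [NeZero e] (x : LaurentSeries Kbar) :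
    cuspSAlg ξ e x = cuspS Kbar ξ e x := rfl

theorem jdSeries_eq (d : ℕ) [NeZero d] : jdSeries d = qExpand Kbar d (jqModC Kbar) := by
  rw [jdSeries, coeffEmb_qExpand, coeffEmb_jq]

theorem coe_jdF (N : ℕ) [NeZero N] (d : ℕ) [NeZero d] (hd : d ∣ N) :
    ((jdF N d hd : FN N) : LaurentSeries Kbar) = qExpand Kbar d (jqModC Kbar) :=
  jdSeries_eq d

/-- `jdF` only depends on the value of the divisor -/
theorem jdF_congr (N : ℕ) [NeZero N] {d d' : ℕ} [NeZero d] [NeZero d'] (hdd : d = d')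
    (hd : d ∣ N) (hd' : d' ∣ N) : jdF N d hd = jdF N d' hd' := by
  subst hdd
  rfl

/-- `(x(Q^d))(ξ t^e) = x(ξ^d t^{e d})` -/
theorem cuspS_qExpand (ξ : Kbarˣ) (e d : ℕ) [NeZero e] [NeZero d] (x : LaurentSeries Kbar) :
    cuspS Kbar ξ e (qExpand Kbar d x) = cuspS Kbar (ξ ^ d) (e * d) x := by
  rw [cuspS_apply, cuspS_apply, scaleHom_qExpand, qExpand_qExpand]

end Alg

/-! ### The two rows at `cusp3`, level `N = M' q · q` -/

section Rows

variable {q M' : ℕ}

theorem level_eq : M' * q * q = M' * q ^ 2 := by ring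

theorem div_q_level (hq : q.Prime) : M' * q * q / q = M' * q := Nat.mul_div_cancel _ hq.pos

theorem exactDvd_level (hq : q.Prime) (hqM : ¬ q ∣ M') : ExactDvd q (M' * q) where
  prime := hq
  dvd := dvd_mul_left q M'
  not_sq := by
    intro h
    rw [pow_two] at h
    exact hqM (Nat.dvd_of_mul_dvd_mul_right hq.pos h)

variable [NeZero q] [NeZero M']

/-! #### the `α`-row -/

/-- **`σ₃ (α x) = x(t^N)`** -/
theorem cuspSigma_cusp3_alphaB (hq : q.Prime) (x : FN (M' * q)) :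
    cuspSigma (M' * q * q) (cusp3 (M' * q * q) q) (alphaB (M' * q) q x) =
      qExpand Kbar (M' * q * q) (x : LaurentSeries Kbar) := by
  have h : ((cuspSigma (M' * q * q) (cusp3 (M' * q * q) q)).comp (alphaB (M' * q) q)) =
      (cuspSAlg 1 (M' * q * q)).comp (IntermediateField.val (modularFunctionFieldBar (M' * q))) := by
    apply algHom_ext_FN
    intro d _ hd
    show cuspSigma (M' * q * q) (cusp3 (M' * q * q) q) (alphaB (M' * q) q (jdF (M' * q) d hd)) =
      cuspS Kbar 1 (M' * q * q) ((jdF (M' * q) d hd : FN (M' * q)) : LaurentSeries Kbar)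
    rw [alphaB_jdF, cuspSigma_cusp3_low (by rw [div_q_level hq]; exact hd), coe_jdF, cuspS_one,
      qExpand_qExpand]
  have h2 := DFunLike.congr_fun h x
  rw [AlgHom.comp_apply, AlgHom.comp_apply, cuspSAlg_apply, cuspS_one] at h2
  exact h2

/-- `α x ∈ R_{w₃} ↔ x ∈ R_{w₁'}` (every `A`) -/
theorem alphaB_mem_Rw3_iff (A : ValuationSubring Kbar) (hq : q.Prime) (x : FN (M' * q)) :
    alphaB (M' * q) q x ∈ (redData3 (M' * q * q) A q).Rw ↔ x ∈ (redDataBar (M' * q) A).Rw :=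
  mem_RwCusp_map_iff A (coeffCompat_qExpand A (M' * q * q)) (alphaB (M' * q) q) _
    (cuspSigma_cusp3_alphaB hq) x

/-- **`red₃ (α x) = (red₁' x)(t^N)`** (every `A`) -/
theorem coe_red3_alphaB (A : ValuationSubring Kbar) (hq : q.Prime) (x : FN (M' * q))
    (hx : x ∈ (redDataBar (M' * q) A).Rw)
    (h : alphaB (M' * q) q x ∈ (redData3 (M' * q * q) A q).Rw) :
    (((redData3 (M' * q * q) A q).red ⟨alphaB (M' * q) q x, h⟩ :
        FresCusp (M' * q * q) A (cusp3 (M' * q * q) q)) : LaurentSeries (ResidueField A)) =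
      qExpand (ResidueField A) (M' * q * q)
        (((redDataBar (M' * q) A).red ⟨x, hx⟩ : FresBar (M' * q) A) :
          LaurentSeries (ResidueField A)) :=
  coe_redCusp_map A (coeffCompat_qExpand A (M' * q * q)) (alphaB (M' * q) q) _
    (cuspSigma_cusp3_alphaB hq) x hx h

/-! #### the root of unity `ξ₀ = ζ_q^{1/M'}` -/

/-- an inverse of `M'` modulo `q` -/
def invM (q M' : ℕ) : ℤ := Int.gcdA M' q

omit [NeZero q] [NeZero M'] in
theorem invM_spec (hq : q.Prime) (hqM : ¬ q ∣ M') : (q : ℤ) ∣ (M' : ℤ) * invM q M' - 1 := by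
  have h1 : Int.gcd (M' : ℤ) (q : ℤ) = 1 := by
    rw [Int.gcd_natCast_natCast]
    exact ((Nat.Prime.coprime_iff_not_dvd hq).mpr hqM).symm
  have h2 := Int.gcd_eq_gcd_ab (M' : ℤ) (q : ℤ)
  rw [h1] at h2
  refine ⟨-Int.gcdB M' q, ?_⟩
  rw [invM]
  push_cast at h2
  linarith

variable (q M') in
/-- **`ξ₀ = ζ_q^{1/M'}`**, the single root of unity of the `β`-row -/
def xi0 : Kbarˣ := xi (zetaBar (M' * q * q)) (M' * q * q) q (invM q M')

theorem xi0_pow (d : ℕ) :
    xi0 q M' ^ d = xi (zetaBar (M' * q * q)) (M' * q * q) q (invM q M' * d) := by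
  rw [xi0, xi, xi, ← zpow_natCast, ← _root_.zpow_mul]
  congr 1
  ring

theorem xi0_pow_of_dvd {d : ℕ} (hd : q ∣ d) : xi0 q M' ^ d = 1 := by
  obtain ⟨e, rfl⟩ := hd
  rw [xi0_pow]
  have h := xi_mul_self (zetaBar_pow (M' * q * q)) (D := q) (dvd_mul_left q (M' * q))
    (invM q M' * e)
  rw [← h]
  congr 1
  push_cast
  ring

/-- `ξ₃(d') = ξ₀^{d'}` -/
theorem xi3_eq_xi0_pow (hq : q.Prime) (hqM : ¬ q ∣ M') {d' : ℕ} (hd' : d' ∣ M')
    (hdN : q ^ 2 * d' ∣ M' * q * q) : xi3 (M' * q * q) q hdN = xi0 q M' ^ d' := by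
  obtain ⟨-, -, hB⟩ := herm_cusp3_top hq level_eq hqM hd' hdN
  rw [xi0_pow, xi3]
  refine xi_eq_of_dvd_sub (zetaBar_pow (M' * q * q)) (dvd_mul_left q (M' * q)) ?_
  set B := (herm (M' * q * q) (cusp3 (M' * q * q) q) ⟨q ^ 2 * d', hdN⟩).B with hBdef
  obtain ⟨e, he⟩ := hd'
  have hd'pos : 0 < d' := by
    rcases Nat.eq_zero_or_pos d' with h0 | h0
    · exfalso
      rw [h0, zero_mul] at he
      exact NeZero.ne M' he
    · exact h0
  have hMd : M' / d' = e := by rw [he, Nat.mul_div_cancel_left _ hd'pos]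
  rw [hMd, Int.modEq_iff_dvd] at hB
  have hu : (q : ℤ) ∣ (d' : ℤ) * e * invM q M' - 1 := by
    have h0 := invM_spec hq hqM
    have h00 : (M' : ℤ) = (d' : ℤ) * e := by exact_mod_cast he
    rwa [h00] at h0
  -- `q ∣ e * (B - u d')`
  have h1 : (q : ℤ) ∣ (e : ℤ) * (B - invM q M' * d') := by
    have h2 : (e : ℤ) * (B - invM q M' * d') =
        -(1 - (e : ℤ) * B) - ((d' : ℤ) * e * invM q M' - 1) := by
      ring
    rw [h2]
    exact dvd_sub ((dvd_neg).mpr hB) hu
  have hqe : ¬ q ∣ e := fun h => hqM (he ▸ Dvd.dvd.mul_left h d')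
  have hcop : IsCoprime (q : ℤ) (e : ℤ) := by
    rw [Nat.isCoprime_iff_coprime]
    exact (Nat.Prime.coprime_iff_not_dvd hq).mpr hqe
  exact hcop.dvd_of_dvd_mul_left h1

/-- `ξ₀` as a unit of `A` -/
def xi0A (A : ValuationSubring Kbar) : Aˣ :=
  zetaA (M' * q * q) A ^ (((M' * q * q / q : ℕ) : ℤ) * invM q M')

theorem map_subtype_xi0A (A : ValuationSubring Kbar) :
    Units.map (A.subtype : A →* Kbar) (xi0A (q := q) (M' := M') A) = xi0 q M' := by
  rw [xi0A, map_zpow, map_subtype_zetaA]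
  rfl

/-- for `A` over `q` the reduction of `ξ₀` is `1` -/
theorem map_residue_xi0A (A : ValuationSubring Kbar) (hq : q.Prime) (hA : A.LiesOverPrime q) :
    Units.map (residue A : A →* ResidueField A) (xi0A (q := q) (M' := M') A) = 1 := by
  rw [xi0A, map_zpow]
  exact xi_zetaRes_eq_one A hq level_eq hA (invM q M')

/-! #### the `β`-row -/

/-- **`σ₃ (β (W_q x)) = x(ξ₀ t^N)`** -/
theorem cuspSigma_cusp3_betaB_wAut (hq : q.Prime) (hqM : ¬ q ∣ M') (x : FN (M' * q)) :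
    cuspSigma (M' * q * q) (cusp3 (M' * q * q) q)
        (betaB (M' * q) q (wAut (exactDvd_level hq hqM) x)) =
      cuspS Kbar (xi0 q M') (M' * q * q) (x : LaurentSeries Kbar) := by
  set h := exactDvd_level hq hqM with hh
  have key : ((cuspSigma (M' * q * q) (cusp3 (M' * q * q) q)).comp
        ((betaB (M' * q) q).comp (wAut h : FN (M' * q) →ₐ[Kbar] FN (M' * q)))) =
      (cuspSAlg (xi0 q M') (M' * q * q)).comp
        (IntermediateField.val (modularFunctionFieldBar (M' * q))) := by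
    apply algHom_ext_FN
    intro d _ hd
    show cuspSigma (M' * q * q) (cusp3 (M' * q * q) q)
        (betaB (M' * q) q (wAut h (jdF (M' * q) d hd))) =
      cuspS Kbar (xi0 q M') (M' * q * q) ((jdF (M' * q) d hd : FN (M' * q)) : LaurentSeries Kbar)
    rw [coe_jdF, cuspS_qExpand, ← gen_eq_jdF (N := M' * q) ⟨d, hd⟩, wAut_gen, gen_eq_jdF, betaB_jdF]
    by_cases hqd : q ∣ d
    · -- `swap d = d / q`, `β j_{d/q} = j_d`, low
      have h1 : (swapIdx h ⟨d, hd⟩).1 * q = d := by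
        rw [swapIdx_apply, swapFun_of_dvd h hqd]
        exact Nat.div_mul_cancel hqd
      rw [jdF_congr (M' * q * q) h1 _ (hd.mul_right q),
        cuspSigma_cusp3_low (by rw [div_q_level hq]; exact hd), xi0_pow_of_dvd hqd, cuspS_one]
    · -- `swap d = q d`, `β j_{q d} = j_{q² d}`, top
      have h1 : (swapIdx h ⟨d, hd⟩).1 * q = q ^ 2 * d := by
        rw [swapIdx_apply, swapFun_of_not_dvd h hqd]
        ring
      have hd' : d ∣ M' := by
        have hc : Nat.Coprime d q := ((Nat.Prime.coprime_iff_not_dvd hq).mpr hqd).symm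
        exact hc.dvd_of_dvd_mul_right hd
      have hdN : q ^ 2 * d ∣ M' * q * q := by
        obtain ⟨e, rfl⟩ := hd'
        exact ⟨e, by ring⟩
      rw [jdF_congr (M' * q * q) h1 _ hdN, cuspSigma_cusp3_top hq level_eq hqM hd' hdN, jCusp_eq,
        xi3_eq_xi0_pow hq hqM hd' hdN]
  have h2 := DFunLike.congr_fun key x
  rw [AlgHom.comp_apply, AlgHom.comp_apply, AlgHom.comp_apply, cuspSAlg_apply] at h2
  exact h2

/-- the composite `β ∘ W_q` as an algebra map -/
def betaW (hq : q.Prime) (hqM : ¬ q ∣ M') : FN (M' * q) →ₐ[Kbar] FN (M' * q * q) :=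
  (betaB (M' * q) q).comp (wAut (exactDvd_level hq hqM) : FN (M' * q) →ₐ[Kbar] FN (M' * q))

theorem betaW_apply (hq : q.Prime) (hqM : ¬ q ∣ M') (x : FN (M' * q)) :
    betaW hq hqM x = betaB (M' * q) q (wAut (exactDvd_level hq hqM) x) := rfl

theorem betaW_wAut (hq : q.Prime) (hqM : ¬ q ∣ M') (y : FN (M' * q)) :
    betaW hq hqM (wAut (exactDvd_level hq hqM) y) = betaB (M' * q) q y := by
  rw [betaW_apply, wAut_wAut]

/-- `β (W_q x) ∈ R_{w₃} ↔ x ∈ R_{w₁'}` (every `A`) -/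
theorem betaW_mem_Rw3_iff (A : ValuationSubring Kbar) (hq : q.Prime) (hqM : ¬ q ∣ M')
    (x : FN (M' * q)) :
    betaW hq hqM x ∈ (redData3 (M' * q * q) A q).Rw ↔ x ∈ (redDataBar (M' * q) A).Rw := by
  have hθ := coeffCompat_cuspS A (xi0A (q := q) (M' := M') A) (M' * q * q)
  rw [map_subtype_xi0A] at hθ
  exact mem_RwCusp_map_iff A hθ (betaW hq hqM) _ (cuspSigma_cusp3_betaB_wAut hq hqM) x

/-- **`β y ∈ R_{w₃} ↔ y ∈ R_{w₂'}`** (every `A`): the cusp valuation `w₃` of level `M'q²` lies over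
the second Gauss valuation `w₂' = w₁' ∘ W_q` of level `M'q` along `β` -/
theorem betaB_mem_Rw3_iff (A : ValuationSubring Kbar) (hq : q.Prime) (hqM : ¬ q ∣ M')
    (y : FN (M' * q)) :
    betaB (M' * q) q y ∈ (redData3 (M' * q * q) A q).Rw ↔
      y ∈ (redData2 (M' * q) A (exactDvd_level hq hqM)).Rw := by
  rw [mem_Rw2_iff, ← betaW_mem_Rw3_iff A hq hqM, betaW_wAut]

/-- `red₃ (β (W_q x)) = (red₁' x)(ξ₀~ t^N)` (every `A`) -/
theorem coe_red3_betaW (A : ValuationSubring Kbar) (hq : q.Prime) (hqM : ¬ q ∣ M')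
    (x : FN (M' * q)) (hx : x ∈ (redDataBar (M' * q) A).Rw)
    (h : betaW hq hqM x ∈ (redData3 (M' * q * q) A q).Rw) :
    (((redData3 (M' * q * q) A q).red ⟨betaW hq hqM x, h⟩ :
        FresCusp (M' * q * q) A (cusp3 (M' * q * q) q)) : LaurentSeries (ResidueField A)) =
      cuspS (ResidueField A)
        (Units.map (residue A : A →* ResidueField A) (xi0A (q := q) (M' := M') A)) (M' * q * q)
        (((redDataBar (M' * q) A).red ⟨x, hx⟩ : FresBar (M' * q) A) :
          LaurentSeries (ResidueField A)) := by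
  have hθ := coeffCompat_cuspS A (xi0A (q := q) (M' := M') A) (M' * q * q)
  rw [map_subtype_xi0A] at hθ
  exact coe_redCusp_map A hθ (betaW hq hqM) _ (cuspSigma_cusp3_betaB_wAut hq hqM) x hx h

/-- **`red₃ (β y) = (red₂' y)(t^N)`** for `A` over `q` -/
theorem coe_red3_betaB (A : ValuationSubring Kbar) (hq : q.Prime) (hqM : ¬ q ∣ M')
    (hA : A.LiesOverPrime q) (y : FN (M' * q))
    (hy : y ∈ (redData2 (M' * q) A (exactDvd_level hq hqM)).Rw)
    (h : betaB (M' * q) q y ∈ (redData3 (M' * q * q) A q).Rw) :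
    (((redData3 (M' * q * q) A q).red ⟨betaB (M' * q) q y, h⟩ :
        FresCusp (M' * q * q) A (cusp3 (M' * q * q) q)) : LaurentSeries (ResidueField A)) =
      qExpand (ResidueField A) (M' * q * q)
        (((redData2 (M' * q) A (exactDvd_level hq hqM)).red ⟨y, hy⟩ : FresBar (M' * q) A) :
          LaurentSeries (ResidueField A)) := by
  have e : betaW hq hqM (wAut (exactDvd_level hq hqM) y) = betaB (M' * q) q y := betaW_wAut hq hqM y
  have h' : betaW hq hqM (wAut (exactDvd_level hq hqM) y) ∈ (redData3 (M' * q * q) A q).Rw := by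
    rw [e]; exact h
  have h1 := coe_red3_betaW A hq hqM (wAut (exactDvd_level hq hqM) y) hy h'
  rw [map_residue_xi0A A hq hA, cuspS_one] at h1
  have h2 : (⟨betaB (M' * q) q y, h⟩ : (redData3 (M' * q * q) A q).Rw) =
      ⟨betaW hq hqM (wAut (exactDvd_level hq hqM) y), h'⟩ := Subtype.ext e.symm
  rw [h2, h1, red2_eq]

end Rows

end Fermat.Agent.GL.W3Table
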