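/-
GATE-L / CUSP-SPEC on the CONCRETE `1/j`-frame (helper16): `CuspSpecCusp` at
`Bji := chartRing (R0 A) (jK0 A (M' q q))⁻¹ ⊂ F₀ = K₀(X₀(M' q q))` (helper80 / helper56
`H5InstK0` conventions: level `M' * q * q` LITERALLY, instances of the frame as binders).

ALL frame hypotheses are discharged (`R₀ ⊆ Bji`; vertical height-one primes = `w₁|w₂|w₃` by helper80
`FrameInstVal.exists_frame_inv` + helper75 `L1eThm`); what is left is the POINT: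
`𝔫` a prime of `Bji` with `1/j ∈ 𝔫` (cuspidal), `P₃ ≤ 𝔫`, and no height-one prime `≤ 𝔫` is `w₁`, `w₂`.

* `hR_Bji`, `hvert_Bji` : the two frame hypotheses of `CuspSpecInst` / `CuspSpecCusp`;
* **`valuation_genC_inv_eq_Bji`** : `|1/j(q²z)|_𝔮 = |1/j|_𝔮` at EVERY height-one `𝔮 ≤ 𝔫`;
* **`v_mem_range_loc_Bji`, `v_inv_mem_range_loc_Bji`** : `v = j/j(q²z)` is a unit of `O = (Bji)_𝔫`.
-/
import Fermat.Agent.GL.Cusp.CuspSpecCusp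
import Fermat.Agent.GL.Frame.FrameInstVal
import Fermat.Agent.GL.Frame.ChartInstK0

set_option autoImplicit false
set_option linter.unusedSectionVars false
set_option synthInstance.maxHeartbeats 400000
set_option maxHeartbeats 1600000

noncomputable section

namespace Fermat.Agent.GL.CuspSpec

open AlgebraicCurve ModularCurve Polynomial IntermediateField
open Fermat.Agent.GL.GaussAt
open Fermat.Agent.GK.AL Fermat.Agent.GL.AL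
open Fermat.Agent.GL.Val.GaussK0 Fermat.Agent.GL.Val.SecondK0 Fermat.Agent.GL.Val.SecondK0Hall
open Fermat.Agent.GL.Val.ThirdK0 Fermat.Agent.GL.Val.OrthK0 Fermat.Agent.GL.Val.L1eAsmK0
open Fermat.Agent.GK.Val.GaussBase
open Fermat.Agent.GL.Frame.Inst Fermat.Agent.GL.Frame.HeightOne
open Fermat.Agent.GL.Frame.InstVal
open Fermat.Agent.Common_helper32

variable (A : ValuationSubring Qb) {q : ℕ} (M' : ℕ) [NeZero M'] [NeZero q]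

local notation "F₀" => modularFunctionFieldFullC (K0 A) (M' * q * q)
local notation "j₀" => jK0 A (M' * q * q)

/-- `R₀ ⊆ Bji` -/
theorem hR_Bji (c : K0 A) (hc : c ∈ R0 A) :
    algebraMap (K0 A) F₀ c ∈ (algebraMap (chartRing (R0 A) j₀⁻¹) F₀).range :=
  ⟨baseB j₀⁻¹ (⟨c, hc⟩ : R0 A), rfl⟩

/-- **the vertical height-one primes of `Bji` are `w₁, w₂, w₃`** -/
theorem hvert_Bji (hq : q.Prime) (hqM : ¬ q ∣ M') (hA : A.LiesOverPrime q)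
    (hQ : HallDvd (q ^ 2) (M' * q * q))
    [IsFractionRing (chartRing (R0 A) j₀⁻¹) F₀] [IsNoetherianRing (chartRing (R0 A) j₀⁻¹)]
    [IsIntegrallyClosed (chartRing (R0 A) j₀⁻¹)]
    (𝔮 : HtOne (chartRing (R0 A) j₀⁻¹))
    (h𝔮 : ((q : ℕ) : chartRing (R0 A) j₀⁻¹) ∈ 𝔮.1) :
    ∃ i, V1 F₀ 𝔮 = W3 A hQ i := by
  have hdvr := isDiscreteValuationRing_R0 A hq hA
  have hq0 : Prime (q0 A q) := Fermat.Agent.GL.Frame.ChartInstK0.prime_q0 A hq hA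
  have hN : M' * q * q = M' * q ^ 2 := by ring
  have hq2 : q ^ 2 * 1 ∣ M' * q * q := by rw [mul_one, hN]; exact dvd_mul_left _ _
  have : NeZero (q ^ 2 * 1) := ⟨by rw [mul_one]; exact pow_ne_zero 2 hq.ne_zero⟩
  have hjt : Transcendental (K0 A) j₀ := by
    rw [jK0_eq_jC]
    exact Fermat.Agent.GL.Frame.ChartInstK0.transcendental_jC_K0 A (M' * q * q)
  have hfd : FiniteDimensional (K0 A)⟮j₀⟯ F₀ := by
    rw [jK0_eq_jC]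
    exact Fermat.Agent.GL.Val.DegBase.finiteDimensional_fullC (M' * q * q) (K0 A)
  have hj0 : j₀ ≠ 0 := fun h0 => hjt (h0 ▸ isAlgebraic_zero)
  have hfdi : FiniteDimensional (K0 A)⟮j₀⁻¹⟯ F₀ := finiteDimensional_adjoin_inv j₀
  have hWover : ∀ i, ∀ a : K0 A, algebraMap (K0 A) F₀ a ∈ W3 A hQ i ↔ a ∈ R0 A := fun i =>
    (isRamified_W3_R0 A hq hN hqM hA hQ (one_dvd M') hq2 (one_dvd _) i).mem_iff
  have hWG : ∀ i, IsGaussAt (R0 A) (W3 A hQ i) j₀ := isGaussAt_W3 A hQ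
  have hnoextG : ∀ V : ValuationSubring F₀, (∀ a : K0 A, algebraMap (K0 A) F₀ a ∈ V ↔ a ∈ R0 A) →
      IsGaussAt (R0 A) V j₀ → ∃ i, V = W3 A hQ i := fun V hV hG => by
    rcases Fermat.Agent.GL.Val.L1eThm.exists_eq_of_isGaussAt A hq hN hqM hA hQ hV hG with h | h | h
    · exact ⟨0, h⟩
    · exact ⟨1, h⟩
    · exact ⟨2, h⟩
  obtain ⟨_, _, _, hqB, f, hf1, hf2, -, -⟩ :=
    exists_frame_inv hq0.irreducible (W3 A hQ) hWover hWG hnoextG hj0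
  have hmem : 𝔮 ∈ vertFinset hqB := by
    rw [mem_vertFinset]
    have e : baseB j₀⁻¹ (q0 A q) = ((q : ℕ) : chartRing (R0 A) j₀⁻¹) := by
      apply Subtype.ext
      rw [coe_baseB]
      have h1 : algebraMap (R0 A) F₀ (q0 A q) = algebraMap (K0 A) F₀ ((q0 A q : R0 A) : K0 A) := rfl
      rw [h1, q0_coe_eq_natCast, map_natCast]
      exact (map_natCast (chartRing (R0 A) j₀⁻¹).subtype q).symm
    rw [e]
    exact h𝔮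
  obtain ⟨i, hi⟩ := (hf2 𝔮).1 hmem
  exact ⟨i, by rw [← hi]; exact hf1 i⟩

theorem hd_Bji : q ^ 2 ∣ M' * q * q := ⟨M', by ring⟩

/-- **`|1/j(q²z)|_𝔮 = |1/j|_𝔮` at every height-one prime `𝔮 ≤ 𝔫`** of a cuspidal point of `C₃` only -/
theorem valuation_genC_inv_eq_Bji (hq : q.Prime) (hqM : ¬ q ∣ M') (hA : A.LiesOverPrime q)
    (hQ : HallDvd (q ^ 2) (M' * q * q))
    [IsFractionRing (chartRing (R0 A) j₀⁻¹) F₀] [IsNoetherianRing (chartRing (R0 A) j₀⁻¹)]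
    [IsIntegrallyClosed (chartRing (R0 A) j₀⁻¹)]
    (𝔫 : Ideal (chartRing (R0 A) j₀⁻¹)) [𝔫.IsPrime]
    (hcusp : (⟨j₀⁻¹, subset_icRing (R0 A) {j₀⁻¹} (Set.mem_singleton _)⟩ :
      chartRing (R0 A) j₀⁻¹) ∈ 𝔫)
    (h3 : ∀ b : chartRing (R0 A) j₀⁻¹, (b : F₀) ∈ (Rw3K0 A (M' * q * q) q).nonunits → b ∈ 𝔫)
    (h12 : ∀ 𝔮 : HtOne (chartRing (R0 A) j₀⁻¹), 𝔮.1 ≤ 𝔫 →
      V1 F₀ 𝔮 ≠ RwK0 A (M' * q * q) ∧ V1 F₀ 𝔮 ≠ (redData2QK0 A (M' * q * q) hQ).Rw)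
    (𝔮 : HtOne (chartRing (R0 A) j₀⁻¹)) (h𝔮 : 𝔮.1 ≤ 𝔫) :
    (V1 F₀ 𝔮).valuation (genC (K0 A) (R0 A) (M' * q * q) (hd_Bji M'))⁻¹ =
      (V1 F₀ 𝔮).valuation j₀⁻¹ :=
  valuation_genC_inv_eq_V1_cusp A hq hA (hd_Bji M') (by ring) hqM hQ (hR_Bji A M')
    (fun 𝔮 h𝔮 => hvert_Bji A M' hq hqM hA hQ 𝔮 h𝔮) 𝔫 ⟨_, hcusp, rfl⟩ h3 h12 𝔮 h𝔮

/-- **`v = j / j(q²z) ∈ O = (Bji)_𝔫`** -/
theorem v_mem_range_loc_Bji (hq : q.Prime) (hqM : ¬ q ∣ M') (hA : A.LiesOverPrime q)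
    (hQ : HallDvd (q ^ 2) (M' * q * q))
    [IsFractionRing (chartRing (R0 A) j₀⁻¹) F₀] [IsNoetherianRing (chartRing (R0 A) j₀⁻¹)]
    [IsIntegrallyClosed (chartRing (R0 A) j₀⁻¹)]
    (𝔫 : Ideal (chartRing (R0 A) j₀⁻¹)) [𝔫.IsPrime]
    (hcusp : (⟨j₀⁻¹, subset_icRing (R0 A) {j₀⁻¹} (Set.mem_singleton _)⟩ :
      chartRing (R0 A) j₀⁻¹) ∈ 𝔫)
    (h3 : ∀ b : chartRing (R0 A) j₀⁻¹, (b : F₀) ∈ (Rw3K0 A (M' * q * q) q).nonunits → b ∈ 𝔫)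
    (h12 : ∀ 𝔮 : HtOne (chartRing (R0 A) j₀⁻¹), 𝔮.1 ≤ 𝔫 →
      V1 F₀ 𝔮 ≠ RwK0 A (M' * q * q) ∧ V1 F₀ 𝔮 ≠ (redData2QK0 A (M' * q * q) hQ).Rw)
    (O : Type*) [CommRing O] [Algebra (chartRing (R0 A) j₀⁻¹) O]
    [IsLocalization.AtPrime O 𝔫] [Algebra O F₀] [IsScalarTower (chartRing (R0 A) j₀⁻¹) O F₀] :
    aD A (M' * q * q) (q ^ 2) (hd_Bji M') / j₀⁻¹ ∈ (algebraMap O F₀).range :=
  v_mem_range_loc_V1_cusp A hq hA (hd_Bji M') (by ring) hqM hQ (hR_Bji A M')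
    (fun 𝔮 h𝔮 => hvert_Bji A M' hq hqM hA hQ 𝔮 h𝔮) 𝔫 ⟨_, hcusp, rfl⟩ h3 h12 O

/-- **`1/v = j(q²z) / j ∈ O = (Bji)_𝔫`** -/
theorem v_inv_mem_range_loc_Bji (hq : q.Prime) (hqM : ¬ q ∣ M') (hA : A.LiesOverPrime q)
    (hQ : HallDvd (q ^ 2) (M' * q * q))
    [IsFractionRing (chartRing (R0 A) j₀⁻¹) F₀] [IsNoetherianRing (chartRing (R0 A) j₀⁻¹)]
    [IsIntegrallyClosed (chartRing (R0 A) j₀⁻¹)]
    (𝔫 : Ideal (chartRing (R0 A) j₀⁻¹)) [𝔫.IsPrime]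
    (hcusp : (⟨j₀⁻¹, subset_icRing (R0 A) {j₀⁻¹} (Set.mem_singleton _)⟩ :
      chartRing (R0 A) j₀⁻¹) ∈ 𝔫)
    (h3 : ∀ b : chartRing (R0 A) j₀⁻¹, (b : F₀) ∈ (Rw3K0 A (M' * q * q) q).nonunits → b ∈ 𝔫)
    (h12 : ∀ 𝔮 : HtOne (chartRing (R0 A) j₀⁻¹), 𝔮.1 ≤ 𝔫 →
      V1 F₀ 𝔮 ≠ RwK0 A (M' * q * q) ∧ V1 F₀ 𝔮 ≠ (redData2QK0 A (M' * q * q) hQ).Rw)
    (O : Type*) [CommRing O] [Algebra (chartRing (R0 A) j₀⁻¹) O]
    [IsLocalization.AtPrime O 𝔫] [Algebra O F₀] [IsScalarTower (chartRing (R0 A) j₀⁻¹) O F₀] :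
    j₀⁻¹ / aD A (M' * q * q) (q ^ 2) (hd_Bji M') ∈ (algebraMap O F₀).range :=
  v_inv_mem_range_loc_V1_cusp A hq hA (hd_Bji M') (by ring) hqM hQ (hR_Bji A M')
    (fun 𝔮 h𝔮 => hvert_Bji A M' hq hqM hA hQ 𝔮 h𝔮) 𝔫 ⟨_, hcusp, rfl⟩ h3 h12 O

end Fermat.Agent.GL.CuspSpec
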