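/-
GATE-L / L1c (helper18): BRIDGE between the two landed constructions of the Gauss reduction datum
of `F_N` at an arbitrary cusp:

* `Fermat.Agent.GL.CuspVal.redDataCusp N A c`  (helper18, `GL/Cusp/CuspRedData.lean`; consumed by
  `GL/Cusp/CuspGal.lean`, helper26 L1e-w3, helper67 L3c-RESTRICT);
* `Fermat.Agent.GL.Val3.redDataCusp N c A`     (helper93, `GL/Val/CuspRedData.lean`; consumed by his
  level-`q²` specifics).

Both are "Gauss fractions of the expansion `cuspSigma N c f`" in the SAME subfield of `ℚ̄((t))`, so they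
have the same valuation ring and the same reduction (as Laurent series over the residue field):
every lemma about one applies to the other.
-/
import Mathlib
import Fermat.Agent.GL.Cusp.CuspRedData
import Fermat.Agent.GL.Val.CuspRedData

set_option autoImplicit false

noncomputable section

namespace Fermat.Agent.GL.CuspVal

open HahnSeries ModularCurve IsLocalRing
open Fermat.Agent.S24 Fermat.Agent.S28 Fermat.Agent.S24_helper62
open Fermat.Agent.GJ.J1 Fermat.Agent.GJ.J1.Val

variable (N : ℕ) [NeZero N] (A : ValuationSubring Kbar) (c : I0 N)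

/-- the two image fields agree -/
theorem Fcusp_eq_cuspField : Val3.Fcusp N c = cuspField N c :=
  (Val3.fieldRange_cuspSigma N c).symm

theorem isFrac_Fcusp_iff (x : LaurentSeries Kbar) (a b : LaurentSeries A) :
    IsFrac A (Val3.Fcusp N c) x a b ↔ IsFrac A (cuspField N c) x a b := by
  rw [Fcusp_eq_cuspField]

/-- **the two cusp valuation rings agree** (elementwise) -/
theorem mem_Rw_val3_iff (f : FN N) :
    f ∈ (Val3.redDataCusp N c A).Rw ↔ f ∈ (redDataCusp N A c).Rw := by
  rw [mem_RwCusp_iff_isFrac]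
  constructor
  · rintro ⟨a, b, h⟩
    exact ⟨a, b, (isFrac_Fcusp_iff N A c _ a b).mp h⟩
  · rintro ⟨a, b, h⟩
    exact ⟨a, b, (isFrac_Fcusp_iff N A c _ a b).mpr h⟩

/-- **the two cusp valuation rings agree** -/
theorem Rw_val3_eq : (Val3.redDataCusp N c A).Rw = (redDataCusp N A c).Rw :=
  SetLike.ext fun f => mem_Rw_val3_iff N A c f

/-- **the two reductions agree** as Laurent series over the residue field -/
theorem coe_red_val3 (f : FN N) (hf : f ∈ (Val3.redDataCusp N c A).Rw)
    (hf' : f ∈ (redDataCusp N A c).Rw) :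
    (((Val3.redDataCusp N c A).red ⟨f, hf⟩ : Val3.FresCusp N c A) :
        LaurentSeries (ResidueField A)) =
      (((redDataCusp N A c).red ⟨f, hf'⟩ : FresCusp N A c) : LaurentSeries (ResidueField A)) := by
  have hf0 := hf'
  rw [mem_RwCusp_iff_isFrac] at hf0
  obtain ⟨a, b, h⟩ := hf0
  rw [coe_redCusp N A c f hf' h]
  have h' : IsFrac A (Val3.Fcusp N c) (cuspSigma N c f) a b := (isFrac_Fcusp_iff N A c _ a b).mpr h
  show redL A (Val3.Fcusp N c) (Val3.hasGaussFrac_cusp N c A) ⟨Val3.cuspEquiv N c f, hf⟩ = _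
  exact redL_eq h'

/-- the two residue fields agree as subfields of `k((t))` -/
theorem FresCusp_val3_eq : Val3.FresCusp N c A = FresCusp N A c := by
  apply le_antisymm
  · rintro y ⟨x, rfl⟩
    have hx' : ((Val3.cuspEquiv N c).symm (x : Val3.Fcusp N c)) ∈ (Val3.redDataCusp N c A).Rw := by
      rw [Val3.mem_RwCusp_iff, AlgEquiv.apply_symm_apply]
      exact x.2
    have hx'' := (mem_Rw_val3_iff N A c _).mp hx'
    refine ⟨⟨cuspEquiv N c ((Val3.cuspEquiv N c).symm (x : Val3.Fcusp N c)), hx''⟩, ?_⟩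
    have h1 := coe_red_val3 N A c _ hx' hx''
    have h2 : (⟨Val3.cuspEquiv N c ((Val3.cuspEquiv N c).symm (x : Val3.Fcusp N c)), hx'⟩ :
        Rw A (Val3.Fcusp N c) (Val3.hasGaussFrac_cusp N c A)) = x :=
      Subtype.ext (AlgEquiv.apply_symm_apply _ _)
    have h3 : redL A (Val3.Fcusp N c) (Val3.hasGaussFrac_cusp N c A) x =
        redL A (Val3.Fcusp N c) (Val3.hasGaussFrac_cusp N c A)
          ⟨Val3.cuspEquiv N c ((Val3.cuspEquiv N c).symm (x : Val3.Fcusp N c)), hx'⟩ := by
      rw [h2]
    rw [h3]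
    exact h1.symm
  · rintro y ⟨x, rfl⟩
    have hx' : ((cuspEquiv N c).symm (x : cuspField N c)) ∈ (redDataCusp N A c).Rw := by
      rw [mem_RwCusp_iff, AlgEquiv.apply_symm_apply]
      exact x.2
    have hx'' := (mem_Rw_val3_iff N A c _).mpr hx'
    refine ⟨⟨Val3.cuspEquiv N c ((cuspEquiv N c).symm (x : cuspField N c)), hx''⟩, ?_⟩
    have h1 := coe_red_val3 N A c _ hx'' hx'
    have h2 : (⟨cuspEquiv N c ((cuspEquiv N c).symm (x : cuspField N c)), hx'⟩ :
        Rw A (cuspField N c) (hasGaussFrac_cusp N A c)) = x :=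
      Subtype.ext (AlgEquiv.apply_symm_apply _ _)
    have h3 : redL A (cuspField N c) (hasGaussFrac_cusp N A c) x =
        redL A (cuspField N c) (hasGaussFrac_cusp N A c)
          ⟨cuspEquiv N c ((cuspEquiv N c).symm (x : cuspField N c)), hx'⟩ := by
      rw [h2]
    rw [h3]
    exact h1

end Fermat.Agent.GL.CuspVal
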