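/-
GATE-L / CUSP-DICT (helper16): **the cusp dictionary**.

* over `ℚ̄` : every place `P` of `F_N = ℚ̄(X₀(N))` with `ord_P (1/j) > 0` is the place of
  `ord_t ∘ cuspSigma N c` for a coset `c ∈ I0 N` (surjectivity in the S24 orbit lemma
  `LOC.orbit_lemma`, instantiated at helper62's cusp embeddings exactly as in
  `CuspFinal.card_fibre_infty`):
  `exists_cusp_of_place : ∃ c, ∃ m > 0, ∀ f ≠ 0, (cuspSigma N c f).order = m * P.ord f`;
* over `K₀` : every discrete valuation ring `V ⊇ K₀` of `K₀(X₀(N))` with `1/j ∈ 𝔪_V` is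
  `{f | 0 ≤ ord_t (cuspSigma N c (toFN0 f))}` for a coset `c` (helper11 `exists_place_over`):
  `exists_cusp_of_dvr`.
-/
import Fermat.Agent.S24.CuspFinal
import Fermat.Agent.GL.Frame.HorizDiv
import Fermat.Agent.GL.Val.CuspK0
import Fermat.Agent.GL.Val.OrthK0

set_option autoImplicit false

noncomputable section

namespace Fermat.Agent.GL.CuspDict

open AlgebraicCurve IntermediateField ModularCurve HahnSeries
open scoped MatrixGroups
open Fermat.Agent.S24 Fermat.Agent.S24_helper62 Fermat.Agent.S24_helper76.CuspOrbit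

/-! ### Over `ℚ̄` -/

section Bar

variable (N : ℕ) [NeZero N]

/-- **every place of `F_N` over `j = ∞` is a cusp place**: its order function is, up to a positive
integer factor, `ord_t ∘ cuspSigma N c` for a coset `c`. -/
theorem exists_cusp_of_place (P : Place Kbar (FN N)) (hP : 0 < P.ord (jF N)⁻¹) :
    ∃ c : I0 N, ∃ m : ℤ, 0 < m ∧ ∀ f : FN N, f ≠ 0 → (cuspSigma N c f).order = m * P.ord f := by
  obtain ⟨hx, hfd, -⟩ := m9 N
  have hxinv : Transcendental Kbar (jF N)⁻¹ := Norm.transcendental_inv hx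
  have hgen : IsGen Kbar (jF N) := ⟨hx, hfd⟩
  have hfd' : FiniteDimensional Kbar⟮(jF N)⁻¹⟯ (FN N) := (FF1.isGen_inv (K := Kbar) (jF N)).finite
  have hk : Kbar⟮jF N⟯ = Kbar⟮(jF N)⁻¹⟯ := (Norm.adjoin_simple_inv (K := Kbar) (jF N)).symm
  obtain ⟨hfin, hN, hWA⟩ := Norm.fibre_package (jF N)⁻¹ hxinv Kbar⟮jF N⟯ hk
  obtain ⟨ζ, hζ, hC4⟩ := exists_zeta_cuspSigma_T_smul N
  have hC1 := cuspSigma_jF N
  have hC2 := cuspSigma_injective N
  have hC3 : ∀ a ∈ Degree.RN N, ∀ m, (∏ q, (Polynomial.X - Polynomial.C (cuspSigma N q a))).coeff m ∈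
      qExpand Kbar N '' (Algebra.adjoin Kbar {jqModC Kbar} : Set (LaurentSeries Kbar)) :=
    fun a ha m => cuspSigma_sym N a ha m
  obtain ⟨φ, hφ, -⟩ := orbit_lemma Kbar⟮jF N⟯ (jF N)⁻¹ hN hWA ModularGroup.T (cuspData hC1)
    (hnorm_cusp hC1 hC2 hC3) (hsymm_cusp hC1 ModularGroup.T ζ hC4)
    (hg_cusp hC1 hC2 ModularGroup.T ζ hζ hC4) (hdiv_cusp hC1 ModularGroup.T ζ hζ hC4)
  obtain ⟨o, ho⟩ := φ.surjective ⟨P, hP⟩
  obtain ⟨c, rfl⟩ := Quotient.exists_rep o
  have h1 : (cuspData hC1).place c = ⟨P, hP⟩ := (hφ c).symm.trans ho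
  refine ⟨c, (cuspData hC1).mult c, (cuspData hC1).mult_pos c, fun f hf => ?_⟩
  have h2 := (cuspData hC1).eq_mult_mul_ord c hf
  rw [h1] at h2
  exact h2

end Bar

/-! ### Over `K₀` -/

section K0

open IsLocalRing
open Fermat.Agent.GL.Val.GaussK0 Fermat.Agent.GL.Val.SecondK0 Fermat.Agent.GL.Frame.HorizDiv
open Fermat.Agent.GK.Val.GaussBase Fermat.Agent.GK.AL Fermat.Agent.GL.Val.OrthK0
open Fermat.Agent.Common_helper32

variable (A : ValuationSubring Qb) (N : ℕ) [NeZero N]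
  (V : ValuationSubring (modularFunctionFieldFullC (K0 A) N))
  (hKV : ∀ c : K0 A, algebraMap (K0 A) (modularFunctionFieldFullC (K0 A) N) c ∈ V)
  [IsNoetherianRing V] (t : V) (ht0 : t ≠ 0) (ht : maximalIdeal V = Ideal.span {t})

include hKV ht0 ht in
/-- **the cusp dictionary over `K₀`**: a discrete valuation ring `V ⊇ K₀` of `K₀(X₀(N))` with
`1/j ∈ 𝔪_V` is the ring of `ord_t ∘ cuspSigma N c ∘ mapK0Bar` for a coset `c`. -/
theorem exists_cusp_of_dvr (ha : (jK0 A N)⁻¹ ∈ V.nonunits) :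
    ∃ c : I0 N,
      (∀ f : modularFunctionFieldFullC (K0 A) N, f ≠ 0 →
        (f ∈ V ↔ 0 ≤ (cuspSigma N c (mapK0Bar A N f)).order)) ∧
      (∀ f : modularFunctionFieldFullC (K0 A) N, f ≠ 0 →
        (f ∈ V.nonunits ↔ 0 < (cuspSigma N c (mapK0Bar A N f)).order)) := by
  obtain ⟨P, hPV, -, -⟩ := exists_place_over A N V hKV t ht0 ht
  have hj0 : jK0 A N ≠ 0 := by
    intro h0
    have h1 := mapK0Bar_jK0 A N
    rw [h0, map_zero] at h1
    exact jF_ne_zero N h1.symm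
  have hji0 : (jK0 A N)⁻¹ ≠ 0 := inv_ne_zero hj0
  -- `ord_P (1/j) > 0`
  have hP : 0 < P.ord (jF N)⁻¹ := by
    have h1 : (jK0 A N)⁻¹ ∈ V := ValuationSubring.nonunits_le ha
    have h2 : ¬ ((jK0 A N)⁻¹)⁻¹ ∈ V := by
      rcases (ValuationSubring.mem_nonunits_iff_or (A := V)).1 ha with h | h
      · exact absurd h hji0
      · exact h
    have e1 : mapK0Bar A N (jK0 A N)⁻¹ = (jF N)⁻¹ := by rw [map_inv₀, mapK0Bar_jK0]
    have h3 : 0 ≤ P.ord (jF N)⁻¹ := by
      rw [PlaceB.ord_nonneg_iff P (inv_ne_zero (jF_ne_zero N)), ← e1, hPV]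
      exact h1
    rcases h3.lt_or_eq with h4 | h4
    · exact h4
    · exfalso
      apply h2
      rw [← hPV, map_inv₀, e1, ← PlaceB.ord_nonneg_iff P (inv_ne_zero (inv_ne_zero (jF_ne_zero N))),
        Place.ord_inv, ← h4]
      simp
  obtain ⟨c, m, hm, hord⟩ := exists_cusp_of_place N P hP
  have key : ∀ f : modularFunctionFieldFullC (K0 A) N, f ≠ 0 →
      (f ∈ V ↔ 0 ≤ (cuspSigma N c (mapK0Bar A N f)).order) := by
    intro f hf
    have hf' : mapK0Bar A N f ≠ 0 := (map_ne_zero (mapK0Bar A N)).mpr hf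
    rw [← hPV, ← PlaceB.ord_nonneg_iff P hf', hord _ hf']
    constructor
    · intro h
      exact mul_nonneg hm.le h
    · intro h
      exact nonneg_of_mul_nonneg_right h hm
  refine ⟨c, key, fun f hf => ?_⟩
  have hf' : mapK0Bar A N f ≠ 0 := (map_ne_zero (mapK0Bar A N)).mpr hf
  have hinv : (cuspSigma N c (mapK0Bar A N f⁻¹)).order = -(cuspSigma N c (mapK0Bar A N f)).order := by
    rw [hord _ ((map_ne_zero (mapK0Bar A N)).mpr (inv_ne_zero hf)), hord _ hf', map_inv₀,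
      Place.ord_inv]
    ring
  rw [ValuationSubring.mem_nonunits_iff_or, or_iff_right hf, key f⁻¹ (inv_ne_zero hf), hinv]
  omega

end K0

end Fermat.Agent.GL.CuspDict
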