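/-
GATE-L / L1c CUSP-GAL (helper18): the arithmetic Galois group permutes the cusp embeddings of
`F_N = ℚ̄(X₀(N))`, hence the decomposition group of `A` permutes the cusp valuations.

* `hermite_params_twist` : if the bottom rows of `g, g' ∈ SL₂(ℤ)` satisfy `g'₁₀ ≡ a g₁₀`,
  `g'₁₁ ≡ g₁₁ mod N` with `a` prime to `N`, then for every `d ∣ N` the Hermite parameters satisfy
  `A' = A`, `D' = D`, `a B' ≡ B mod D`;
* `hermiteSer_twist` : `hermiteSer (ζ^a) N H' = hermiteSer ζ N H`;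
* **`cuspSigma_gal`** : `σ ζ_N = ζ_N^a` ⟹ `σ_c (σ f) = σ (σ_{c'} f)` coefficientwise
  (RELATIONAL form: `c, c'` any cosets whose representatives are related as above);
* `galF_mem_RwCusp`, `coe_redCusp_galF` : for `σ` in the decomposition group of `A`,
  `f ∈ Rw_{c'} ⟹ σ f ∈ Rw_c` and `red_c (σ f) = σ~ (red_{c'} f)` coefficientwise.
-/
import Mathlib
import Fermat.Agent.GL.Cusp.CuspRedData
import Fermat.Agent.GK.AL.SecondValGal

set_option autoImplicit false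

noncomputable section

namespace Fermat.Agent.GL.CuspVal

open HahnSeries ModularCurve IsLocalRing
open Fermat.Agent.S24 Fermat.Agent.S28 Fermat.Agent.S28.CuspExp Fermat.Agent.S28.Assemble
open Fermat.Agent.S24_helper62 Fermat.Agent.S24.Degree
open Fermat.Agent.GJ.J1 Fermat.Agent.GJ.J1.Val Fermat.Agent.GK.Val Fermat.Agent.GJ.Kum
open Fermat.Agent.GK.AL
open scoped MatrixGroups

/-! ### Hermite parameters under a twist of the bottom row -/

section Hermite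

variable {d N : ℕ} {g g' : SL(2, ℤ)}

/-- the lower left entry of the `SL₂(ℤ)`-factor is prime to `D` -/
theorem isCoprime_g''_D (H : HermiteData d g) : IsCoprime (H.g'' 1 0) H.D := by
  obtain ⟨u, v, huv⟩ := isCoprime_row g
  refine ⟨u * H.A + v * H.B, v * H.g'' 1 1, ?_⟩
  rw [← H.h10, ← H.h11] at huv
  linear_combination huv

theorem hermite_A_twist (hdN : d ∣ N) {a : ℤ} (ha : IsCoprime a (N : ℤ))
    (h10 : (N : ℤ) ∣ g' 1 0 - a * g 1 0) (H : HermiteData d g) (H' : HermiteData d g') :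
    H'.A = H.A := by
  have hdN' : (d : ℤ) ∣ (N : ℤ) := Int.natCast_dvd_natCast.mpr hdN
  have hd10 : (d : ℤ) ∣ g' 1 0 - a * g 1 0 := hdN'.trans h10
  have had : IsCoprime a (d : ℤ) := ha.of_isCoprime_of_dvd_right hdN'
  rw [H.A_eq, H'.A_eq]
  congr 1
  apply Nat.dvd_antisymm
  · -- gcd(g'10, d) ∣ gcd(g10, d)
    have h1 : ((Int.gcd (g' 1 0) d : ℕ) : ℤ) ∣ g' 1 0 := Int.gcd_dvd_left _ _
    have h2 : ((Int.gcd (g' 1 0) d : ℕ) : ℤ) ∣ (d : ℤ) := Int.gcd_dvd_right _ _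
    have h3 : ((Int.gcd (g' 1 0) d : ℕ) : ℤ) ∣ a * g 1 0 := by
      have := dvd_sub h1 (h2.trans hd10)
      rwa [sub_sub_cancel] at this
    have h4 : IsCoprime a ((Int.gcd (g' 1 0) d : ℕ) : ℤ) := had.of_isCoprime_of_dvd_right h2
    have h5 : ((Int.gcd (g' 1 0) d : ℕ) : ℤ) ∣ g 1 0 := h4.symm.dvd_of_dvd_mul_left h3
    exact Int.natCast_dvd_natCast.mp (Int.dvd_coe_gcd h5 h2)
  · have h1 : ((Int.gcd (g 1 0) d : ℕ) : ℤ) ∣ g 1 0 := Int.gcd_dvd_left _ _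
    have h2 : ((Int.gcd (g 1 0) d : ℕ) : ℤ) ∣ (d : ℤ) := Int.gcd_dvd_right _ _
    have h3 : ((Int.gcd (g 1 0) d : ℕ) : ℤ) ∣ g' 1 0 := by
      have := dvd_add (h2.trans hd10) (Dvd.dvd.mul_left h1 a)
      rwa [sub_add_cancel] at this
    exact Int.natCast_dvd_natCast.mp (Int.dvd_coe_gcd h3 h2)

/-- **Hermite parameters under a twist**: `g'₁₀ ≡ a g₁₀`, `g'₁₁ ≡ g₁₁ mod N`, `(a, N) = 1`, `d ∣ N`
⟹ `A' = A`, `D' = D`, `a B' ≡ B mod D`. -/
theorem hermite_params_twist (hdN : d ∣ N) {a : ℤ} (ha : IsCoprime a (N : ℤ))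
    (h10 : (N : ℤ) ∣ g' 1 0 - a * g 1 0) (h11 : (N : ℤ) ∣ g' 1 1 - g 1 1)
    (H : HermiteData d g) (H' : HermiteData d g') :
    H'.A = H.A ∧ H'.D = H.D ∧ H.D ∣ a * H'.B - H.B := by
  have hA := hermite_A_twist hdN ha h10 H H'
  have hD : H'.D = H.D := by
    have h1 := H'.A_mul_D
    rw [← H.A_mul_D, hA] at h1
    exact mul_left_cancel₀ H.A_pos.ne' h1
  refine ⟨hA, hD, ?_⟩
  -- `N = A D e`
  obtain ⟨e, he⟩ := hdN
  have hN : (N : ℤ) = H.A * H.D * e := by rw [H.A_mul_D, he]; push_cast; ring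
  obtain ⟨k, hk⟩ := h10
  obtain ⟨k', hk'⟩ := h11
  -- `s' = a s + D e k`
  have hs : H'.g'' 1 0 = a * H.g'' 1 0 + H.D * (e * k) := by
    apply mul_right_cancel₀ H.A_pos.ne'
    have h1 := H'.h10
    rw [hA] at h1
    rw [h1, add_mul, mul_assoc a, H.h10]
    linear_combination hk + k * hN
  -- `s (a B' - B) ≡ 0 mod D`
  have hmain : H.D ∣ H.g'' 1 0 * (a * H'.B - H.B) := by
    have h1 := H'.h11
    have h2 := H.h11
    rw [hD, hs] at h1
    refine ⟨H.g'' 1 1 - H'.g'' 1 1 - e * k * H'.B + H.A * e * k', ?_⟩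
    linear_combination h1 - h2 + hk' + k' * hN
  exact (isCoprime_g''_D H).symm.dvd_of_dvd_mul_left hmain

end Hermite


/-! ### The Hermite series under `ζ ↦ ζ^a` -/

section Series

variable {K : Type*} [Field K] {ζ : Kˣ} {N d : ℕ} {g g' : SL(2, ℤ)}

/-- `hermiteSer (ζ^a) N H' = hermiteSer ζ N H` when `A' = A`, `D' = D`, `a B' ≡ B mod D` -/
theorem hermiteSer_twist (hζ : ζ ^ N = 1) (hN : 0 < N) (hdN : d ∣ N) (a : ℕ)
    (H : HermiteData d g) (H' : HermiteData d g') (hA : H'.A = H.A) (hD : H'.D = H.D)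
    (hB : H.D ∣ (a : ℤ) * H'.B - H.B) :
    (hermiteSer (ζ ^ a) N H' : LaurentSeries K) = hermiteSer ζ N H := by
  have hd : 0 < d := Nat.pos_of_dvd_of_pos hdN hN
  have hAn := An_eq_of_A_eq H H' hA
  have hDn := Dn_eq_of_D_eq hd H H' hD
  rw [hermiteSer, hermiteSer, HermiteData.expo, HermiteData.expo, hAn, hDn]
  congr 1
  have h1 : xi (ζ ^ a) N H.Dn H'.B = xi ζ N H.Dn ((a : ℤ) * H'.B) := by
    rw [xi, xi, ← zpow_natCast, ← zpow_mul]
    congr 1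
    ring
  rw [h1]
  apply xi_eq_of_dvd_sub hζ (Dn_dvd_N hN hdN H)
  rw [H.coe_Dn hd]
  exact hB

/-- coefficientwise maps act on the Hermite series through the root of unity -/
theorem coeffMap_hermiteSer {K' : Type*} [Field K'] (φ : K →+* K') (ζ : Kˣ) (N : ℕ)
    (H : HermiteData d g) :
    coeffMap φ (hermiteSer ζ N H : LaurentSeries K) =
      hermiteSer (Units.map (φ : K →* K') ζ) N H := by
  rw [hermiteSer, hermiteSer, xi, xi, jCusp_eq_jCuspR, jCusp_eq_jCuspR, coeffMap_jCuspR, map_zpow]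

end Series

/-! ### The Galois group permutes the cusp embeddings -/

section Gal

variable (N : ℕ) [NeZero N]

theorem galF_jdF (σ : Kbar ≃ₐ[ℚ] Kbar) {d : ℕ} [NeZero d] (hd : d ∣ N) :
    galF N σ (jdF N d hd) = jdF N d hd := by
  have h := galF_gen (N := N) σ ⟨d, hd⟩
  rwa [gen_eq_jdF] at h

theorem galF_symm_jdF (σ : Kbar ≃ₐ[ℚ] Kbar) {d : ℕ} [NeZero d] (hd : d ∣ N) :
    (galF N σ).symm (jdF N d hd) = jdF N d hd := by
  rw [RingEquiv.symm_apply_eq, galF_jdF]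

theorem coeffMap_algebraMap_laurent (σ : Kbar ≃ₐ[ℚ] Kbar) (x : Kbar) :
    coeffMap (σ : Kbar →+* Kbar) (algebraMap Kbar (LaurentSeries Kbar) x) =
      algebraMap Kbar (LaurentSeries Kbar) (σ x) := by
  rw [EvalBridge.algebraMap_laurent_eq_C, coeffMap_C, EvalBridge.algebraMap_laurent_eq_C]
  rfl

set_option synthInstance.maxHeartbeats 400000 in
/-- the `σ`-twist of a cusp embedding, as a `ℚ̄`-algebra homomorphism -/
def galTwist (σ : Kbar ≃ₐ[ℚ] Kbar) (c' : I0 N) : FN N →ₐ[Kbar] LaurentSeries Kbar where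
  toFun f := coeffMap (σ : Kbar →+* Kbar) (cuspSigma N c' ((galF N σ).symm f))
  map_one' := by
    show coeffMap (σ : Kbar →+* Kbar) (cuspSigma N c' ((galF N σ).symm 1)) = 1
    rw [map_one, map_one, map_one]
  map_mul' a b := by
    show coeffMap (σ : Kbar →+* Kbar) (cuspSigma N c' ((galF N σ).symm (a * b))) =
      coeffMap (σ : Kbar →+* Kbar) (cuspSigma N c' ((galF N σ).symm a)) *
        coeffMap (σ : Kbar →+* Kbar) (cuspSigma N c' ((galF N σ).symm b))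
    rw [map_mul, map_mul, map_mul]
  map_zero' := by
    show coeffMap (σ : Kbar →+* Kbar) (cuspSigma N c' ((galF N σ).symm 0)) = 0
    rw [map_zero, map_zero, map_zero]
  map_add' a b := by
    show coeffMap (σ : Kbar →+* Kbar) (cuspSigma N c' ((galF N σ).symm (a + b))) =
      coeffMap (σ : Kbar →+* Kbar) (cuspSigma N c' ((galF N σ).symm a)) +
        coeffMap (σ : Kbar →+* Kbar) (cuspSigma N c' ((galF N σ).symm b))
    rw [map_add, map_add, map_add]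
  commutes' x := by
    show coeffMap (σ : Kbar →+* Kbar)
      (cuspSigma N c' ((galF N σ).symm (algebraMap Kbar (FN N) x))) = _
    rw [galF_symm_algebraMap, AlgHom.commutes, coeffMap_algebraMap_laurent,
      AlgEquiv.apply_symm_apply]

theorem galTwist_apply (σ : Kbar ≃ₐ[ℚ] Kbar) (c' : I0 N) (f : FN N) :
    galTwist N σ c' f =
      coeffMap (σ : Kbar →+* Kbar) (cuspSigma N c' ((galF N σ).symm f)) := rfl

/-- the exponent of `σ` on `ζ_N` is prime to `N` -/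
theorem isCoprime_of_apply_zetaBar {σ : Kbar ≃ₐ[ℚ] Kbar} {a : ℕ}
    (hσ : σ ((zetaBar N : Kbarˣ) : Kbar) = ((zetaBar N : Kbarˣ) : Kbar) ^ a) :
    IsCoprime (a : ℤ) (N : ℤ) := by
  have h1 : IsPrimitiveRoot ((zetaBar N : Kbarˣ) : Kbar) N :=
    IsPrimitiveRoot.coe_units_iff.mpr (zetaBar_isPrimitiveRoot N)
  have h2 : IsPrimitiveRoot (σ ((zetaBar N : Kbarˣ) : Kbar)) N :=
    h1.map_of_injective σ.injective
  rw [hσ, h1.pow_iff_coprime (Nat.pos_of_ne_zero (NeZero.ne N))] at h2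
  exact Nat.isCoprime_iff_coprime.mpr h2

/-- **The Galois group permutes the cusp embeddings** (relational form): if `σ ζ_N = ζ_N^a` and
the representatives of `c, c'` have bottom rows related by `(z', w') ≡ (a z, w) mod N`, then
`σ_c (σ f) = σ (σ_{c'} f)` coefficientwise. -/
theorem cuspSigma_gal (σ : Kbar ≃ₐ[ℚ] Kbar) (a : ℕ)
    (hσ : σ ((zetaBar N : Kbarˣ) : Kbar) = ((zetaBar N : Kbarˣ) : Kbar) ^ a)
    (c c' : I0 N) (h10 : (N : ℤ) ∣ (rep N c') 1 0 - (a : ℤ) * (rep N c) 1 0)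
    (h11 : (N : ℤ) ∣ (rep N c') 1 1 - (rep N c) 1 1) (f : FN N) :
    cuspSigma N c (galF N σ f) = coeffMap (σ : Kbar →+* Kbar) (cuspSigma N c' f) := by
  have hN : 0 < N := Nat.pos_of_ne_zero (NeZero.ne N)
  have ha := isCoprime_of_apply_zetaBar N hσ
  have hunit : Units.map ((σ : Kbar →+* Kbar) : Kbar →* Kbar) (zetaBar N) = zetaBar N ^ a := by
    apply Units.ext
    rw [Units.coe_map, Units.val_pow_eq_pow_val]
    exact hσ
  have key : galTwist N σ c' = cuspSigma N c := by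
    apply algHom_FN_ext
    intro d _ hd
    rw [galTwist_apply, galF_symm_jdF, cuspSigma_jdF, cuspSigma_jdF, coeffMap_hermiteSer, hunit]
    obtain ⟨hA, hD, hB⟩ := hermite_params_twist hd ha h10 h11 (herm N c ⟨d, hd⟩)
      (herm N c' ⟨d, hd⟩)
    exact hermiteSer_twist (zetaBar_pow N) hN hd a _ _ hA hD hB
  have h1 := DFunLike.congr_fun key (galF N σ f)
  rw [galTwist_apply, RingEquiv.symm_apply_apply] at h1
  exact h1.symm

end Gal


/-! ### The decomposition group permutes the cusp valuations -/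

section Val

variable (N : ℕ) [NeZero N] (A : ValuationSubring Kbar)

local notation "𝕜" => ResidueField A

variable {N A}

/-- transport of a Gauss fraction at the cusp `c'` to the cusp `c` by `σ` in the decomposition
group -/
theorem isFrac_cusp_galF {σ : Kbar ≃ₐ[ℚ] Kbar} (hσd : σ ∈ A.decompositionSubgroup ℚ) {a₀ : ℕ}
    (hσ : σ ((zetaBar N : Kbarˣ) : Kbar) = ((zetaBar N : Kbarˣ) : Kbar) ^ a₀)
    {c c' : I0 N} (h10 : (N : ℤ) ∣ (rep N c') 1 0 - (a₀ : ℤ) * (rep N c) 1 0)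
    (h11 : (N : ℤ) ∣ (rep N c') 1 1 - (rep N c) 1 1) {f : FN N} {a b : LaurentSeries A}
    (hf : IsFrac A (cuspField N c') (cuspSigma N c' f) a b) :
    IsFrac A (cuspField N c) (cuspSigma N c (galF N σ f))
      (coeffMap (resA A σ hσd) a) (coeffMap (resA A σ hσd) b) := by
  obtain ⟨ha, hb, hb0, hfb⟩ := hf
  have hmem : ∀ y : LaurentSeries A, emb A y ∈ cuspField N c' →
      emb A (coeffMap (resA A σ hσd) y) ∈ cuspField N c := by
    rintro y ⟨g, hg⟩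
    rw [emb, coeffMap_subtype_resA]
    have h1 : coeffMap (σ : Kbar →+* Kbar) (coeffMap A.subtype y) =
        cuspSigma N c (galF N σ g) := by
      rw [cuspSigma_gal N σ a₀ hσ c c' h10 h11 g]
      congr 1
      exact hg.symm
    rw [h1]
    exact cuspSigma_mem_cuspField N c _
  refine ⟨hmem a ha, hmem b hb, ?_, ?_⟩
  · rw [rd_coeffMap_resA]
    exact coeffMap_resk_ne_zero A σ hσd hb0
  · have h1 := congrArg (coeffMap (σ : Kbar →+* Kbar)) hfb
    rw [map_mul] at h1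
    rw [emb, coeffMap_subtype_resA, coeffMap_subtype_resA, cuspSigma_gal N σ a₀ hσ c c' h10 h11 f]
    exact h1

/-- **the decomposition group permutes the cusp valuation rings**: `f ∈ Rw_{c'} ⟹ σ f ∈ Rw_c` -/
theorem galF_mem_RwCusp {σ : Kbar ≃ₐ[ℚ] Kbar} (hσd : σ ∈ A.decompositionSubgroup ℚ) {a₀ : ℕ}
    (hσ : σ ((zetaBar N : Kbarˣ) : Kbar) = ((zetaBar N : Kbarˣ) : Kbar) ^ a₀)
    {c c' : I0 N} (h10 : (N : ℤ) ∣ (rep N c') 1 0 - (a₀ : ℤ) * (rep N c) 1 0)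
    (h11 : (N : ℤ) ∣ (rep N c') 1 1 - (rep N c) 1 1) {f : FN N}
    (hf : f ∈ (redDataCusp N A c').Rw) : galF N σ f ∈ (redDataCusp N A c).Rw := by
  rw [mem_RwCusp_iff_isFrac] at hf ⊢
  obtain ⟨a, b, hab⟩ := hf
  exact ⟨_, _, isFrac_cusp_galF hσd hσ h10 h11 hab⟩

/-- **`red_c (σ f) = σ~ (red_{c'} f)`** coefficientwise -/
theorem coe_redCusp_galF {σ : Kbar ≃ₐ[ℚ] Kbar} (hσd : σ ∈ A.decompositionSubgroup ℚ) {a₀ : ℕ}
    (hσ : σ ((zetaBar N : Kbarˣ) : Kbar) = ((zetaBar N : Kbarˣ) : Kbar) ^ a₀)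
    {c c' : I0 N} (h10 : (N : ℤ) ∣ (rep N c') 1 0 - (a₀ : ℤ) * (rep N c) 1 0)
    (h11 : (N : ℤ) ∣ (rep N c') 1 1 - (rep N c) 1 1) {f : FN N}
    (hf : f ∈ (redDataCusp N A c').Rw) (hf' : galF N σ f ∈ (redDataCusp N A c).Rw) :
    (((redDataCusp N A c).red ⟨galF N σ f, hf'⟩ : FresCusp N A c) : LaurentSeries 𝕜) =
      coeffMap (resk A σ hσd)
        (((redDataCusp N A c').red ⟨f, hf⟩ : FresCusp N A c') : LaurentSeries 𝕜) := by
  have hf0 := hf
  rw [mem_RwCusp_iff_isFrac] at hf0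
  obtain ⟨a, b, hab⟩ := hf0
  rw [coe_redCusp N A c' f hf hab,
    coe_redCusp N A c _ hf' (isFrac_cusp_galF hσd hσ h10 h11 hab),
    rd_coeffMap_resA, rd_coeffMap_resA, map_div₀]

/-- for `σ` in the INERTIA group: `red_c (σ f) = red_{c'} f` as Laurent series over the residue
field -/
theorem coe_redCusp_galF_of_inertia {σ : Kbar ≃ₐ[ℚ] Kbar} (hσi : σ ∈ A.inertiaSubgroupIn ℚ)
    {a₀ : ℕ} (hσ : σ ((zetaBar N : Kbarˣ) : Kbar) = ((zetaBar N : Kbarˣ) : Kbar) ^ a₀)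
    {c c' : I0 N} (h10 : (N : ℤ) ∣ (rep N c') 1 0 - (a₀ : ℤ) * (rep N c) 1 0)
    (h11 : (N : ℤ) ∣ (rep N c') 1 1 - (rep N c) 1 1) {f : FN N}
    (hf : f ∈ (redDataCusp N A c').Rw) (hf' : galF N σ f ∈ (redDataCusp N A c).Rw) :
    (((redDataCusp N A c).red ⟨galF N σ f, hf'⟩ : FresCusp N A c) : LaurentSeries 𝕜) =
      (((redDataCusp N A c').red ⟨f, hf⟩ : FresCusp N A c') : LaurentSeries 𝕜) := by
  have hσd := Fermat.Agent.S05.mem_decompositionSubgroup_of_mem_inertiaSubgroupIn hσi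
  have hf0 := hf
  rw [mem_RwCusp_iff_isFrac] at hf0
  obtain ⟨a, b, hab⟩ := hf0
  have hredτ : ∀ y : LaurentSeries A, rd A (coeffMap (resA A σ hσd) y) = rd A y := by
    intro y
    ext n
    exact residue_resA_of_inertia A hσi _
  rw [coe_redCusp N A c' f hf hab,
    coe_redCusp N A c _ hf' (isFrac_cusp_galF hσd hσ h10 h11 hab), hredτ, hredτ]


theorem galF_symm_eq (σ : Kbar ≃ₐ[ℚ] Kbar) (f : FN N) : (galF N σ).symm f = galF N σ.symm f := rfl

/-- the inverse exponent: if `σ ζ = ζ^a₀` there is `a'` with `σ⁻¹ ζ = ζ^a'` and `a₀ a' ≡ 1 mod N` -/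
theorem exists_inverse_exponent {σ : Kbar ≃ₐ[ℚ] Kbar} {a₀ : ℕ}
    (hσ : σ ((zetaBar N : Kbarˣ) : Kbar) = ((zetaBar N : Kbarˣ) : Kbar) ^ a₀) :
    ∃ a' : ℕ, σ.symm ((zetaBar N : Kbarˣ) : Kbar) = ((zetaBar N : Kbarˣ) : Kbar) ^ a' ∧
      (N : ℤ) ∣ 1 - (a' : ℤ) * (a₀ : ℤ) := by
  have hN : 0 < N := Nat.pos_of_ne_zero (NeZero.ne N)
  have hN' : (0 : ℤ) < N := by exact_mod_cast hN
  obtain ⟨u, v, huv⟩ := isCoprime_of_apply_zetaBar N hσ
  set ζ : Kbarˣ := zetaBar N with hζdef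
  have hunit : Units.map ((σ : Kbar →+* Kbar) : Kbar →* Kbar) ζ = ζ ^ a₀ := by
    apply Units.ext
    rw [Units.coe_map, Units.val_pow_eq_pow_val]
    exact hσ
  set η : Kbarˣ := Units.map ((σ.symm : Kbar →+* Kbar) : Kbar →* Kbar) ζ with hη
  have hη1 : η ^ a₀ = ζ := by
    rw [hη, ← map_pow, ← hunit]
    apply Units.ext
    simp
  have hηN : η ^ N = 1 := by
    rw [hη, ← map_pow, zetaBar_pow, map_one]
  have hηu : η = ζ ^ u := by
    have h1 : η = η ^ (u * (a₀ : ℤ) + v * (N : ℤ)) := by rw [huv, zpow_one]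
    rw [h1, zpow_add, mul_comm u, zpow_mul, zpow_natCast, hη1, mul_comm v, zpow_mul, zpow_natCast,
      hηN, one_zpow, mul_one]
  have hu0 : 0 ≤ u % (N : ℤ) := Int.emod_nonneg _ hN'.ne'
  refine ⟨(u % (N : ℤ)).toNat, ?_, ?_⟩
  · have h2 : ζ ^ (u % (N : ℤ)).toNat = ζ ^ u := by
      rw [← zpow_natCast, Int.toNat_of_nonneg hu0]
      have h3 : u = u % (N : ℤ) + (N : ℤ) * (u / (N : ℤ)) := (Int.emod_add_mul_ediv u N).symm
      conv_rhs => rw [h3, zpow_add, zpow_mul, zpow_natCast, zetaBar_pow, one_zpow, mul_one]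
    have h4 : ((η : Kbarˣ) : Kbar) = σ.symm ((ζ : Kbarˣ) : Kbar) := rfl
    rw [← h4, hηu, ← h2, Units.val_pow_eq_pow_val]
  · rw [Int.toNat_of_nonneg hu0]
    have h3 : u % (N : ℤ) = u - (N : ℤ) * (u / (N : ℤ)) := by
      have := Int.emod_add_mul_ediv u N
      linarith
    refine ⟨v + (u / (N : ℤ)) * (a₀ : ℤ), ?_⟩
    rw [h3]
    linear_combination (-1 : ℤ) * huv

/-- **`σ f ∈ Rw_c ↔ f ∈ Rw_{c'}`**: `Rw_{c'}` is the pull-back of `Rw_c` under `σ` -/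
theorem galF_mem_RwCusp_iff {σ : Kbar ≃ₐ[ℚ] Kbar} (hσd : σ ∈ A.decompositionSubgroup ℚ) {a₀ : ℕ}
    (hσ : σ ((zetaBar N : Kbarˣ) : Kbar) = ((zetaBar N : Kbarˣ) : Kbar) ^ a₀)
    {c c' : I0 N} (h10 : (N : ℤ) ∣ (rep N c') 1 0 - (a₀ : ℤ) * (rep N c) 1 0)
    (h11 : (N : ℤ) ∣ (rep N c') 1 1 - (rep N c) 1 1) {f : FN N} :
    galF N σ f ∈ (redDataCusp N A c).Rw ↔ f ∈ (redDataCusp N A c').Rw := by
  refine ⟨fun hf => ?_, galF_mem_RwCusp hσd hσ h10 h11⟩
  obtain ⟨a', hσ', ha'⟩ := exists_inverse_exponent hσ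
  have hσd' : σ.symm ∈ A.decompositionSubgroup ℚ := inv_mem hσd
  have h10' : (N : ℤ) ∣ (rep N c) 1 0 - (a' : ℤ) * (rep N c') 1 0 := by
    obtain ⟨k, hk⟩ := h10
    obtain ⟨k', hk'⟩ := ha'
    refine ⟨k' * (rep N c) 1 0 - (a' : ℤ) * k, ?_⟩
    linear_combination (rep N c) 1 0 * hk' - (a' : ℤ) * hk
  have h11' : (N : ℤ) ∣ (rep N c) 1 1 - (rep N c') 1 1 := by
    rw [← dvd_neg, neg_sub]
    exact h11
  have h1 := galF_mem_RwCusp hσd' hσ' h10' h11' hf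
  rwa [← galF_symm_eq, RingEquiv.symm_apply_apply] at h1

end Val

end Fermat.Agent.GL.CuspVal
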