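/-
GATE-L / L1c CUSP-GAL, user form (helper18): the Galois transport of cusp embeddings/valuations
for cosets given by EXPLICIT matrices.

`rep N c = (Quotient.out c)⁻¹` is only determined up to left multiplication by `Γ₀(N)`, so its bottom
row is known only up to a unit scalar mod `N`.  This file removes that ambiguity:

* `hermite_params_twist_scalar` : `μ' g'₁₀ ≡ μ a g₁₀`, `μ' g'₁₁ ≡ μ g₁₁ mod N` (`a, μ, μ'` prime to `N`)
  ⟹ `A' = A`, `D' = D`, `a B' ≡ B mod D`;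
* `rep_mk_inv` : `rep N ⟦g⁻¹⟧ = γ g` with `γ ∈ Γ₀(N)`;
* **`cuspSigma_gal_mk`** : `σ ζ_N = ζ_N^a`, `g'₁₀ ≡ a g₁₀`, `g'₁₁ ≡ g₁₁ mod N` ⟹
  `σ_{⟦g⁻¹⟧} (σ f) = σ (σ_{⟦g'⁻¹⟧} f)` coefficientwise;
* the valuation statements from ANY identity `hgal : ∀ f, σ_c (σ f) = σ (σ_{c'} f)`:
  `galF_mem_RwCusp_iff_of`, `coe_redCusp_galF_of`, `coe_redCusp_galF_of_inertia_of`.
-/
import Mathlib
import Fermat.Agent.GL.Cusp.CuspGal

set_option autoImplicit false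

noncomputable section

namespace Fermat.Agent.GL.CuspVal

open HahnSeries ModularCurve IsLocalRing
open Fermat.Agent.S24 Fermat.Agent.S28 Fermat.Agent.S28.CuspExp Fermat.Agent.S28.Assemble
open Fermat.Agent.S24_helper62 Fermat.Agent.S24.Degree
open Fermat.Agent.GJ.J1 Fermat.Agent.GJ.J1.Val Fermat.Agent.GK.Val Fermat.Agent.GJ.Kum
open Fermat.Agent.GK.AL
open scoped MatrixGroups

/-! ### Hermite parameters under a twist of the bottom row, up to unit scalars -/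

section Hermite

variable {d N : ℕ} {g g' : SL(2, ℤ)}

theorem hermite_A_twist_scalar (hdN : d ∣ N) {a μ μ' : ℤ} (ha : IsCoprime a (N : ℤ))
    (hμ : IsCoprime μ (N : ℤ)) (hμ' : IsCoprime μ' (N : ℤ))
    (h10 : (N : ℤ) ∣ μ' * g' 1 0 - μ * a * g 1 0) (H : HermiteData d g) (H' : HermiteData d g') :
    H'.A = H.A := by
  have hdN' : (d : ℤ) ∣ (N : ℤ) := Int.natCast_dvd_natCast.mpr hdN
  have hd10 : (d : ℤ) ∣ μ' * g' 1 0 - μ * a * g 1 0 := hdN'.trans h10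
  have had : IsCoprime (μ * a) (d : ℤ) :=
    (hμ.mul_left ha).of_isCoprime_of_dvd_right hdN'
  have hμd : IsCoprime μ' (d : ℤ) := hμ'.of_isCoprime_of_dvd_right hdN'
  rw [H.A_eq, H'.A_eq]
  congr 1
  apply Nat.dvd_antisymm
  · have h1 : ((Int.gcd (g' 1 0) d : ℕ) : ℤ) ∣ g' 1 0 := Int.gcd_dvd_left _ _
    have h2 : ((Int.gcd (g' 1 0) d : ℕ) : ℤ) ∣ (d : ℤ) := Int.gcd_dvd_right _ _
    have h3 : ((Int.gcd (g' 1 0) d : ℕ) : ℤ) ∣ μ * a * g 1 0 := by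
      have := dvd_sub (Dvd.dvd.mul_left h1 μ') (h2.trans hd10)
      rwa [sub_sub_cancel] at this
    have h4 : IsCoprime (μ * a) ((Int.gcd (g' 1 0) d : ℕ) : ℤ) := had.of_isCoprime_of_dvd_right h2
    have h5 : ((Int.gcd (g' 1 0) d : ℕ) : ℤ) ∣ g 1 0 := h4.symm.dvd_of_dvd_mul_left h3
    exact Int.natCast_dvd_natCast.mp (Int.dvd_coe_gcd h5 h2)
  · have h1 : ((Int.gcd (g 1 0) d : ℕ) : ℤ) ∣ g 1 0 := Int.gcd_dvd_left _ _
    have h2 : ((Int.gcd (g 1 0) d : ℕ) : ℤ) ∣ (d : ℤ) := Int.gcd_dvd_right _ _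
    have h3 : ((Int.gcd (g 1 0) d : ℕ) : ℤ) ∣ μ' * g' 1 0 := by
      have := dvd_add (h2.trans hd10) (Dvd.dvd.mul_left h1 (μ * a))
      rwa [sub_add_cancel] at this
    have h4 : IsCoprime μ' ((Int.gcd (g 1 0) d : ℕ) : ℤ) := hμd.of_isCoprime_of_dvd_right h2
    have h5 : ((Int.gcd (g 1 0) d : ℕ) : ℤ) ∣ g' 1 0 := h4.symm.dvd_of_dvd_mul_left h3
    exact Int.natCast_dvd_natCast.mp (Int.dvd_coe_gcd h5 h2)

/-- **Hermite parameters under a twist, up to unit scalars** -/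
theorem hermite_params_twist_scalar (hdN : d ∣ N) {a μ μ' : ℤ} (ha : IsCoprime a (N : ℤ))
    (hμ : IsCoprime μ (N : ℤ)) (hμ' : IsCoprime μ' (N : ℤ))
    (h10 : (N : ℤ) ∣ μ' * g' 1 0 - μ * a * g 1 0) (h11 : (N : ℤ) ∣ μ' * g' 1 1 - μ * g 1 1)
    (H : HermiteData d g) (H' : HermiteData d g') :
    H'.A = H.A ∧ H'.D = H.D ∧ H.D ∣ a * H'.B - H.B := by
  have hA := hermite_A_twist_scalar hdN ha hμ hμ' h10 H H'
  have hD : H'.D = H.D := by
    have h1 := H'.A_mul_D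
    rw [← H.A_mul_D, hA] at h1
    exact mul_left_cancel₀ H.A_pos.ne' h1
  refine ⟨hA, hD, ?_⟩
  obtain ⟨e, he⟩ := hdN
  have hN : (N : ℤ) = H.A * H.D * e := by rw [H.A_mul_D, he]; push_cast; ring
  have hDN : H.D ∣ (N : ℤ) := ⟨H.A * e, by rw [hN]; ring⟩
  obtain ⟨k, hk⟩ := h10
  obtain ⟨k', hk'⟩ := h11
  -- `μ' s' = μ a s + D e k`
  have hs : μ' * H'.g'' 1 0 = μ * a * H.g'' 1 0 + H.D * (e * k) := by
    apply mul_right_cancel₀ H.A_pos.ne'
    have h1 := H'.h10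
    rw [hA] at h1
    have h2 := H.h10
    linear_combination μ' * h1 - μ * a * h2 + hk + k * hN
  -- `μ s (a B' - B) ≡ 0 mod D`
  have hmain : H.D ∣ (μ * H.g'' 1 0) * (a * H'.B - H.B) := by
    have h1 := H'.h11
    have h2 := H.h11
    rw [hD] at h1
    refine ⟨μ * H.g'' 1 1 - μ' * H'.g'' 1 1 - e * k * H'.B + H.A * e * k', ?_⟩
    linear_combination μ' * h1 - μ * h2 - H'.B * hs + hk' + k' * hN
  have hcop : IsCoprime (μ * H.g'' 1 0) H.D :=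
    (hμ.of_isCoprime_of_dvd_right hDN).mul_left (isCoprime_g''_D H)
  exact hcop.symm.dvd_of_dvd_mul_left hmain

end Hermite


/-! ### Representatives of explicit cosets -/

section Mk

variable (N : ℕ) [NeZero N]

omit [NeZero N] in
/-- `rep N ⟦h⟧ = γ h⁻¹` with `γ ∈ Γ₀(N)` -/
theorem rep_mk (h : SL(2, ℤ)) :
    ∃ γ ∈ CongruenceSubgroup.Gamma0 N, rep N (QuotientGroup.mk h : I0 N) = γ * h⁻¹ := by
  obtain ⟨γ', hγ'⟩ := QuotientGroup.mk_out_eq_mul (CongruenceSubgroup.Gamma0 N) h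
  refine ⟨(γ' : SL(2, ℤ))⁻¹, inv_mem γ'.2, ?_⟩
  have h1 : rep N (QuotientGroup.mk h : I0 N) = (Quotient.out (QuotientGroup.mk h : I0 N))⁻¹ := rfl
  have h2 : Quotient.out (QuotientGroup.mk h : I0 N) = h * (γ' : SL(2, ℤ)) := hγ'
  rw [h1, h2, mul_inv_rev]

omit [NeZero N] in
/-- bottom row of `γ g` for `γ ∈ Γ₀(N)`: `≡ γ₁₁ · (bottom row of g)`, `γ₁₁` prime to `N` -/
theorem bottom_row_mul_of_mem_Gamma0 {γ : SL(2, ℤ)} (hγ : γ ∈ CongruenceSubgroup.Gamma0 N)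
    (g : SL(2, ℤ)) :
    IsCoprime (γ 1 1) (N : ℤ) ∧ (N : ℤ) ∣ (γ * g) 1 0 - γ 1 1 * g 1 0 ∧
      (N : ℤ) ∣ (γ * g) 1 1 - γ 1 1 * g 1 1 := by
  rw [CongruenceSubgroup.Gamma0_mem, ZMod.intCast_zmod_eq_zero_iff_dvd] at hγ
  obtain ⟨k, hk⟩ := hγ
  have hdet := det_entries γ
  refine ⟨⟨γ 0 0, -(γ 0 1 * k), ?_⟩, ⟨k * g 0 0, ?_⟩, ⟨k * g 0 1, ?_⟩⟩
  · rw [hk] at hdet
    linear_combination hdet
  · rw [mul_apply_entries, hk]
    ring
  · rw [mul_apply_entries, hk]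
    ring

end Mk

/-! ### The Galois transport from Hermite parameters, and for explicit cosets -/

section GalMk

variable (N : ℕ) [NeZero N]

/-- the transport identity from a relation between the Hermite parameters of all `d ∣ N` -/
theorem cuspSigma_gal_of_params (σ : Kbar ≃ₐ[ℚ] Kbar) (a : ℕ)
    (hσ : σ ((zetaBar N : Kbarˣ) : Kbar) = ((zetaBar N : Kbarˣ) : Kbar) ^ a) (c c' : I0 N)
    (hpar : ∀ (d : ℕ) (hd : d ∣ N), (herm N c' ⟨d, hd⟩).A = (herm N c ⟨d, hd⟩).A ∧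
      (herm N c' ⟨d, hd⟩).D = (herm N c ⟨d, hd⟩).D ∧
      (herm N c ⟨d, hd⟩).D ∣ (a : ℤ) * (herm N c' ⟨d, hd⟩).B - (herm N c ⟨d, hd⟩).B)
    (f : FN N) :
    cuspSigma N c (galF N σ f) = coeffMap (σ : Kbar →+* Kbar) (cuspSigma N c' f) := by
  have hN : 0 < N := Nat.pos_of_ne_zero (NeZero.ne N)
  have hunit : Units.map ((σ : Kbar →+* Kbar) : Kbar →* Kbar) (zetaBar N) = zetaBar N ^ a := by
    apply Units.ext
    rw [Units.coe_map, Units.val_pow_eq_pow_val]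
    exact hσ
  have key : galTwist N σ c' = cuspSigma N c := by
    apply algHom_FN_ext
    intro d _ hd
    rw [galTwist_apply, galF_symm_jdF, cuspSigma_jdF, cuspSigma_jdF, coeffMap_hermiteSer, hunit]
    obtain ⟨hA, hD, hB⟩ := hpar d hd
    exact hermiteSer_twist (zetaBar_pow N) hN hd a _ _ hA hD hB
  have h1 := DFunLike.congr_fun key (galF N σ f)
  rw [galTwist_apply, RingEquiv.symm_apply_apply] at h1
  exact h1.symm

/-- **The Galois group permutes the cusp embeddings, for explicit cosets**: if `σ ζ_N = ζ_N^a` and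
`g'₁₀ ≡ a g₁₀`, `g'₁₁ ≡ g₁₁ mod N`, then `σ_{⟦g⁻¹⟧} (σ f) = σ (σ_{⟦g'⁻¹⟧} f)` coefficientwise
(`σ_{⟦g⁻¹⟧}` is the expansion of `f ∘ g`). -/
theorem cuspSigma_gal_mk (σ : Kbar ≃ₐ[ℚ] Kbar) (a : ℕ)
    (hσ : σ ((zetaBar N : Kbarˣ) : Kbar) = ((zetaBar N : Kbarˣ) : Kbar) ^ a)
    (g g' : SL(2, ℤ)) (h10 : (N : ℤ) ∣ g' 1 0 - (a : ℤ) * g 1 0)
    (h11 : (N : ℤ) ∣ g' 1 1 - g 1 1) (f : FN N) :
    cuspSigma N (QuotientGroup.mk g⁻¹ : I0 N) (galF N σ f) =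
      coeffMap (σ : Kbar →+* Kbar) (cuspSigma N (QuotientGroup.mk g'⁻¹ : I0 N) f) := by
  have ha := isCoprime_of_apply_zetaBar N hσ
  obtain ⟨γ, hγ, hrep⟩ := rep_mk N g⁻¹
  obtain ⟨γ', hγ', hrep'⟩ := rep_mk N g'⁻¹
  rw [inv_inv] at hrep hrep'
  obtain ⟨hc, e10, e11⟩ := bottom_row_mul_of_mem_Gamma0 N hγ g
  obtain ⟨hc', e10', e11'⟩ := bottom_row_mul_of_mem_Gamma0 N hγ' g'
  apply cuspSigma_gal_of_params N σ a hσ
  intro d hd
  refine hermite_params_twist_scalar (μ := γ' 1 1) (μ' := γ 1 1) hd ha hc' hc ?_ ?_ _ _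
  · rw [hrep, hrep']
    obtain ⟨k, hk⟩ := e10
    obtain ⟨k', hk'⟩ := e10'
    obtain ⟨k₀, hk₀⟩ := h10
    refine ⟨γ 1 1 * k' - γ' 1 1 * (a : ℤ) * k + γ 1 1 * γ' 1 1 * k₀, ?_⟩
    linear_combination γ 1 1 * hk' - γ' 1 1 * (a : ℤ) * hk + γ 1 1 * γ' 1 1 * hk₀
  · rw [hrep, hrep']
    obtain ⟨k, hk⟩ := e11
    obtain ⟨k', hk'⟩ := e11'
    obtain ⟨k₀, hk₀⟩ := h11
    refine ⟨γ 1 1 * k' - γ' 1 1 * k + γ 1 1 * γ' 1 1 * k₀, ?_⟩
    linear_combination γ 1 1 * hk' - γ' 1 1 * hk + γ 1 1 * γ' 1 1 * hk₀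

end GalMk

/-! ### The valuation statements from any transport identity -/

section ValOf

variable {N : ℕ} [NeZero N] {A : ValuationSubring Kbar}

local notation "𝕜" => ResidueField A

theorem coeffMap_symm_coeffMap (σ : Kbar ≃ₐ[ℚ] Kbar) (x : LaurentSeries Kbar) :
    coeffMap (σ.symm : Kbar →+* Kbar) (coeffMap (σ : Kbar →+* Kbar) x) = x := by
  rw [coeffMap_coeffMap,
    coeffMap_congr (g := RingHom.id Kbar) (RingHom.ext fun a => σ.symm_apply_apply a) x,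
    coeffMap_id]

/-- the transport identity for `σ⁻¹` (with the roles of `c, c'` exchanged) -/
theorem hgal_symm {σ : Kbar ≃ₐ[ℚ] Kbar} {c c' : I0 N}
    (hgal : ∀ f : FN N, cuspSigma N c (galF N σ f) =
      coeffMap (σ : Kbar →+* Kbar) (cuspSigma N c' f)) (f : FN N) :
    cuspSigma N c' (galF N σ.symm f) = coeffMap (σ.symm : Kbar →+* Kbar) (cuspSigma N c f) := by
  have h1 := hgal (galF N σ.symm f)
  rw [← galF_symm_eq, RingEquiv.apply_symm_apply] at h1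
  rw [h1, coeffMap_symm_coeffMap, galF_symm_eq]

theorem isFrac_cusp_galF_of {σ : Kbar ≃ₐ[ℚ] Kbar} (hσd : σ ∈ A.decompositionSubgroup ℚ)
    {c c' : I0 N}
    (hgal : ∀ f : FN N, cuspSigma N c (galF N σ f) =
      coeffMap (σ : Kbar →+* Kbar) (cuspSigma N c' f)) {f : FN N} {a b : LaurentSeries A}
    (hf : IsFrac A (cuspField N c') (cuspSigma N c' f) a b) :
    IsFrac A (cuspField N c) (cuspSigma N c (galF N σ f))
      (coeffMap (resA A σ hσd) a) (coeffMap (resA A σ hσd) b) := by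
  obtain ⟨ha, hb, hb0, hfb⟩ := hf
  have hmem : ∀ y : LaurentSeries A, emb A y ∈ cuspField N c' →
      emb A (coeffMap (resA A σ hσd) y) ∈ cuspField N c := by
    rintro y ⟨g, hg⟩
    rw [emb, coeffMap_subtype_resA]
    have h1 : coeffMap (σ : Kbar →+* Kbar) (coeffMap A.subtype y) =
        cuspSigma N c (galF N σ g) := by
      rw [hgal g]
      congr 1
      exact hg.symm
    rw [h1]
    exact cuspSigma_mem_cuspField N c _
  refine ⟨hmem a ha, hmem b hb, ?_, ?_⟩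
  · rw [rd_coeffMap_resA]
    exact coeffMap_resk_ne_zero A σ hσd hb0
  · have h1 := congrArg (coeffMap (σ : Kbar →+* Kbar)) hfb
    rw [map_mul] at h1
    rw [emb, coeffMap_subtype_resA, coeffMap_subtype_resA, hgal f]
    exact h1

theorem galF_mem_RwCusp_of {σ : Kbar ≃ₐ[ℚ] Kbar} (hσd : σ ∈ A.decompositionSubgroup ℚ)
    {c c' : I0 N}
    (hgal : ∀ f : FN N, cuspSigma N c (galF N σ f) =
      coeffMap (σ : Kbar →+* Kbar) (cuspSigma N c' f)) {f : FN N}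
    (hf : f ∈ (redDataCusp N A c').Rw) : galF N σ f ∈ (redDataCusp N A c).Rw := by
  rw [mem_RwCusp_iff_isFrac] at hf ⊢
  obtain ⟨a, b, hab⟩ := hf
  exact ⟨_, _, isFrac_cusp_galF_of hσd hgal hab⟩

/-- **`σ f ∈ Rw_c ↔ f ∈ Rw_{c'}`** from a transport identity -/
theorem galF_mem_RwCusp_iff_of {σ : Kbar ≃ₐ[ℚ] Kbar} (hσd : σ ∈ A.decompositionSubgroup ℚ)
    {c c' : I0 N}
    (hgal : ∀ f : FN N, cuspSigma N c (galF N σ f) =
      coeffMap (σ : Kbar →+* Kbar) (cuspSigma N c' f)) {f : FN N} :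
    galF N σ f ∈ (redDataCusp N A c).Rw ↔ f ∈ (redDataCusp N A c').Rw := by
  refine ⟨fun hf => ?_, galF_mem_RwCusp_of hσd hgal⟩
  have hσd' : σ.symm ∈ A.decompositionSubgroup ℚ := inv_mem hσd
  have h1 := galF_mem_RwCusp_of hσd' (hgal_symm hgal) hf
  rwa [← galF_symm_eq, RingEquiv.symm_apply_apply] at h1

/-- **`red_c (σ f) = σ~ (red_{c'} f)`** coefficientwise, from a transport identity -/
theorem coe_redCusp_galF_of {σ : Kbar ≃ₐ[ℚ] Kbar} (hσd : σ ∈ A.decompositionSubgroup ℚ)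
    {c c' : I0 N}
    (hgal : ∀ f : FN N, cuspSigma N c (galF N σ f) =
      coeffMap (σ : Kbar →+* Kbar) (cuspSigma N c' f)) {f : FN N}
    (hf : f ∈ (redDataCusp N A c').Rw) (hf' : galF N σ f ∈ (redDataCusp N A c).Rw) :
    (((redDataCusp N A c).red ⟨galF N σ f, hf'⟩ : FresCusp N A c) : LaurentSeries 𝕜) =
      coeffMap (resk A σ hσd)
        (((redDataCusp N A c').red ⟨f, hf⟩ : FresCusp N A c') : LaurentSeries 𝕜) := by
  have hf0 := hf
  rw [mem_RwCusp_iff_isFrac] at hf0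
  obtain ⟨a, b, hab⟩ := hf0
  rw [coe_redCusp N A c' f hf hab,
    coe_redCusp N A c _ hf' (isFrac_cusp_galF_of hσd hgal hab),
    rd_coeffMap_resA, rd_coeffMap_resA, map_div₀]

/-- for `σ` in the INERTIA group: `red_c (σ f) = red_{c'} f` as series over the residue field -/
theorem coe_redCusp_galF_of_inertia_of {σ : Kbar ≃ₐ[ℚ] Kbar} (hσi : σ ∈ A.inertiaSubgroupIn ℚ)
    {c c' : I0 N}
    (hgal : ∀ f : FN N, cuspSigma N c (galF N σ f) =
      coeffMap (σ : Kbar →+* Kbar) (cuspSigma N c' f)) {f : FN N}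
    (hf : f ∈ (redDataCusp N A c').Rw) (hf' : galF N σ f ∈ (redDataCusp N A c).Rw) :
    (((redDataCusp N A c).red ⟨galF N σ f, hf'⟩ : FresCusp N A c) : LaurentSeries 𝕜) =
      (((redDataCusp N A c').red ⟨f, hf⟩ : FresCusp N A c') : LaurentSeries 𝕜) := by
  have hσd := Fermat.Agent.S05.mem_decompositionSubgroup_of_mem_inertiaSubgroupIn hσi
  have hf0 := hf
  rw [mem_RwCusp_iff_isFrac] at hf0
  obtain ⟨a, b, hab⟩ := hf0
  have hredτ : ∀ y : LaurentSeries A, rd A (coeffMap (resA A σ hσd) y) = rd A y := by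
    intro y
    ext n
    exact residue_resA_of_inertia A hσi _
  rw [coe_redCusp N A c' f hf hab,
    coe_redCusp N A c _ hf' (isFrac_cusp_galF_of hσd hgal hab), hredτ, hredτ]

end ValOf

end Fermat.Agent.GL.CuspVal
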