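/-
GATE-L / L1c user form (helper18): the cusp expansions and reductions of the generators `j(q^d)` at
an EXPLICIT coset `⟦g⁻¹⟧ ∈ I0 N` in terms of ANY Hermite data of `g` itself
(`rep N ⟦g⁻¹⟧ = γ g` with an unknown `γ ∈ Γ₀(N)`; the Hermite series does not see `γ`).

* `cuspSigma_mk_jdF` : `σ_{⟦g⁻¹⟧} (j(q^d)) = hermiteSer ζ N H` for every `H : HermiteData d g`;
* `coe_redCusp_mk_jdF` : `red_{⟦g⁻¹⟧} (j(q^d)) = hermiteSer ζ~ N H`.
Combine with T24's `hermite_eq_of_factor` to compute `(A, B, D)` from an explicit factorisation.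
-/
import Mathlib
import Fermat.Agent.GL.Cusp.CuspGalMk

set_option autoImplicit false

noncomputable section

namespace Fermat.Agent.GL.CuspVal

open HahnSeries ModularCurve IsLocalRing
open Fermat.Agent.S24 Fermat.Agent.S28 Fermat.Agent.S28.CuspExp Fermat.Agent.S28.Assemble
open Fermat.Agent.S24_helper62 Fermat.Agent.S24.Degree
open Fermat.Agent.GJ.J1 Fermat.Agent.GJ.J1.Val Fermat.Agent.GK.Val
open scoped MatrixGroups

variable (N : ℕ) [NeZero N]

/-- the Hermite series of `γ g` and of `g` agree for `γ ∈ Γ₀(N)`, `d ∣ N` (any Hermite data) -/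
theorem hermiteSer_eq_of_eq_mul {K : Type*} [Field K] {ζ : Kˣ} (hζ : ζ ^ N = 1) {d : ℕ}
    (hd : d ∣ N) {γ g g₁ : SL(2, ℤ)} (hγ : γ ∈ CongruenceSubgroup.Gamma0 N) (hg₁ : g₁ = γ * g)
    (H : HermiteData d g) (H₁ : HermiteData d g₁) :
    (hermiteSer ζ N H₁ : LaurentSeries K) = hermiteSer ζ N H := by
  subst hg₁
  rw [CongruenceSubgroup.Gamma0_mem, ZMod.intCast_zmod_eq_zero_iff_dvd] at hγ
  exact hermiteSer_mul_left hζ (Nat.pos_of_ne_zero (NeZero.ne N)) hd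
    ((Int.natCast_dvd_natCast.mpr hd).trans hγ) H H₁

/-- **the expansion of `j(q^d)` at the explicit coset `⟦g⁻¹⟧`**, from any Hermite data of `g` -/
theorem cuspSigma_mk_jdF (g : SL(2, ℤ)) {d : ℕ} [NeZero d] (hd : d ∣ N) (H : HermiteData d g) :
    cuspSigma N (QuotientGroup.mk g⁻¹ : I0 N) (jdF N d hd) = hermiteSer (zetaBar N) N H := by
  obtain ⟨γ, hγ, hrep⟩ := rep_mk N g⁻¹
  rw [inv_inv] at hrep
  rw [cuspSigma_jdF]
  exact hermiteSer_eq_of_eq_mul N (zetaBar_pow N) hd hγ hrep H _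

/-- **the reduction of `j(q^d)` at the explicit coset `⟦g⁻¹⟧`**, from any Hermite data of `g` -/
theorem coe_redCusp_mk_jdF (A : ValuationSubring Kbar) (g : SL(2, ℤ)) {d : ℕ} [NeZero d]
    (hd : d ∣ N) (H : HermiteData d g)
    (h : jdF N d hd ∈ (redDataCusp N A (QuotientGroup.mk g⁻¹ : I0 N)).Rw) :
    (((redDataCusp N A (QuotientGroup.mk g⁻¹ : I0 N)).red ⟨jdF N d hd, h⟩ :
        FresCusp N A (QuotientGroup.mk g⁻¹ : I0 N)) : LaurentSeries (ResidueField A)) =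
      hermiteSer (zetaRes N A) N H := by
  obtain ⟨γ, hγ, hrep⟩ := rep_mk N g⁻¹
  rw [inv_inv] at hrep
  rw [coe_redCusp_jdF]
  exact hermiteSer_eq_of_eq_mul N (zetaRes_pow N A) hd hγ hrep H _

end Fermat.Agent.GL.CuspVal
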