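import Fermat.Agent.GL.Cusp.CuspOrdSq
import Fermat.Agent.GL.Cusp.CuspMk

/-!
# GATE-L / PREP: cusp orders at an EXPLICIT coset `⟦g⁻¹⟧ ∈ I0 N`

`ord_{⟦g⁻¹⟧} (j_d) = -(N/d) · gcd(g₁₀, d)²` and `cuspGcd N ⟦g⁻¹⟧ d = gcd(g₁₀, d)` for `d ∣ N`
(the class of a cusp is read off the lower-left entry of ANY representative).
-/

set_option autoImplicit false

noncomputable section

namespace Fermat.Agent.GL.CuspOrd

open Fermat.Agent.S24 Fermat.Agent.S28 Fermat.Agent.S28.CuspExp Fermat.Agent.S28.Assemble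
  Fermat.Agent.S24_helper62 Fermat.Agent.GK.Cusp Fermat.Agent.GL.CuspVal
open scoped MatrixGroups

variable (N : ℕ) [NeZero N]

/-- **`ord_{⟦g⁻¹⟧} (j_d) = -(N/d) · gcd(g₁₀, d)²`** -/
theorem cuspVal_mk_jdF (g : SL(2, ℤ)) {d : ℕ} [NeZero d] (hd : d ∣ N) :
    cuspVal N (QuotientGroup.mk g⁻¹ : I0 N) (jdF N d hd) =
      -((N / d * Nat.gcd (g 1 0).natAbs d ^ 2 : ℕ) : ℤ) := by
  obtain ⟨H⟩ := nonempty_hermiteData d (Nat.pos_of_ne_zero (NeZero.ne d)) g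
  rw [cuspVal_apply, cuspSigma_mk_jdF N g hd H,
    hermiteSer_order _ _ (Nat.pos_of_ne_zero (NeZero.ne N)) hd, HermiteData.expo, HermiteData.An_eq]

/-- the class of the cusp `⟦g⁻¹⟧` is read off `g₁₀` -/
theorem cuspGcd_mk (g : SL(2, ℤ)) {d : ℕ} [NeZero d] (hd : d ∣ N) :
    cuspGcd N (QuotientGroup.mk g⁻¹ : I0 N) d = Nat.gcd (g 1 0).natAbs d := by
  have h1 := cuspVal_mk_jdF N g hd
  rw [cuspVal_jdF_gcd] at h1
  have h2 : N / d * cuspGcd N (QuotientGroup.mk g⁻¹ : I0 N) d ^ 2 =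
      N / d * Nat.gcd (g 1 0).natAbs d ^ 2 := by
    have := neg_injective h1
    exact_mod_cast this
  have hpos : 0 < N / d :=
    Nat.div_pos (Nat.le_of_dvd (Nat.pos_of_ne_zero (NeZero.ne N)) hd)
      (Nat.pos_of_ne_zero (NeZero.ne d))
  have h3 := Nat.eq_of_mul_eq_mul_left hpos h2
  exact Nat.pow_left_injective (by norm_num : 2 ≠ 0) h3

end Fermat.Agent.GL.CuspOrd
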