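import Fermat.Agent.GL.Cusp.CuspOrd

/-!
# GATE-L / PREP: the three classes of cusps at a level `N` divisible by `q²`

For a prime `q` with `q² ∣ N` the cusps `c : I0 N` fall into three classes according to
`(g₁, g₂) := (gcd(c₁₀, q), gcd(c₁₀, q²)) ∈ {(1,1), (q,q), (q,q²)}` ("∞-like", "1/q-like", "0-like"
for the `q`-part).  Orders of `j, j' = j_q, j'' = j_{q²}` in the parameter `t = q^{1/N}`:

| class    | `ord j` | `ord j_q` | `ord j_{q²}` |
| `(1,1)`  | `-N`    | `-N/q`    | `-N/q²`      |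
| `(q,q)`  | `-N`    | `-N q`    | `-N`         |
| `(q,q²)` | `-N`    | `-N q`    | `-N q²`      |

In particular at the cusps of class `(q,q)` (the cusps of the component `C₃`) `j / j_{q²}` and
`j_q / j^q` have order `0`.
-/

set_option autoImplicit false

noncomputable section

namespace Fermat.Agent.GL.CuspOrd

open Fermat.Agent.S24 Fermat.Agent.S24_helper62 Fermat.Agent.GK.Cusp

variable (N : ℕ) [NeZero N] {q : ℕ}

omit [NeZero N] in
/-- `gcd(c, q²) = 1 ⟹ gcd(c, q) = 1` -/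
theorem cuspGcd_eq_one_of_sq (c : I0 N) (h : cuspGcd N c (q ^ 2) = 1) : cuspGcd N c q = 1 := by
  have h1 : cuspGcd N c q ∣ cuspGcd N c (q ^ 2) :=
    cuspGcd_dvd_of_dvd N c (dvd_pow_self q two_ne_zero)
  rw [h] at h1
  exact Nat.dvd_one.mp h1

variable (hq : q.Prime)

include hq

omit [NeZero N] in
/-- `gcd(c, q) ∈ {1, q}` -/
theorem cuspGcd_prime (c : I0 N) : cuspGcd N c q = 1 ∨ cuspGcd N c q = q :=
  (Nat.dvd_prime hq).mp (cuspGcd_dvd N c q)

omit [NeZero N] in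
/-- `gcd(c, q²) ∈ {1, q, q²}` -/
theorem cuspGcd_prime_sq (c : I0 N) :
    cuspGcd N c (q ^ 2) = 1 ∨ cuspGcd N c (q ^ 2) = q ∨ cuspGcd N c (q ^ 2) = q ^ 2 := by
  obtain ⟨i, hi, h⟩ := (Nat.dvd_prime_pow hq).mp (cuspGcd_dvd N c (q ^ 2))
  interval_cases i
  · left; simpa using h
  · right; left; simpa using h
  · right; right; exact h

omit [NeZero N] in
/-- `gcd(c, q²) ≠ 1 ⟹ gcd(c, q) = q` -/
theorem cuspGcd_eq_of_sq_ne_one (c : I0 N) (h : cuspGcd N c (q ^ 2) ≠ 1) :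
    cuspGcd N c q = q := by
  rcases cuspGcd_prime N hq c with h1 | h1
  · exfalso
    apply h
    have hcop : Nat.Coprime (cuspC N c).natAbs q := h1
    exact Nat.Coprime.pow_right 2 hcop
  · exact h1

/-- the cusps of class `(q, q)`: `ord_c (j / j_{q²}) = 0` -/
theorem cuspVal_jF_div_jdF_sq [NeZero (q ^ 2)] (hq2 : q ^ 2 ∣ N) (c : I0 N)
    (h : cuspGcd N c (q ^ 2) = q) :
    cuspVal N c (jF N / jdF N (q ^ 2) hq2) = 0 := by
  have h0 := cuspVal_pow_div_pow N c (one_dvd N) hq2 1 1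
  rw [pow_one, pow_one] at h0
  have hj : jdF N 1 (one_dvd N) = jF N := rfl
  rw [hj] at h0
  rw [h0, h, cuspGcd_one, Nat.div_one]
  obtain ⟨m, rfl⟩ := hq2
  rw [Nat.mul_div_cancel_left _ (pow_pos hq.pos 2)]
  push_cast
  ring

/-- the cusps of class `(q, q)` or `(q, q²)`: `ord_c (j_q / j^q) = 0` -/
theorem cuspVal_jdF_div_jF_pow [NeZero q] (hqN : q ∣ N) (c : I0 N) (h : cuspGcd N c q = q) :
    cuspVal N c (jdF N q hqN / jF N ^ q) = 0 := by
  have h0 := cuspVal_pow_div_pow N c hqN (one_dvd N) 1 q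
  rw [pow_one] at h0
  have hj : jdF N 1 (one_dvd N) = jF N := rfl
  rw [hj] at h0
  rw [h0, h, cuspGcd_one, Nat.div_one]
  obtain ⟨m, rfl⟩ := hqN
  rw [Nat.mul_div_cancel_left _ hq.pos]
  push_cast
  ring

/-- the cusps of class `(1, 1)`: `ord_c (j_{q²} / j_q... )`: `ord_c (j_q^q / j) = 0` -/
theorem cuspVal_jdF_pow_div_jF [NeZero q] (hqN : q ∣ N) (c : I0 N) (h : cuspGcd N c q = 1) :
    cuspVal N c (jdF N q hqN ^ q / jF N) = 0 := by
  have h0 := cuspVal_pow_div_pow N c hqN (one_dvd N) q 1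
  rw [pow_one] at h0
  have hj : jdF N 1 (one_dvd N) = jF N := rfl
  rw [hj] at h0
  rw [h0, h, cuspGcd_one, Nat.div_one]
  obtain ⟨m, rfl⟩ := hqN
  rw [Nat.mul_div_cancel_left _ hq.pos]
  push_cast
  ring

end Fermat.Agent.GL.CuspOrd
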