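/-
GATE-L / CUSP-SPEC (helper16): **which cusp places pass through a point of the third component**.

Level `N`, `d ∣ N` (`d = q²` in the application), `c ∈ I0 N` a coset, `H = herm N c ⟨d, hd⟩`
(`An · Dn = d`), `e = (N/d) An²`, `ξ = ζ_N^{(N/Dn) B}`.  Two explicit functions:

  `sInf  = (Δ(z)/Δ(dz)) · j^{-(d-1)}`            (`GK/Cusp/SepFun.sepS` at `q := d`)
  `sZero = (d¹² Δ(dz)/Δ(z))^d · j^{-(d-1)}`

* `hasLead_cuspSigma_sInf`, `hasLead_cuspSigma_sZero` : their lowest terms at EVERY cusp;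
* class `∞` (`Dn = 1`): `σ_c sInf = 1 + O(t)`; class `0` (`Dn = d`): `σ_c sZero = 1 + O(t)`;
* both are regular at every cusp (orders `N d - e ≥ 0`, `d e - N ≥ 0`).

Over `K₀ = ℚ̄^{I_A}` at level `N = M' q²`, `d = q²`, for a discrete valuation ring `V ⊇ K₀` of
`K₀(X₀(N))` with `a = 1/j ∈ 𝔪_V` (a cusp place; `a' = 1/j(q²z)`):

* `fInf_sub_one_mem` : `a'/a ∈ 𝔪_V` (class `∞`) ⟹ `fInf - 1 ∈ 𝔪_V`;
* `fZero_sub_one_mem` : `a/a' ∈ 𝔪_V` (class `0`) ⟹ `fZero - 1 ∈ 𝔪_V`;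
* **`unit_of_not_sub_one_mem`** : if neither `fInf ≡ 1` nor `fZero ≡ 1 mod 𝔪_V` then `a'/a` is a UNIT
  of `V` (`ord_V(1/j(q²z)) = ord_V(1/j)`);
* `fInf_mem_of_dvr`, `fZero_mem_of_dvr` : both lie in EVERY DVR `V ⊇ K₀` containing `a` (Hartogs
  input at the horizontal primes of the `1/j`-chart); `genC_mem_of_dvr` : `j ∈ V ⟹ j(dz) ∈ V`.

The vertical valuations `w₁, w₂, w₃` are in `CuspSpecW.lean`, the frame form (`v ∈ O_n`) in
`CuspSpecFrame.lean`.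
-/
import Fermat.Agent.GL.Cusp.CuspDict
import Fermat.Agent.GL.Val.CuspClassK0
import Fermat.Agent.GL.Eta.RegFin
import Fermat.Agent.GK.Cusp.SepFun
import Fermat.Agent.GK.QS.IntRN

set_option autoImplicit false
set_option linter.unusedSectionVars false

noncomputable section

namespace Fermat.Agent.GL.CuspSpec

open HahnSeries ModularCurve IsLocalRing AlgebraicCurve
open Fermat.Agent.S24 Fermat.Agent.S28 Fermat.Agent.S28.CuspExp Fermat.Agent.S28.Assemble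
open Fermat.Agent.S28.PolyDescent
open Fermat.Agent.S24_helper62 Fermat.Agent.S24.Degree
open Fermat.Agent.GL.Eta Fermat.Agent.GK.Cusp

/-! ### Expansions at every cusp, over `ℚ̄` -/

section Bar

variable (N : ℕ) [NeZero N] (d : ℕ) [NeZero d] (hd : d ∣ N) (c : I0 N)

/-- the twist `ξ = ζ_N^{(N/Dn) B}` at the cusp `c` for the divisor `d` -/
abbrev cuspXiD : Kbarˣ := xi (zetaBar N) N (cuspD N d hd c) (herm N c ⟨d, hd⟩).B

theorem cuspSigma_jF_inv : cuspSigma N c (jF N)⁻¹ = qExpand Kbar N (jInvS Kbar) := by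
  rw [map_inv₀, cuspSigma_jF, ← inv_jqModC_eq, map_inv₀]

theorem hasLead_cuspSigma_jF_inv : HasLead (cuspSigma N c (jF N)⁻¹) (N : ℤ) 1 := by
  rw [cuspSigma_jF_inv]
  exact ((hasLead_jInvS (R := Kbar)).qExpand N).congr (mul_one _) rfl

theorem hasLead_cuspSigma_jF : HasLead (cuspSigma N c (jF N)) (-(N : ℤ)) 1 := by
  rw [cuspSigma_jF]
  exact ((hasLead_jqModC Kbar).qExpand N).congr (by ring) rfl

/-- the expansion of `1/j(dz)` at `c` : lowest term `ξ t^e` -/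
theorem hasLead_cuspSigma_jdF_inv :
    HasLead (cuspSigma N c (jdF N d hd)⁻¹) ((cuspE N d hd c : ℕ) : ℤ)
      ((cuspXiD N d hd c : Kbarˣ) : Kbar) := by
  have h1 : cuspSigma N c (jdF N d hd)⁻¹ =
      cuspS Kbar (cuspXiD N d hd c) (cuspE N d hd c) (jInvS Kbar) := by
    rw [map_inv₀, cuspSigma_jdF]
    show (jCusp (cuspXiD N d hd c) (cuspE N d hd c))⁻¹ = _
    rw [jCusp_eq, ← inv_jqModC_eq, map_inv₀]
  rw [h1]
  exact ((hasLead_jInvS (R := Kbar)).cuspS _ _).congr (mul_one _) (by rw [zpow_one, mul_one])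

/-- the expansion of `g = Δ(z)/Δ(dz)` at `c` : lowest term `D¹² ξ⁻¹ t^{N-e}` -/
theorem hasLead_cuspSigma_etaQ :
    HasLead (cuspSigma N c (etaQ N d hd)) ((N : ℤ) - (cuspE N d hd c : ℕ))
      (((cuspD N d hd c : ℕ) : Kbar) ^ 12 * (((cuspXiD N d hd c)⁻¹ : Kbarˣ) : Kbar)) := by
  rw [cuspSigma_etaQ]
  refine ((hasLead_C _).mul (hasLead_cuspUInv N _ 1 _)).congr (zero_add _) ?_
  rw [Units.val_one, one_pow, one_mul]

/-- the expansion of `1/g` at `c` : lowest term `D⁻¹² ξ t^{e-N}` -/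
theorem hasLead_cuspSigma_etaQ_inv :
    HasLead (cuspSigma N c (etaQ N d hd)⁻¹) (((cuspE N d hd c : ℕ) : ℤ) - N)
      ((((cuspD N d hd c : ℕ) : Kbar) ^ 12)⁻¹ * ((cuspXiD N d hd c : Kbarˣ) : Kbar)) := by
  have hD0 : (((cuspD N d hd c : ℕ) : Kbar)) ^ 12 ≠ 0 := by
    refine pow_ne_zero 12 (Nat.cast_ne_zero.2 fun h0 => ?_)
    exact NeZero.ne N (Nat.eq_zero_of_zero_dvd (h0 ▸ herm_Dn_dvd N c ⟨d, hd⟩))
  have h1 : cuspSigma N c (etaQ N d hd)⁻¹ =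
      HahnSeries.C ((((cuspD N d hd c : ℕ) : Kbar) ^ 12)⁻¹) *
        cuspU Kbar N (cuspXiD N d hd c) 1 (cuspE N d hd c) := by
    rw [map_inv₀, cuspSigma_etaQ]
    refine inv_eq_of_mul_eq_one_right ?_
    rw [mul_mul_mul_comm, ← map_mul, mul_inv_cancel₀ hD0, map_one, one_mul, mul_comm]
    exact cuspU_mul_cuspUInv Kbar N _ _ _
  rw [h1]
  refine ((hasLead_C _).mul (hasLead_cuspU N _ 1 _)).congr (zero_add _) ?_
  rw [inv_one, Units.val_one, one_pow, one_mul]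

/-- `sInf = (Δ(z)/Δ(dz)) · j^{-(d-1)}` -/
def sInf : FN N := etaQ N d hd * ((jF N)⁻¹) ^ (d - 1)

/-- `sZero = (d¹² Δ(dz)/Δ(z))^d · j^{-(d-1)}` -/
def sZero : FN N := ((d : FN N) ^ 12 * (etaQ N d hd)⁻¹) ^ d * ((jF N)⁻¹) ^ (d - 1)

theorem hasLead_cuspSigma_sInf :
    HasLead (cuspSigma N c (sInf N d hd))
      ((N : ℤ) - (cuspE N d hd c : ℕ) + ((d - 1 : ℕ) : ℤ) * N)
      (((cuspD N d hd c : ℕ) : Kbar) ^ 12 * (((cuspXiD N d hd c)⁻¹ : Kbarˣ) : Kbar)) := by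
  rw [sInf, map_mul, map_pow]
  refine ((hasLead_cuspSigma_etaQ N d hd c).mul ((hasLead_cuspSigma_jF_inv N c).pow (d - 1))).congr
    rfl ?_
  rw [one_pow, mul_one]

theorem hasLead_cuspSigma_sZero :
    HasLead (cuspSigma N c (sZero N d hd))
      ((d : ℤ) * (((cuspE N d hd c : ℕ) : ℤ) - N) + ((d - 1 : ℕ) : ℤ) * N)
      (((d : Kbar) ^ 12 * ((((cuspD N d hd c : ℕ) : Kbar) ^ 12)⁻¹ *
        ((cuspXiD N d hd c : Kbarˣ) : Kbar))) ^ d) := by
  rw [sZero, map_mul, map_pow, map_pow, map_mul, map_pow, map_natCast]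
  have hC : ((d : ℕ) : LaurentSeries Kbar) ^ 12 = HahnSeries.C ((d : Kbar) ^ 12) := by
    rw [map_pow, map_natCast]
  rw [hC]
  refine ((((hasLead_C _).mul (hasLead_cuspSigma_etaQ_inv N d hd c)).pow d).mul
    ((hasLead_cuspSigma_jF_inv N c).pow (d - 1))).congr ?_ ?_
  · rw [zero_add]
  · rw [one_pow, mul_one]

theorem jF_ne_zero'' : jF N ≠ 0 := Fermat.Agent.S24_helper76.CuspOrbit.jF_ne_zero N

theorem jdF_ne_zero'' : jdF N d hd ≠ 0 := by
  intro h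
  have h1 := hasLead_cuspSigma_jdF_inv N d hd (QuotientGroup.mk 1 : I0 N)
  rw [h, inv_zero, map_zero] at h1
  have h2 := h1.1
  rw [HahnSeries.coeff_zero] at h2
  exact Units.ne_zero _ h2.symm

/-! #### the two extreme classes, and regularity at every cusp -/

theorem cuspE_eq : cuspE N d hd c = N / d * (herm N c ⟨d, hd⟩).An ^ 2 := rfl

theorem An_mul_cuspD : (herm N c ⟨d, hd⟩).An * cuspD N d hd c = d :=
  (herm N c ⟨d, hd⟩).An_mul_Dn (Nat.pos_of_ne_zero (NeZero.ne d))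

theorem d_mul_cuspE : d * cuspE N d hd c = N * (herm N c ⟨d, hd⟩).An ^ 2 := by
  rw [cuspE_eq, ← mul_assoc, Nat.mul_div_cancel' hd]

/-- a series with lowest term `1 · t⁰` is `1 + O(t)` -/
theorem sub_one_eq_zero_or_order_pos {x : LaurentSeries Kbar} (h : HasLead x 0 1) :
    x - 1 = 0 ∨ 0 < (x - 1).order := by
  by_cases h0 : x - 1 = 0
  · exact Or.inl h0
  · right
    by_contra hle
    rw [not_lt] at hle
    have hc : (x - 1).coeff (x - 1).order ≠ 0 := fun h => h0 (HahnSeries.coeff_order_eq_zero.1 h)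
    apply hc
    rw [HahnSeries.coeff_sub]
    rcases hle.lt_or_eq with hlt | heq
    · rw [h.2 _ hlt, HahnSeries.coeff_one, if_neg hlt.ne, sub_zero]
    · rw [heq, h.1, HahnSeries.coeff_one, if_pos rfl, sub_self]

/-- **class `∞`** (`Dn = 1`): `σ_c sInf = 1 + O(t)` -/
theorem hasLead_sInf_of_cuspD_eq_one (h : cuspD N d hd c = 1) :
    HasLead (cuspSigma N c (sInf N d hd)) 0 1 := by
  have hd0 : 0 < d := Nat.pos_of_ne_zero (NeZero.ne d)
  have hAn : (herm N c ⟨d, hd⟩).An = d := by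
    have := An_mul_cuspD N d hd c
    rwa [h, mul_one] at this
  have hB : (herm N c ⟨d, hd⟩).B = 0 := by
    have h1 := (herm N c ⟨d, hd⟩).B_nonneg
    have h2 := (herm N c ⟨d, hd⟩).B_lt
    have h3 : ((herm N c ⟨d, hd⟩).Dn : ℤ) = (herm N c ⟨d, hd⟩).D :=
      (herm N c ⟨d, hd⟩).coe_Dn hd0
    have h4 : ((herm N c ⟨d, hd⟩).Dn : ℤ) = 1 := by exact_mod_cast h
    omega
  have hξ : cuspXiD N d hd c = 1 := by
    rw [cuspXiD, hB, xi_zero]
  have hE : ((cuspE N d hd c : ℕ) : ℤ) = (N : ℤ) * d := by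
    have := d_mul_cuspE N d hd c
    rw [hAn] at this
    have h5 : cuspE N d hd c = N * d := by
      apply Nat.eq_of_mul_eq_mul_left hd0
      rw [this]; ring
    rw [h5]; push_cast; ring
  refine (hasLead_cuspSigma_sInf N d hd c).congr ?_ ?_
  · rw [hE]
    have : ((d - 1 : ℕ) : ℤ) = (d : ℤ) - 1 := by
      rw [Nat.cast_sub hd0]; simp
    rw [this]; ring
  · rw [h, hξ]; simp

/-- **class `0`** (`Dn = d`): `σ_c sZero = 1 + O(t)` -/
theorem hasLead_sZero_of_cuspD_eq_self (h : cuspD N d hd c = d) :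
    HasLead (cuspSigma N c (sZero N d hd)) 0 1 := by
  have hd0 : 0 < d := Nat.pos_of_ne_zero (NeZero.ne d)
  have hAn : (herm N c ⟨d, hd⟩).An = 1 := by
    have := An_mul_cuspD N d hd c
    rw [h] at this
    exact Nat.eq_of_mul_eq_mul_right hd0 (by rw [this, one_mul])
  have hE : (d : ℤ) * ((cuspE N d hd c : ℕ) : ℤ) = (N : ℤ) := by
    have := d_mul_cuspE N d hd c
    rw [hAn, one_pow, mul_one] at this
    exact_mod_cast this
  have hξ : ((cuspXiD N d hd c : Kbarˣ) : Kbar) ^ d = 1 := by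
    rw [← Units.val_pow_eq_pow_val, cuspXiD, xi, h, ← zpow_natCast, ← zpow_mul]
    have e1 : ((N / d : ℕ) : ℤ) * (herm N c ⟨d, hd⟩).B * (d : ℤ) =
        (N : ℤ) * (herm N c ⟨d, hd⟩).B := by
      have : ((N / d : ℕ) : ℤ) * (d : ℤ) = (N : ℤ) := by
        exact_mod_cast Nat.div_mul_cancel hd
      rw [mul_right_comm, this]
    rw [e1, zpow_mul, zpow_natCast, zetaBar_pow, one_zpow, Units.val_one]
  have hdK : (d : Kbar) ^ 12 ≠ 0 := pow_ne_zero 12 (Nat.cast_ne_zero.2 hd0.ne')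
  refine (hasLead_cuspSigma_sZero N d hd c).congr ?_ ?_
  · have : ((d - 1 : ℕ) : ℤ) = (d : ℤ) - 1 := by
      rw [Nat.cast_sub hd0]; simp
    rw [this, mul_sub, hE]; ring
  · rw [h, ← mul_assoc, mul_inv_cancel₀ hdK, one_mul, hξ]

theorem cuspD_ne_zero' : ((cuspD N d hd c : ℕ) : Kbar) ≠ 0 :=
  Nat.cast_ne_zero.2 fun h0 =>
    NeZero.ne N (Nat.eq_zero_of_zero_dvd (h0 ▸ herm_Dn_dvd N c ⟨d, hd⟩))

/-- `sInf` is regular at every cusp -/
theorem order_cuspSigma_sInf_nonneg : 0 ≤ (cuspSigma N c (sInf N d hd)).order := by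
  have hd0 : 0 < d := Nat.pos_of_ne_zero (NeZero.ne d)
  rw [(hasLead_cuspSigma_sInf N d hd c).order_eq
    (mul_ne_zero (pow_ne_zero 12 (cuspD_ne_zero' N d hd c)) (Units.ne_zero _))]
  have hAn : (herm N c ⟨d, hd⟩).An ≤ d :=
    Nat.le_of_dvd hd0 ⟨_, (An_mul_cuspD N d hd c).symm⟩
  have h1 := d_mul_cuspE N d hd c
  have h2 : cuspE N d hd c ≤ N * d := by
    apply Nat.le_of_mul_le_mul_left _ hd0
    rw [h1]
    calc N * (herm N c ⟨d, hd⟩).An ^ 2 ≤ N * d ^ 2 :=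
          Nat.mul_le_mul_left _ (Nat.pow_le_pow_left hAn 2)
      _ = d * (N * d) := by ring
  have h3 : ((d - 1 : ℕ) : ℤ) = (d : ℤ) - 1 := by
    rw [Nat.cast_sub hd0]; simp
  have h4 : ((cuspE N d hd c : ℕ) : ℤ) ≤ (N : ℤ) * d := by exact_mod_cast h2
  rw [h3]
  nlinarith

/-- `sZero` is regular at every cusp -/
theorem order_cuspSigma_sZero_nonneg : 0 ≤ (cuspSigma N c (sZero N d hd)).order := by
  have hd0 : 0 < d := Nat.pos_of_ne_zero (NeZero.ne d)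
  have hdK : (d : Kbar) ^ 12 ≠ 0 := pow_ne_zero 12 (Nat.cast_ne_zero.2 hd0.ne')
  rw [(hasLead_cuspSigma_sZero N d hd c).order_eq
    (pow_ne_zero d (mul_ne_zero hdK (mul_ne_zero
      (inv_ne_zero (pow_ne_zero 12 (cuspD_ne_zero' N d hd c))) (Units.ne_zero _))))]
  have h1 := d_mul_cuspE N d hd c
  have hAn : 1 ≤ (herm N c ⟨d, hd⟩).An ^ 2 := Nat.one_le_pow _ _ (herm N c ⟨d, hd⟩).An_pos
  have h2 : N ≤ d * cuspE N d hd c := by
    rw [h1]
    exact Nat.le_mul_of_pos_right N hAn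
  have h3 : ((d - 1 : ℕ) : ℤ) = (d : ℤ) - 1 := by
    rw [Nat.cast_sub hd0]; simp
  have h4 : (N : ℤ) ≤ (d : ℤ) * ((cuspE N d hd c : ℕ) : ℤ) := by exact_mod_cast h2
  rw [h3]
  nlinarith

end Bar

/-! ### The classes of a cusp for `d = q²`, read off from `ord (1/j(q²z)) - ord (1/j)` -/

section ClassBar

open Fermat.Agent.GL.Val.CuspClass

variable (N : ℕ) [NeZero N] {q : ℕ} [NeZero (q ^ 2)] (hq : q.Prime) (hd : q ^ 2 ∣ N) (c : I0 N)

/-- the expansion of `v = (1/j(dz)) / (1/j)` at `c` : lowest term `ξ t^{e-N}` -/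
theorem hasLead_cuspSigma_div (d : ℕ) [NeZero d] (hd : d ∣ N) :
    HasLead (cuspSigma N c ((jdF N d hd)⁻¹ / (jF N)⁻¹))
      (((cuspE N d hd c : ℕ) : ℤ) - N) ((cuspXiD N d hd c : Kbarˣ) : Kbar) := by
  rw [div_inv_eq_mul, map_mul]
  refine ((hasLead_cuspSigma_jdF_inv N d hd c).mul (hasLead_cuspSigma_jF N c)).congr ?_ (mul_one _)
  ring

theorem order_cuspSigma_div (d : ℕ) [NeZero d] (hd : d ∣ N) :
    (cuspSigma N c ((jdF N d hd)⁻¹ / (jF N)⁻¹)).order = ((cuspE N d hd c : ℕ) : ℤ) - N :=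
  (hasLead_cuspSigma_div N c d hd).order_eq (Units.ne_zero _)

theorem order_cuspSigma_div' (d : ℕ) [NeZero d] (hd : d ∣ N) :
    (cuspSigma N c ((jF N)⁻¹ / (jdF N d hd)⁻¹)).order = (N : ℤ) - ((cuspE N d hd c : ℕ) : ℤ) := by
  have h0 : (jdF N d hd)⁻¹ / (jF N)⁻¹ ≠ 0 :=
    div_ne_zero (inv_ne_zero (jdF_ne_zero'' N d hd)) (inv_ne_zero (jF_ne_zero'' N))
  have h1 : cuspSigma N c ((jF N)⁻¹ / (jdF N d hd)⁻¹) =
      (cuspSigma N c ((jdF N d hd)⁻¹ / (jF N)⁻¹))⁻¹ := by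
    rw [← map_inv₀, inv_div]
  have h2 : cuspSigma N c ((jdF N d hd)⁻¹ / (jF N)⁻¹) ≠ 0 := (map_ne_zero _).mpr h0
  have h3 := HahnSeries.order_mul h2 (inv_ne_zero h2)
  rw [mul_inv_cancel₀ h2, HahnSeries.order_one, order_cuspSigma_div] at h3
  rw [h1]
  omega

include hq in
/-- **class `∞`**: `ord_c (1/j(q²z)) > ord_c (1/j)` forces `D = 1` -/
theorem cuspD_eq_one_of_order_pos
    (h : 0 < (cuspSigma N c ((jdF N (q ^ 2) hd)⁻¹ / (jF N)⁻¹)).order) :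
    cuspD N (q ^ 2) hd c = 1 := by
  rw [order_cuspSigma_div] at h
  have h1 : N < cuspE N (q ^ 2) hd c := by exact_mod_cast (by omega : (N : ℤ) < cuspE N (q ^ 2) hd c)
  have h2 := d_mul_cuspE N (q ^ 2) hd c
  have h3 := An_mul_cuspD N (q ^ 2) hd c
  have hq2 : 0 < q ^ 2 := pow_pos hq.pos 2
  have hN0 : 0 < N := Nat.pos_of_ne_zero (NeZero.ne N)
  -- `q² < An²`
  have h4 : q ^ 2 < (herm N c ⟨q ^ 2, hd⟩).An ^ 2 := by
    have : N * q ^ 2 < N * (herm N c ⟨q ^ 2, hd⟩).An ^ 2 := by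
      rw [← h2, mul_comm N]
      exact Nat.mul_lt_mul_of_pos_left h1 hq2
    exact Nat.lt_of_mul_lt_mul_left this
  obtain ⟨e, he2, he⟩ := exists_cuspD_eq_pow hq hd c
  rw [he] at h3 ⊢
  interval_cases e
  · rfl
  · exfalso
    have : (herm N c ⟨q ^ 2, hd⟩).An = q := by
      apply Nat.eq_of_mul_eq_mul_right hq.pos
      rw [pow_one] at h3
      rw [h3]; ring
    rw [this] at h4
    exact lt_irrefl _ h4
  · exfalso
    have : (herm N c ⟨q ^ 2, hd⟩).An = 1 := by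
      apply Nat.eq_of_mul_eq_mul_right hq2
      rw [h3]; ring
    rw [this, one_pow] at h4
    omega

include hq in
/-- **class `0`**: `ord_c (1/j(q²z)) < ord_c (1/j)` forces `D = q²` -/
theorem cuspD_eq_sq_of_order_pos
    (h : 0 < (cuspSigma N c ((jF N)⁻¹ / (jdF N (q ^ 2) hd)⁻¹)).order) :
    cuspD N (q ^ 2) hd c = q ^ 2 := by
  rw [order_cuspSigma_div'] at h
  have h1 : cuspE N (q ^ 2) hd c < N := by exact_mod_cast (by omega : ((cuspE N (q ^ 2) hd c : ℕ) : ℤ) < N)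
  have h2 := d_mul_cuspE N (q ^ 2) hd c
  have h3 := An_mul_cuspD N (q ^ 2) hd c
  have hq2 : 0 < q ^ 2 := pow_pos hq.pos 2
  have hN0 : 0 < N := Nat.pos_of_ne_zero (NeZero.ne N)
  -- `An² < q²`
  have h4 : (herm N c ⟨q ^ 2, hd⟩).An ^ 2 < q ^ 2 := by
    have : N * (herm N c ⟨q ^ 2, hd⟩).An ^ 2 < N * q ^ 2 := by
      rw [← h2, mul_comm N]
      exact Nat.mul_lt_mul_of_pos_left h1 hq2
    exact Nat.lt_of_mul_lt_mul_left this
  obtain ⟨e, he2, he⟩ := exists_cuspD_eq_pow hq hd c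
  rw [he] at h3 ⊢
  interval_cases e
  · exfalso
    rw [pow_zero, mul_one] at h3
    rw [h3] at h4
    have : q ^ 2 ≤ (q ^ 2) ^ 2 := Nat.le_self_pow two_ne_zero _
    omega
  · exfalso
    have : (herm N c ⟨q ^ 2, hd⟩).An = q := by
      apply Nat.eq_of_mul_eq_mul_right hq.pos
      rw [pow_one] at h3
      rw [h3]; ring
    rw [this] at h4
    exact lt_irrefl _ h4
  · rfl

end ClassBar

/-! ### Over `K₀` -/

section K0

open Fermat.Agent.GL.Val.GaussK0 Fermat.Agent.GL.Val.SecondK0 Fermat.Agent.GL.Frame.HorizDiv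
open Fermat.Agent.GK.Val.GaussBase Fermat.Agent.GK.AL Fermat.Agent.GL.Val.OrthK0
open Fermat.Agent.GL.Val.CuspK0 Fermat.Agent.GL.Val.ThirdK0 Fermat.Agent.GL.Val.CuspClass
open Fermat.Agent.GL.CuspDict
open Fermat.Agent.Common_helper32

variable (A : ValuationSubring Qb) (N : ℕ) [NeZero N] (d : ℕ) [NeZero d] (hd : d ∣ N)

/-- `1/j(dz) ∈ K₀(X₀(N))` -/
def aD : modularFunctionFieldFullC (K0 A) N := (genC (K0 A) (R0 A) N hd)⁻¹

/-- `fInf = (Δ(z)/Δ(dz)) · j^{-(d-1)} ∈ K₀(X₀(N))` -/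
def fInf : modularFunctionFieldFullC (K0 A) N := etaQK0 A N d hd * ((jK0 A N)⁻¹) ^ (d - 1)

/-- `fZero = (d¹² Δ(dz)/Δ(z))^d · j^{-(d-1)} ∈ K₀(X₀(N))` -/
def fZero : modularFunctionFieldFullC (K0 A) N :=
  ((d : modularFunctionFieldFullC (K0 A) N) ^ 12 * (etaQK0 A N d hd)⁻¹) ^ d *
    ((jK0 A N)⁻¹) ^ (d - 1)

theorem mapK0Bar_genC' : mapK0Bar A N (genC (K0 A) (R0 A) N hd) = jdF N d hd := by
  rw [← toFN0_genC A hd]
  exact (toFN0_eq A N _).symm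

theorem mapK0Bar_aD : mapK0Bar A N (aD A N d hd) = (jdF N d hd)⁻¹ := by
  rw [aD, map_inv₀, mapK0Bar_genC']

theorem mapK0Bar_fInf : mapK0Bar A N (fInf A N d hd) = sInf N d hd := by
  rw [fInf, sInf, map_mul, map_pow, map_inv₀, mapK0Bar_etaQK0, mapK0Bar_jK0]

theorem mapK0Bar_fZero : mapK0Bar A N (fZero A N d hd) = sZero N d hd := by
  rw [fZero, sZero, map_mul, map_pow, map_pow, map_mul, map_pow, map_inv₀, map_inv₀, map_natCast,
    mapK0Bar_etaQK0, mapK0Bar_jK0]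

theorem jK0_ne_zero : jK0 A N ≠ 0 := by
  intro h0
  have h1 := mapK0Bar_jK0 A N
  rw [h0, map_zero] at h1
  exact jF_ne_zero'' N h1.symm

theorem aD_ne_zero : aD A N d hd ≠ 0 := by
  intro h0
  have h1 := mapK0Bar_aD A N d hd
  rw [h0, map_zero] at h1
  exact inv_ne_zero (jdF_ne_zero'' N d hd) h1.symm

theorem fInf_ne_zero : fInf A N d hd ≠ 0 :=
  mul_ne_zero (etaQK0_ne_zero A N d hd) (pow_ne_zero _ (inv_ne_zero (jK0_ne_zero A N)))

theorem fZero_ne_zero : fZero A N d hd ≠ 0 :=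
  mul_ne_zero (pow_ne_zero _ (mul_ne_zero
    (pow_ne_zero 12 (Nat.cast_ne_zero.2 (NeZero.ne d))) (inv_ne_zero (etaQK0_ne_zero A N d hd))))
    (pow_ne_zero _ (inv_ne_zero (jK0_ne_zero A N)))

/-! #### at a cusp place (a DVR `V ⊇ K₀` with `1/j ∈ 𝔪_V`) -/

section Dvr

variable (V : ValuationSubring (modularFunctionFieldFullC (K0 A) N))
  (hKV : ∀ c : K0 A, algebraMap (K0 A) (modularFunctionFieldFullC (K0 A) N) c ∈ V)
  [IsNoetherianRing V] (t : V) (ht0 : t ≠ 0) (ht : maximalIdeal V = Ideal.span {t})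

/-- a function `f` with `σ_c f = 1 + O(t)` at the cusp `c` of `V` is `≡ 1 mod 𝔪_V` -/
theorem sub_one_mem_nonunits_of_hasLead (c : I0 N)
    (hnu : ∀ f : modularFunctionFieldFullC (K0 A) N, f ≠ 0 →
        (f ∈ V.nonunits ↔ 0 < (cuspSigma N c (mapK0Bar A N f)).order))
    (f : modularFunctionFieldFullC (K0 A) N)
    (hf : HasLead (cuspSigma N c (mapK0Bar A N f)) 0 1) : f - 1 ∈ V.nonunits := by
  by_cases h0 : f - 1 = 0
  · rw [h0]
    exact (ValuationSubring.mem_nonunits_iff_or (A := V)).2 (Or.inl rfl)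
  · rw [hnu _ h0, map_sub, map_one, map_sub, map_one]
    rcases sub_one_eq_zero_or_order_pos hf with h1 | h1
    · exfalso
      apply h0
      have h2 : cuspSigma N c (mapK0Bar A N (f - 1)) = 0 := by
        rw [map_sub, map_one, map_sub, map_one, h1]
      exact (map_eq_zero (mapK0Bar A N)).1 ((map_eq_zero (cuspSigma N c)).1 h2)
    · exact h1

include hKV ht0 ht in
/-- **`fInf` lies in every DVR `V ⊇ K₀` of the `1/j`-chart** -/
theorem fInf_mem_of_dvr (ha : (jK0 A N)⁻¹ ∈ V) : fInf A N d hd ∈ V := by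
  by_cases hnu : (jK0 A N)⁻¹ ∈ V.nonunits
  · obtain ⟨c, hmem, -⟩ := exists_cusp_of_dvr A N V hKV t ht0 ht hnu
    rw [hmem _ (fInf_ne_zero A N d hd), mapK0Bar_fInf]
    exact order_cuspSigma_sInf_nonneg N d hd c
  · have hj : jK0 A N ∈ V := by
      rw [ValuationSubring.mem_nonunits_iff_or, not_or, not_not, inv_inv] at hnu
      exact hnu.2
    obtain ⟨P, hPV, -, -⟩ := exists_place_over A N V hKV t ht0 ht
    have hjP : 0 ≤ P.ord (jF N) := by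
      rw [PlaceB.ord_nonneg_iff P (jF_ne_zero'' N), ← mapK0Bar_jK0 A N, hPV]
      exact hj
    have hg : etaQK0 A N d hd ∈ V := by
      rw [← hPV, mapK0Bar_etaQK0, ← PlaceB.ord_nonneg_iff P (etaQ_ne_zero N d hd),
        ord_etaQ_eq_zero N d hd P hjP]
    exact V.mul_mem _ _ hg (pow_mem ha _)

include hKV ht0 ht in
/-- **`fZero` lies in every DVR `V ⊇ K₀` of the `1/j`-chart** -/
theorem fZero_mem_of_dvr (ha : (jK0 A N)⁻¹ ∈ V) : fZero A N d hd ∈ V := by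
  by_cases hnu : (jK0 A N)⁻¹ ∈ V.nonunits
  · obtain ⟨c, hmem, -⟩ := exists_cusp_of_dvr A N V hKV t ht0 ht hnu
    rw [hmem _ (fZero_ne_zero A N d hd), mapK0Bar_fZero]
    exact order_cuspSigma_sZero_nonneg N d hd c
  · have hj : jK0 A N ∈ V := by
      rw [ValuationSubring.mem_nonunits_iff_or, not_or, not_not, inv_inv] at hnu
      exact hnu.2
    obtain ⟨P, hPV, -, -⟩ := exists_place_over A N V hKV t ht0 ht
    have hjP : 0 ≤ P.ord (jF N) := by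
      rw [PlaceB.ord_nonneg_iff P (jF_ne_zero'' N), ← mapK0Bar_jK0 A N, hPV]
      exact hj
    have hg : (etaQK0 A N d hd)⁻¹ ∈ V := by
      rw [← hPV, map_inv₀, mapK0Bar_etaQK0,
        ← PlaceB.ord_nonneg_iff P (inv_ne_zero (etaQ_ne_zero N d hd)), Place.ord_inv,
        ord_etaQ_eq_zero N d hd P hjP, neg_zero]
    exact V.mul_mem _ _ (pow_mem (V.mul_mem _ _ (pow_mem (natCast_mem V d) 12) hg) _)
      (pow_mem ha _)

include hKV ht0 ht in
/-- at a NON-cusp place (`j ∈ V`), `j(dz)` is regular: it is integral over `ℚ̄[j]` -/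
theorem genC_mem_of_dvr (hj : jK0 A N ∈ V) : genC (K0 A) (R0 A) N hd ∈ V := by
  obtain ⟨P, hPV, -, -⟩ := exists_place_over A N V hKV t ht0 ht
  have hjP : 0 ≤ P.ord (jF N) := by
    rw [PlaceB.ord_nonneg_iff P (jF_ne_zero'' N), ← mapK0Bar_jK0 A N, hPV]
    exact hj
  have : IsGen Kbar (jF N) := isGen_jF N
  have h1 := (Fermat.Agent.GJ.J1.PlaceLattice.regFin_iff_ord (jF N) (jF N) (jdF N d hd)).1
    (Fermat.Agent.GK.QS.regFin_jdF N hd) P hjP
  rw [← hPV, mapK0Bar_genC', ← PlaceB.ord_nonneg_iff P (jdF_ne_zero'' N d hd)]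
  exact h1

end Dvr

/-! #### the classes for `d = q²` -/

section DvrQ

variable {q : ℕ} [NeZero (q ^ 2)] (hq : q.Prime) (hd : q ^ 2 ∣ N)
  (V : ValuationSubring (modularFunctionFieldFullC (K0 A) N))
  (hKV : ∀ c : K0 A, algebraMap (K0 A) (modularFunctionFieldFullC (K0 A) N) c ∈ V)
  [IsNoetherianRing V] (t : V) (ht0 : t ≠ 0) (ht : maximalIdeal V = Ideal.span {t})

include hq hKV ht0 ht in
/-- **class `∞`**: at a cusp place `V` with `ord_V (1/j(q²z)) > ord_V (1/j)`: `fInf ≡ 1 mod 𝔪_V` -/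
theorem fInf_sub_one_mem (ha : (jK0 A N)⁻¹ ∈ V.nonunits)
    (hcl : aD A N (q ^ 2) hd / (jK0 A N)⁻¹ ∈ V.nonunits) :
    fInf A N (q ^ 2) hd - 1 ∈ V.nonunits := by
  obtain ⟨c, -, hnu⟩ := exists_cusp_of_dvr A N V hKV t ht0 ht ha
  have hx0 : aD A N (q ^ 2) hd / (jK0 A N)⁻¹ ≠ 0 :=
    div_ne_zero (aD_ne_zero A N (q ^ 2) hd) (inv_ne_zero (jK0_ne_zero A N))
  have h1 := (hnu _ hx0).1 hcl
  rw [map_div₀, mapK0Bar_aD, map_inv₀, mapK0Bar_jK0] at h1
  have hD := cuspD_eq_one_of_order_pos N hq hd c h1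
  refine sub_one_mem_nonunits_of_hasLead A N V c hnu _ ?_
  rw [mapK0Bar_fInf]
  exact hasLead_sInf_of_cuspD_eq_one N (q ^ 2) hd c hD

include hq hKV ht0 ht in
/-- **class `0`**: at a cusp place `V` with `ord_V (1/j(q²z)) < ord_V (1/j)`: `fZero ≡ 1 mod 𝔪_V` -/
theorem fZero_sub_one_mem (ha : (jK0 A N)⁻¹ ∈ V.nonunits)
    (hcl : (jK0 A N)⁻¹ / aD A N (q ^ 2) hd ∈ V.nonunits) :
    fZero A N (q ^ 2) hd - 1 ∈ V.nonunits := by
  obtain ⟨c, -, hnu⟩ := exists_cusp_of_dvr A N V hKV t ht0 ht ha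
  have hx0 : (jK0 A N)⁻¹ / aD A N (q ^ 2) hd ≠ 0 :=
    div_ne_zero (inv_ne_zero (jK0_ne_zero A N)) (aD_ne_zero A N (q ^ 2) hd)
  have h1 := (hnu _ hx0).1 hcl
  rw [map_div₀, mapK0Bar_aD, map_inv₀, mapK0Bar_jK0] at h1
  have hD := cuspD_eq_sq_of_order_pos N hq hd c h1
  refine sub_one_mem_nonunits_of_hasLead A N V c hnu _ ?_
  rw [mapK0Bar_fZero]
  exact hasLead_sZero_of_cuspD_eq_self N (q ^ 2) hd c hD

include hq hKV ht0 ht in
/-- **CUSP-SPEC, core**: at a cusp place `V` where neither `fInf ≡ 1` nor `fZero ≡ 1 mod 𝔪_V`,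
`v = (1/j(q²z)) / (1/j)` is a UNIT of `V`. -/
theorem unit_of_not_sub_one_mem (ha : (jK0 A N)⁻¹ ∈ V.nonunits)
    (hInf : fInf A N (q ^ 2) hd - 1 ∉ V.nonunits) (hZero : fZero A N (q ^ 2) hd - 1 ∉ V.nonunits) :
    aD A N (q ^ 2) hd / (jK0 A N)⁻¹ ∈ V ∧ (jK0 A N)⁻¹ / aD A N (q ^ 2) hd ∈ V := by
  have h1 : aD A N (q ^ 2) hd / (jK0 A N)⁻¹ ∉ V.nonunits := fun h =>
    hInf (fInf_sub_one_mem A N hq hd V hKV t ht0 ht ha h)
  have h2 : (jK0 A N)⁻¹ / aD A N (q ^ 2) hd ∉ V.nonunits := fun h =>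
    hZero (fZero_sub_one_mem A N hq hd V hKV t ht0 ht ha h)
  rw [ValuationSubring.mem_nonunits_iff_or, not_or, not_not, inv_div] at h1 h2
  exact ⟨h2.2, h1.2⟩

end DvrQ

end K0

end Fermat.Agent.GL.CuspSpec
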