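/-
GATE-L / CUSP-SPEC, vertical part (helper16): **the two separating functions at the vertical
valuations** `w₁, w₂, w₃` of `K₀(X₀(N))`, `N = M' q²`.

`fInf = (Δ(z)/Δ(q²z)) · j^{-(q²-1)}`, `fZero = (q²⁴ Δ(q²z)/Δ(z))^{q²} · j^{-(q²-1)}` (`CuspSpec`).

* generic (`V` over `R₀`, Gauss at `j`, `g / q^{12e}` a unit of `V`):
  `fInf ∈ V`, `fInf ∈ 𝔪_V` if `e ≠ 0`; `fZero ∈ V` if `e ≤ 2`, `fZero ∈ 𝔪_V` if `e < 2`;
* at every cusp valuation `w_c` : `fInf, fZero ∈ w_c`; `fInf ∈ 𝔪(w_c)` unless `D = 1`;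
  `fZero ∈ 𝔪(w_c)` unless `D = q²`;
* `w₁` : `fInf ∈ w₁`, `fZero ∈ 𝔪(w₁)`;  `w₃` : `fInf, fZero ∈ 𝔪(w₃)`;
  `w₂` (helper75 `L1eThm` ⟹ `w₂ = w_{cusp 0}`) : `fInf ∈ 𝔪(w₂)`, `fZero ∈ w₂`;
* `fInf_mem_W3`, `fZero_mem_W3` : both lie in all three `W3 A h i` (Hartogs input at the vertical
  primes), and `v = j/j(q²z)`, `1/v` lie in `w₃` (`aD_div_mem_Rw3K0`).
-/
import Fermat.Agent.GL.Cusp.CuspSpec
import Fermat.Agent.GL.Val.L1eThm

set_option autoImplicit false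
set_option linter.unusedSectionVars false

noncomputable section

namespace Fermat.Agent.GL.CuspSpec

open HahnSeries ModularCurve IsLocalRing AlgebraicCurve Polynomial
open Fermat.Agent.S24 Fermat.Agent.S28 Fermat.Agent.S28.CuspExp Fermat.Agent.S28.Assemble
open Fermat.Agent.S24_helper62 Fermat.Agent.S24.Degree
open Fermat.Agent.GL.Eta Fermat.Agent.GK.Cusp
open Fermat.Agent.GL.Val.GaussK0 Fermat.Agent.GL.Val.SecondK0 Fermat.Agent.GL.Val.SecondK0Hall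
open Fermat.Agent.GK.Val.GaussBase Fermat.Agent.GK.AL Fermat.Agent.GL.AL Fermat.Agent.GL.Val.OrthK0
open Fermat.Agent.GL.Val.CuspK0 Fermat.Agent.GL.Val.ThirdK0 Fermat.Agent.GL.Val.CuspClass
open Fermat.Agent.GL.W3 Fermat.Agent.GL.GaussAt Fermat.Agent.GL.Val.L1eAsmK0
open Fermat.Agent.Common_helper32

/-! ### Generic -/

section Generic

variable {K F : Type*} [Field K] [Field F] [Algebra K F]

/-- a Gauss point has valuation one -/
theorem valuation_eq_one_of_isGaussAt {A : ValuationSubring K} {V : ValuationSubring F} {x : F}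
    (hx : IsGaussAt A V x) : V.valuation x = 1 := by
  have h := hx.2 (X : A[X]) ⟨1, by rw [coeff_X_one]; exact isUnit_one⟩
  rwa [Polynomial.map_X, aeval_X] at h

end Generic

/-! ### At a valuation subring over `R₀`, Gauss at `j`, where `g / q^{12 e}` is a unit -/

section AtV

variable (A : ValuationSubring Qb) {N : ℕ} [NeZero N] {q : ℕ} [NeZero (q ^ 2)] (hq : q.Prime)
  (hA : A.LiesOverPrime q) (hd : q ^ 2 ∣ N)
  {V : ValuationSubring (modularFunctionFieldFullC (K0 A) N)}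
  (hV : ∀ a : K0 A, algebraMap (K0 A) (modularFunctionFieldFullC (K0 A) N) a ∈ V ↔ a ∈ R0 A)
  (hj : IsGaussAt (R0 A) V (jK0 A N)) {e : ℕ}
  (hg : etaQK0 A N (q ^ 2) hd / ((q : ℕ) : modularFunctionFieldFullC (K0 A) N) ^ (e * 12) ∈ V)
  (hg' : (etaQK0 A N (q ^ 2) hd / ((q : ℕ) : modularFunctionFieldFullC (K0 A) N) ^ (e * 12))⁻¹ ∈ V)

include hq hA hV in
theorem valuation_natCast_lt_one :
    V.valuation ((q : ℕ) : modularFunctionFieldFullC (K0 A) N) < 1 := by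
  obtain ⟨h1, h2⟩ := natCast_mem_and_inv_notMem (q := q) A hq hA hV
  refine lt_of_le_of_ne ((V.valuation_le_one_iff _).mpr h1) fun h => h2 ?_
  rw [← V.valuation_le_one_iff, map_inv₀, h, inv_one]

include hq hg hg' in
theorem valuation_etaQK0_eq :
    V.valuation (etaQK0 A N (q ^ 2) hd) =
      V.valuation ((q : ℕ) : modularFunctionFieldFullC (K0 A) N) ^ (e * 12) := by
  have hq0 : ((q : ℕ) : modularFunctionFieldFullC (K0 A) N) ≠ 0 := Nat.cast_ne_zero.2 hq.ne_zero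
  have h1 := valuation_eq_one_of_mem_of_inv_mem V
    (div_ne_zero (etaQK0_ne_zero A N (q ^ 2) hd) (pow_ne_zero (e * 12) hq0)) hg hg'
  rw [map_div₀, map_pow, div_eq_one_iff_eq (pow_ne_zero _ ((Valuation.ne_zero_iff _).mpr hq0))]
    at h1
  exact h1

include hq hj hg hg' in
theorem valuation_fInf_eq :
    V.valuation (fInf A N (q ^ 2) hd) =
      V.valuation ((q : ℕ) : modularFunctionFieldFullC (K0 A) N) ^ (e * 12) := by
  rw [fInf, map_mul, map_pow, map_inv₀, valuation_eq_one_of_isGaussAt hj, inv_one, one_pow, mul_one,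
    valuation_etaQK0_eq A hq hd hg hg']

include hq hA hV hj hg hg' in
/-- `fInf ∈ V` -/
theorem fInf_mem_of_unit_div : fInf A N (q ^ 2) hd ∈ V := by
  rw [← V.valuation_le_one_iff, valuation_fInf_eq A hq hd hj hg hg']
  exact pow_le_one₀ zero_le (valuation_natCast_lt_one A hq hA hV).le

include hq hA hV hj hg hg' in
/-- `fInf ∈ 𝔪_V` if `e ≠ 0` -/
theorem fInf_mem_nonunits_of_unit_div (he : e ≠ 0) : fInf A N (q ^ 2) hd ∈ V.nonunits := by
  rw [ValuationSubring.mem_nonunits_iff, valuation_fInf_eq A hq hd hj hg hg']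
  exact pow_lt_one₀ zero_le (valuation_natCast_lt_one A hq hA hV) (by omega)

include hq hj hg hg' in
theorem valuation_fZero_eq (he : e ≤ 2) :
    V.valuation (fZero A N (q ^ 2) hd) =
      (V.valuation ((q : ℕ) : modularFunctionFieldFullC (K0 A) N) ^ (24 - e * 12)) ^ (q ^ 2) := by
  have hq0 : ((q : ℕ) : modularFunctionFieldFullC (K0 A) N) ≠ 0 := Nat.cast_ne_zero.2 hq.ne_zero
  have hx0 : V.valuation ((q : ℕ) : modularFunctionFieldFullC (K0 A) N) ≠ 0 :=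
    (Valuation.ne_zero_iff _).mpr hq0
  have h24 : V.valuation ((q : ℕ) : modularFunctionFieldFullC (K0 A) N) ^ 24 =
      V.valuation ((q : ℕ) : modularFunctionFieldFullC (K0 A) N) ^ (24 - e * 12) *
        V.valuation ((q : ℕ) : modularFunctionFieldFullC (K0 A) N) ^ (e * 12) := by
    rw [← _root_.pow_add]
    congr 1
    omega
  rw [fZero, map_mul, map_pow, map_pow, map_mul, map_pow, map_inv₀, map_inv₀,
    valuation_eq_one_of_isGaussAt hj, inv_one, one_pow, mul_one,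
    valuation_etaQK0_eq A hq hd hg hg', Nat.cast_pow, map_pow, ← pow_mul, h24,
    mul_inv_cancel_right₀ (pow_ne_zero _ hx0)]

include hq hA hV hj hg hg' in
/-- `fZero ∈ V` if `e ≤ 2` -/
theorem fZero_mem_of_unit_div (he : e ≤ 2) : fZero A N (q ^ 2) hd ∈ V := by
  rw [← V.valuation_le_one_iff, valuation_fZero_eq A hq hd hj hg hg' he]
  exact pow_le_one₀ zero_le (pow_le_one₀ zero_le (valuation_natCast_lt_one A hq hA hV).le)

include hq hA hV hj hg hg' in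
/-- `fZero ∈ 𝔪_V` if `e < 2` -/
theorem fZero_mem_nonunits_of_unit_div (he : e < 2) : fZero A N (q ^ 2) hd ∈ V.nonunits := by
  rw [ValuationSubring.mem_nonunits_iff, valuation_fZero_eq A hq hd hj hg hg' he.le]
  exact pow_lt_one₀ zero_le
    (pow_lt_one₀ zero_le (valuation_natCast_lt_one A hq hA hV) (by omega))
    (pow_ne_zero 2 hq.ne_zero)

end AtV

/-! ### At the cusp valuations, and at `w₁, w₂, w₃` -/

section AtW

variable (A : ValuationSubring Qb) {N : ℕ} [NeZero N] {q M' : ℕ} [NeZero (q ^ 2)] (hq : q.Prime)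
  (hA : A.LiesOverPrime q) (hd : q ^ 2 ∣ N)

include hq hA in
/-- `fInf` lies in every cusp valuation ring -/
theorem fInf_mem_RwCuspK0 (c : I0 N) : fInf A N (q ^ 2) hd ∈ RwCuspK0 A N c := by
  obtain ⟨e, -, he⟩ := exists_cuspD_eq_pow hq hd c
  obtain ⟨h1, h2⟩ := etaQK0_div_pow_mem_RwCuspK0 A hd c he
  exact fInf_mem_of_unit_div A hq hA hd (algebraMap_mem_RwCuspK0_iff A N c)
    (isGaussAt_RwCuspK0 A N c) h1 h2

include hq hA in
/-- `fInf ∈ 𝔪(w_c)` unless `D = 1` -/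
theorem fInf_mem_nonunits_RwCuspK0 (c : I0 N) (hD : cuspD N (q ^ 2) hd c ≠ 1) :
    fInf A N (q ^ 2) hd ∈ (RwCuspK0 A N c).nonunits := by
  obtain ⟨e, -, he⟩ := exists_cuspD_eq_pow hq hd c
  obtain ⟨h1, h2⟩ := etaQK0_div_pow_mem_RwCuspK0 A hd c he
  refine fInf_mem_nonunits_of_unit_div A hq hA hd (algebraMap_mem_RwCuspK0_iff A N c)
    (isGaussAt_RwCuspK0 A N c) h1 h2 ?_
  rintro rfl
  exact hD (by rw [he, pow_zero])

include hq hA in
/-- `fZero` lies in every cusp valuation ring -/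
theorem fZero_mem_RwCuspK0 (c : I0 N) : fZero A N (q ^ 2) hd ∈ RwCuspK0 A N c := by
  obtain ⟨e, he2, he⟩ := exists_cuspD_eq_pow hq hd c
  obtain ⟨h1, h2⟩ := etaQK0_div_pow_mem_RwCuspK0 A hd c he
  exact fZero_mem_of_unit_div A hq hA hd (algebraMap_mem_RwCuspK0_iff A N c)
    (isGaussAt_RwCuspK0 A N c) h1 h2 he2

include hq hA in
/-- `fZero ∈ 𝔪(w_c)` unless `D = q²` -/
theorem fZero_mem_nonunits_RwCuspK0 (c : I0 N) (hD : cuspD N (q ^ 2) hd c ≠ q ^ 2) :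
    fZero A N (q ^ 2) hd ∈ (RwCuspK0 A N c).nonunits := by
  obtain ⟨e, he2, he⟩ := exists_cuspD_eq_pow hq hd c
  obtain ⟨h1, h2⟩ := etaQK0_div_pow_mem_RwCuspK0 A hd c he
  refine fZero_mem_nonunits_of_unit_div A hq hA hd (algebraMap_mem_RwCuspK0_iff A N c)
    (isGaussAt_RwCuspK0 A N c) h1 h2 ?_
  rcases Nat.lt_or_ge e 2 with h | h
  · exact h
  · exfalso
    have : e = 2 := le_antisymm he2 h
    exact hD (by rw [he, this])

include hq hA in
/-- **`w₁`** : `fInf ∈ w₁` -/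
theorem fInf_mem_RwK0 : fInf A N (q ^ 2) hd ∈ RwK0 A N := by
  refine fInf_mem_of_unit_div (e := 0) A hq hA hd (over_Rw1K0 A hq hA) (isGaussAt_Rw1K0 A) ?_ ?_
  · rw [zero_mul, pow_zero, div_one]
    exact etaQK0_mem_RwK0 A N (q ^ 2) hd
  · rw [zero_mul, pow_zero, div_one]
    exact etaQK0_inv_mem_RwK0 A N (q ^ 2) hd

include hq hA in
/-- **`w₁`** : `fZero ∈ 𝔪(w₁)` -/
theorem fZero_mem_nonunits_RwK0 : fZero A N (q ^ 2) hd ∈ (RwK0 A N).nonunits := by
  refine fZero_mem_nonunits_of_unit_div (e := 0) A hq hA hd (over_Rw1K0 A hq hA)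
    (isGaussAt_Rw1K0 A) ?_ ?_ (by norm_num)
  · rw [zero_mul, pow_zero, div_one]
    exact etaQK0_mem_RwK0 A N (q ^ 2) hd
  · rw [zero_mul, pow_zero, div_one]
    exact etaQK0_inv_mem_RwK0 A N (q ^ 2) hd

variable (hN : N = M' * q ^ 2) (hqM : ¬ q ∣ M')

include hq hA hN hqM in
/-- **`w₃`** : `fInf ∈ 𝔪(w₃)` -/
theorem fInf_mem_nonunits_Rw3K0 : fInf A N (q ^ 2) hd ∈ (Rw3K0 A N q).nonunits :=
  fInf_mem_nonunits_RwCuspK0 A hq hA hd (cusp3 N q)
    (by rw [cuspD_cusp3 hq hN hqM hd]; exact hq.one_lt.ne')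

include hq hA hN hqM in
/-- **`w₃`** : `fZero ∈ 𝔪(w₃)` -/
theorem fZero_mem_nonunits_Rw3K0 : fZero A N (q ^ 2) hd ∈ (Rw3K0 A N q).nonunits := by
  refine fZero_mem_nonunits_RwCuspK0 A hq hA hd (cusp3 N q) ?_
  rw [cuspD_cusp3 hq hN hqM hd]
  intro h1
  have : q * 1 = q * q := by rw [mul_one, ← pow_two, ← h1]
  exact hq.one_lt.ne (Nat.eq_of_mul_eq_mul_left hq.pos this)

variable [NeZero M'] (h : HallDvd (q ^ 2) N)

include hq hA hN hqM in
/-- **`w₂` is the cusp valuation at the cusp `0`** (unconditional: helper75 `L1eThm`) -/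
theorem rw2QK0_eq_rwCuspK0_thm :
    (redData2QK0 A N h).Rw = RwCuspK0 A N (cuspOfLower N 1) :=
  rw2QK0_eq_rwCuspK0 A hq hN hqM hA h (Dvd.intro_left M' hN.symm)
    (fun _ hV hj => Fermat.Agent.GL.Val.L1eThm.exists_eq_of_isGaussAt A hq hN hqM hA h hV hj)

include hq hA hN hqM in
/-- **`w₂`** : `fInf ∈ 𝔪(w₂)` -/
theorem fInf_mem_nonunits_Rw2QK0 : fInf A N (q ^ 2) hd ∈ (redData2QK0 A N h).Rw.nonunits := by
  rw [rw2QK0_eq_rwCuspK0_thm A hq hA hN hqM h]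
  refine fInf_mem_nonunits_RwCuspK0 A hq hA hd _ ?_
  rw [cuspD_cuspOfLower_one (q ^ 2) hd]
  exact (Nat.one_lt_pow two_ne_zero hq.one_lt).ne'

include hq hA hN hqM in
/-- **`w₂`** : `fZero ∈ w₂` -/
theorem fZero_mem_Rw2QK0 : fZero A N (q ^ 2) hd ∈ (redData2QK0 A N h).Rw := by
  rw [rw2QK0_eq_rwCuspK0_thm A hq hA hN hqM h]
  exact fZero_mem_RwCuspK0 A hq hA hd _

include hq hA hN hqM in
/-- `fInf` lies in all three vertical valuation rings -/
theorem fInf_mem_W3 (i : Fin 3) : fInf A N (q ^ 2) hd ∈ W3 A h i := by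
  fin_cases i
  · exact fInf_mem_RwK0 A hq hA hd
  · exact ValuationSubring.nonunits_le (fInf_mem_nonunits_Rw2QK0 A hq hA hd hN hqM h)
  · exact ValuationSubring.nonunits_le (fInf_mem_nonunits_Rw3K0 A hq hA hd hN hqM)

include hq hA hN hqM in
/-- `fZero` lies in all three vertical valuation rings -/
theorem fZero_mem_W3 (i : Fin 3) : fZero A N (q ^ 2) hd ∈ W3 A h i := by
  fin_cases i
  · exact ValuationSubring.nonunits_le (fZero_mem_nonunits_RwK0 A hq hA hd)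
  · exact fZero_mem_Rw2QK0 A hq hA hd hN hqM h
  · exact ValuationSubring.nonunits_le (fZero_mem_nonunits_Rw3K0 A hq hA hd hN hqM)

end AtW

/-! ### `v = j / j(q²z)` is a unit of `w₃` -/

section W3Unit

variable (A : ValuationSubring Qb) {N : ℕ} [NeZero N] {q M' : ℕ} [NeZero (q ^ 2)] (hq : q.Prime)
  (hA : A.LiesOverPrime q) (hd : q ^ 2 ∣ N) (hN : N = M' * q ^ 2) (hqM : ¬ q ∣ M')

theorem genC_congr {d d' : ℕ} [NeZero d] [NeZero d'] (h : d = d') (hd : d ∣ N) (hd' : d' ∣ N) :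
    genC (K0 A) (R0 A) N hd = genC (K0 A) (R0 A) N hd' := by
  subst h
  rfl

include hq hA hN hqM in
/-- `w₃(j(q²z)) = 0` : `j(q²z) = j + y₃`, `w₃(y₃) > 0` -/
theorem valuation_genC_Rw3K0 : (Rw3K0 A N q).valuation (genC (K0 A) (R0 A) N hd) = 1 := by
  have : NeZero (q ^ 2 * 1) := ⟨by rw [mul_one]; exact NeZero.ne _⟩
  have hdN : q ^ 2 * 1 ∣ N := by rwa [mul_one]
  have h1 := (isRamified_Rw3K0 A hq hN hqM hA (one_dvd M') hdN (one_dvd N)).lt_one
  have h2 : (Rw3K0 A N q).valuation (jK0 A N) = 1 :=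
    valuation_eq_one_of_isGaussAt (isGaussAt_RwCuspK0 A N (cusp3 N q))
  have h3 : genC (K0 A) (R0 A) N hd = jK0 A N + y3K0 A N q hdN (one_dvd N) := by
    rw [y3K0, genC_congr A (mul_one (q ^ 2)).symm hd hdN]
    show _ = genC (K0 A) (R0 A) N (one_dvd N) + _
    ring
  rw [h3, Valuation.map_add_eq_of_lt_left _ (by rw [h2]; exact h1), h2]

include hq hA hN hqM in
/-- **`v = (1/j(q²z)) / (1/j) ∈ w₃`** -/
theorem aD_div_mem_Rw3K0 : aD A N (q ^ 2) hd / (jK0 A N)⁻¹ ∈ Rw3K0 A N q := by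
  have h2 : (Rw3K0 A N q).valuation (jK0 A N) = 1 :=
    valuation_eq_one_of_isGaussAt (isGaussAt_RwCuspK0 A N (cusp3 N q))
  rw [← ValuationSubring.valuation_le_one_iff, aD, map_div₀, map_inv₀, map_inv₀,
    valuation_genC_Rw3K0 A hq hA hd hN hqM, h2]
  simp

include hq hA hN hqM in
/-- **`1/v = (1/j) / (1/j(q²z)) ∈ w₃`** -/
theorem inv_div_aD_mem_Rw3K0 : (jK0 A N)⁻¹ / aD A N (q ^ 2) hd ∈ Rw3K0 A N q := by
  have h2 : (Rw3K0 A N q).valuation (jK0 A N) = 1 :=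
    valuation_eq_one_of_isGaussAt (isGaussAt_RwCuspK0 A N (cusp3 N q))
  rw [← ValuationSubring.valuation_le_one_iff, aD, map_div₀, map_inv₀, map_inv₀,
    valuation_genC_Rw3K0 A hq hA hd hN hqM, h2]
  simp

end W3Unit

end Fermat.Agent.GL.CuspSpec
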