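/-
GATE-L / CUSP-SPEC, frame form (helper16) = helper50 3003 (C) **`v = j / j(q²z) ∈ O_n`**.

`B` a Krull frame ring of `F₀ = K₀(X₀(N))`, `N = M' q²` (in use: the `1/j`-chart
`B = IC R₀[1/j]` with the family of its height-one localisations), `𝔫` a prime of `B`, `O = B_𝔫`.

* `unit_of_frame` : `V ⊇ K₀` a discrete valuation ring of `F₀` with `1/j ∈ 𝔪_V` (a cusp place),
  centred inside `𝔫` (`𝔪_V ∩ B ⊆ 𝔫`), and `fInf, fZero ∈ 𝔫`  ⟹  `v` and `1/v` lie in `V`: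
  **`ord_V (1/j(q²z)) = ord_V (1/j)`**.
* `fInf_mem_range`, `fZero_mem_range` : both functions lie in `B` (Hartogs on the frame: vertical
  members `w₁, w₂, w₃` by `CuspSpecW`, horizontal ones by `CuspSpec.fInf_mem_of_dvr`).
* **`v_mem_range_loc`** : if `P₃ ≤ 𝔫` and `w₁, w₂` are not over `𝔫`, then `v ∈ O = B_𝔫`;
  `v_inv_mem_range_loc` : the same for `1/v` — so `v` is a UNIT of `O_n`.
-/
import Fermat.Agent.GL.Cusp.CuspSpecW
import Fermat.Agent.GL.Local.KrullFrame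

set_option autoImplicit false
set_option linter.unusedSectionVars false

noncomputable section

namespace Fermat.Agent.GL.CuspSpec

open HahnSeries ModularCurve IsLocalRing AlgebraicCurve
open Fermat.Agent.S24 Fermat.Agent.S24_helper62
open Fermat.Agent.GL.KrullFrame
open Fermat.Agent.GL.Val.GaussK0 Fermat.Agent.GL.Val.SecondK0 Fermat.Agent.GL.Val.SecondK0Hall
open Fermat.Agent.GK.Val.GaussBase Fermat.Agent.GK.AL Fermat.Agent.GL.AL Fermat.Agent.GL.Val.OrthK0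
open Fermat.Agent.GL.Val.CuspK0 Fermat.Agent.GL.Val.ThirdK0 Fermat.Agent.GL.Val.CuspClass
open Fermat.Agent.GL.W3 Fermat.Agent.GL.Val.L1eAsmK0
open Fermat.Agent.Common_helper32

/-! ### DVR forms of the horizontal statements -/

section DvrForm

variable (A : ValuationSubring Qb) (N : ℕ) [NeZero N]
  (V : ValuationSubring (modularFunctionFieldFullC (K0 A) N))
  (hKV : ∀ c : K0 A, algebraMap (K0 A) (modularFunctionFieldFullC (K0 A) N) c ∈ V)
  [IsDiscreteValuationRing V]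

include hKV in
theorem fInf_mem_of_isDVR (d : ℕ) [NeZero d] (hd : d ∣ N) (ha : (jK0 A N)⁻¹ ∈ V) :
    fInf A N d hd ∈ V := by
  obtain ⟨t, ht⟩ := IsDiscreteValuationRing.exists_irreducible V
  exact fInf_mem_of_dvr A N d hd V hKV t ht.ne_zero ht.maximalIdeal_eq ha

include hKV in
theorem fZero_mem_of_isDVR (d : ℕ) [NeZero d] (hd : d ∣ N) (ha : (jK0 A N)⁻¹ ∈ V) :
    fZero A N d hd ∈ V := by
  obtain ⟨t, ht⟩ := IsDiscreteValuationRing.exists_irreducible V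
  exact fZero_mem_of_dvr A N d hd V hKV t ht.ne_zero ht.maximalIdeal_eq ha

include hKV in
theorem genC_mem_of_isDVR (d : ℕ) [NeZero d] (hd : d ∣ N) (hj : jK0 A N ∈ V) :
    genC (K0 A) (R0 A) N hd ∈ V := by
  obtain ⟨t, ht⟩ := IsDiscreteValuationRing.exists_irreducible V
  exact genC_mem_of_dvr A N d hd V hKV t ht.ne_zero ht.maximalIdeal_eq hj

variable {q : ℕ} [NeZero (q ^ 2)] (hq : q.Prime) (hd : q ^ 2 ∣ N)

include hq hKV in
/-- **CUSP-SPEC at a cusp place** (DVR form) -/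
theorem unit_of_not_sub_one_mem_of_isDVR (ha : (jK0 A N)⁻¹ ∈ V.nonunits)
    (hInf : fInf A N (q ^ 2) hd - 1 ∉ V.nonunits) (hZero : fZero A N (q ^ 2) hd - 1 ∉ V.nonunits) :
    aD A N (q ^ 2) hd / (jK0 A N)⁻¹ ∈ V ∧ (jK0 A N)⁻¹ / aD A N (q ^ 2) hd ∈ V := by
  obtain ⟨t, ht⟩ := IsDiscreteValuationRing.exists_irreducible V
  exact unit_of_not_sub_one_mem A N hq hd V hKV t ht.ne_zero ht.maximalIdeal_eq ha hInf hZero

end DvrForm

/-! ### On a frame -/

section Frame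

variable (A : ValuationSubring Qb) {N : ℕ} [NeZero N] {q M' : ℕ} [NeZero (q ^ 2)] [NeZero M']
  (hq : q.Prime) (hA : A.LiesOverPrime q) (hd : q ^ 2 ∣ N) (hN : N = M' * q ^ 2) (hqM : ¬ q ∣ M')
  (h : HallDvd (q ^ 2) N)

variable {B : Type*} [CommRing B] [IsDomain B] [Algebra B (modularFunctionFieldFullC (K0 A) N)]
  [IsFractionRing B (modularFunctionFieldFullC (K0 A) N)]
  {𝒱 : Type*} {W : 𝒱 → ValuationSubring (modularFunctionFieldFullC (K0 A) N)}

/-- a member of the frame is *vertical* (one of `w₁, w₂, w₃`) or *horizontal* (a DVR over `K₀`) -/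
def VertOrHoriz (W : 𝒱 → ValuationSubring (modularFunctionFieldFullC (K0 A) N)) (v : 𝒱) : Prop :=
  (W v = RwK0 A N ∨ W v = (redData2QK0 A N h).Rw ∨ W v = Rw3K0 A N q) ∨
    ((∀ c : K0 A, algebraMap (K0 A) (modularFunctionFieldFullC (K0 A) N) c ∈ W v) ∧
      IsDiscreteValuationRing (W v))

include hq in
/-- **CUSP-SPEC at a cusp place, frame form**: a cusp place `V` centred inside `𝔫`, with
`fInf, fZero ∈ 𝔫` : `ord_V (1/j(q²z)) = ord_V (1/j)`. -/
theorem unit_of_frame (𝔫 : Ideal B) (h𝔫 : 𝔫 ≠ ⊤)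
    (V : ValuationSubring (modularFunctionFieldFullC (K0 A) N))
    (hKV : ∀ c : K0 A, algebraMap (K0 A) (modularFunctionFieldFullC (K0 A) N) c ∈ V)
    [IsDiscreteValuationRing V] (ha : (jK0 A N)⁻¹ ∈ V.nonunits)
    (hloc : ∀ b : B, algebraMap B (modularFunctionFieldFullC (K0 A) N) b ∈ V.nonunits → b ∈ 𝔫)
    (bI bZ : B) (hbI : algebraMap B (modularFunctionFieldFullC (K0 A) N) bI = fInf A N (q ^ 2) hd)
    (hbI𝔫 : bI ∈ 𝔫)
    (hbZ : algebraMap B (modularFunctionFieldFullC (K0 A) N) bZ = fZero A N (q ^ 2) hd)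
    (hbZ𝔫 : bZ ∈ 𝔫) :
    aD A N (q ^ 2) hd / (jK0 A N)⁻¹ ∈ V ∧ (jK0 A N)⁻¹ / aD A N (q ^ 2) hd ∈ V := by
  have key : ∀ b : B, b ∈ 𝔫 →
      algebraMap B (modularFunctionFieldFullC (K0 A) N) b - 1 ∉ V.nonunits := by
    intro b hb hnu
    have h1 : b - 1 ∈ 𝔫 := hloc _ (by rwa [map_sub, map_one])
    apply h𝔫
    rw [Ideal.eq_top_iff_one]
    have : (1 : B) = b - (b - 1) := by ring
    rw [this]
    exact 𝔫.sub_mem hb h1
  refine unit_of_not_sub_one_mem_of_isDVR A N V hKV hq hd ha ?_ ?_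
  · rw [← hbI]
    exact key bI hbI𝔫
  · rw [← hbZ]
    exact key bZ hbZ𝔫

variable (hW : IsFrame B W) (hcls : ∀ v, VertOrHoriz A h W v)
  (hj : ∃ b : B, algebraMap B (modularFunctionFieldFullC (K0 A) N) b = (jK0 A N)⁻¹)

include hq hA hN hqM hW hcls hj in
/-- `fInf ∈ B` -/
theorem fInf_mem_range :
    fInf A N (q ^ 2) hd ∈ (algebraMap B (modularFunctionFieldFullC (K0 A) N)).range := by
  rw [hW.mem_range_iff]
  intro v
  obtain ⟨bj, hbj⟩ := hj
  rcases hcls v with (h1 | h2 | h3) | ⟨hK, hdvr⟩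
  · rw [h1]
    exact fInf_mem_W3 A hq hA hd hN hqM h 0
  · rw [h2]
    exact fInf_mem_W3 A hq hA hd hN hqM h 1
  · rw [h3]
    exact fInf_mem_W3 A hq hA hd hN hqM h 2
  · haveI := hdvr
    exact fInf_mem_of_isDVR A N (W v) hK (q ^ 2) hd (hbj ▸ hW.algebraMap_mem bj v)

include hq hA hN hqM hW hcls hj in
/-- `fZero ∈ B` -/
theorem fZero_mem_range :
    fZero A N (q ^ 2) hd ∈ (algebraMap B (modularFunctionFieldFullC (K0 A) N)).range := by
  rw [hW.mem_range_iff]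
  intro v
  obtain ⟨bj, hbj⟩ := hj
  rcases hcls v with (h1 | h2 | h3) | ⟨hK, hdvr⟩
  · rw [h1]
    exact fZero_mem_W3 A hq hA hd hN hqM h 0
  · rw [h2]
    exact fZero_mem_W3 A hq hA hd hN hqM h 1
  · rw [h3]
    exact fZero_mem_W3 A hq hA hd hN hqM h 2
  · haveI := hdvr
    exact fZero_mem_of_isDVR A N (W v) hK (q ^ 2) hd (hbj ▸ hW.algebraMap_mem bj v)

variable (𝔫 : Ideal B) [𝔫.IsPrime]
  (haD : ∃ b : B, algebraMap B (modularFunctionFieldFullC (K0 A) N) b = aD A N (q ^ 2) hd)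
  (h3 : ∀ b : B, algebraMap B (modularFunctionFieldFullC (K0 A) N) b ∈ (Rw3K0 A N q).nonunits →
    b ∈ 𝔫)
  (h12 : ∀ v, Over W 𝔫 v → W v ≠ RwK0 A N ∧ W v ≠ (redData2QK0 A N h).Rw)

include hq hA hN hqM hW hcls hj haD h3 h12 in
/-- at every member of the frame over `𝔫`, `v` and `1/v` are integral -/
theorem v_mem_of_over (v : 𝒱) (hv : Over W 𝔫 v) :
    aD A N (q ^ 2) hd / (jK0 A N)⁻¹ ∈ W v ∧ (jK0 A N)⁻¹ / aD A N (q ^ 2) hd ∈ W v := by
  obtain ⟨bI, hbI⟩ := fInf_mem_range A hq hA hd hN hqM h hW hcls hj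
  obtain ⟨bZ, hbZ⟩ := fZero_mem_range A hq hA hd hN hqM h hW hcls hj
  have hbI𝔫 : bI ∈ 𝔫 := h3 bI (by rw [hbI]; exact fInf_mem_nonunits_Rw3K0 A hq hA hd hN hqM)
  have hbZ𝔫 : bZ ∈ 𝔫 := h3 bZ (by rw [hbZ]; exact fZero_mem_nonunits_Rw3K0 A hq hA hd hN hqM)
  obtain ⟨bj, hbj⟩ := hj
  obtain ⟨ba, hba⟩ := haD
  rcases hcls v with (h1 | h2 | h3') | ⟨hK, hdvr⟩
  · exact absurd h1 (h12 v hv).1
  · exact absurd h2 (h12 v hv).2
  · rw [h3']
    exact ⟨aD_div_mem_Rw3K0 A hq hA hd hN hqM, inv_div_aD_mem_Rw3K0 A hq hA hd hN hqM⟩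
  · haveI := hdvr
    have hjV : (jK0 A N)⁻¹ ∈ W v := hbj ▸ hW.algebraMap_mem bj v
    have haV : aD A N (q ^ 2) hd ∈ W v := hba ▸ hW.algebraMap_mem ba v
    by_cases hnu : (jK0 A N)⁻¹ ∈ (W v).nonunits
    · exact unit_of_frame A hq hd 𝔫 (Ideal.IsPrime.ne_top inferInstance) (W v) hK hnu hv bI bZ hbI
        hbI𝔫 hbZ hbZ𝔫
    · -- not a cusp place: `j ∈ V`, and `j(q²z)` is integral over `K₀[j]`
      rw [ValuationSubring.mem_nonunits_iff_or, not_or, not_not, inv_inv] at hnu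
      have hjV' : jK0 A N ∈ W v := hnu.2
      refine ⟨?_, ?_⟩
      · rw [div_inv_eq_mul]
        exact (W v).mul_mem _ _ haV hjV'
      · -- `j(q²z) ∈ V` : it is integral over `K₀[j]`
        rw [aD, div_inv_eq_mul]
        exact (W v).mul_mem _ _ hjV (genC_mem_of_isDVR A N (W v) hK (q ^ 2) hd hjV')

variable (O : Type*) [CommRing O] [Algebra B O] [IsLocalization.AtPrime O 𝔫]
  [Algebra O (modularFunctionFieldFullC (K0 A) N)]
  [IsScalarTower B O (modularFunctionFieldFullC (K0 A) N)]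

include hq hA hN hqM hW hcls hj haD h3 h12 in
/-- **helper50 3003 (C): `v = j / j(q²z) ∈ O_n`** at every point `𝔫 ⊇ P₃` of the `1/j`-chart not on
`C₁`, `C₂` -/
theorem v_mem_range_loc :
    aD A N (q ^ 2) hd / (jK0 A N)⁻¹ ∈
      (algebraMap O (modularFunctionFieldFullC (K0 A) N)).range := by
  rw [hW.mem_range_loc_iff 𝔫 O]
  intro v hv
  exact (v_mem_of_over A hq hA hd hN hqM h hW hcls hj 𝔫 haD h3 h12 v hv).1

include hq hA hN hqM hW hcls hj haD h3 h12 in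
/-- … and `1/v = j(q²z) / j ∈ O_n` : `v` is a unit of `O_n` -/
theorem v_inv_mem_range_loc :
    (jK0 A N)⁻¹ / aD A N (q ^ 2) hd ∈
      (algebraMap O (modularFunctionFieldFullC (K0 A) N)).range := by
  rw [hW.mem_range_loc_iff 𝔫 O]
  intro v hv
  exact (v_mem_of_over A hq hA hd hN hqM h hW hcls hj 𝔫 haD h3 h12 v hv).2

end Frame

end Fermat.Agent.GL.CuspSpec
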