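/-
GATE-L / CUSP-SPEC, valuation forms (helper16) — the shapes asked for by helper50 3206 (REG3-C-INST):
at a member `V` of the frame over `𝔫 ⊇ P₃` (in particular at every horizontal height-one prime
`𝔮 ≤ 𝔫` with `1/j ∈ 𝔮`):  **`V.valuation (j(q²z))⁻¹ = V.valuation j⁻¹`**.

* `valuation_eq_of_div_mem` : `x, y ≠ 0`, `x / y ∈ V`, `y / x ∈ V` ⟹ `|x|_V = |y|_V`;
* `valuation_aD_eq_of_frame` : hypotheses of `unit_of_frame` (ONE cusp place `V`, no frame needed);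
* `valuation_aD_eq_of_over` : hypotheses of `v_mem_of_over` (any member of the frame over `𝔫`);
* `aD_congr`, and the `q ^ 2 * 1` forms (`hdN : q ^ 2 * 1 ∣ N`, helper93 / helper18 binders):
  `valuation_genC_inv_eq_of_frame'`, `valuation_genC_inv_eq_of_over'`.
-/
import Fermat.Agent.GL.Cusp.CuspSpecFrame

set_option autoImplicit false
set_option linter.unusedSectionVars false

noncomputable section

namespace Fermat.Agent.GL.CuspSpec

open HahnSeries ModularCurve IsLocalRing AlgebraicCurve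
open Fermat.Agent.S24 Fermat.Agent.S24_helper62
open Fermat.Agent.GL.KrullFrame
open Fermat.Agent.GL.Val.GaussK0 Fermat.Agent.GL.Val.SecondK0 Fermat.Agent.GL.Val.SecondK0Hall
open Fermat.Agent.GK.Val.GaussBase Fermat.Agent.GK.AL Fermat.Agent.GL.AL Fermat.Agent.GL.Val.OrthK0
open Fermat.Agent.GL.Val.CuspK0 Fermat.Agent.GL.Val.ThirdK0 Fermat.Agent.GL.Val.CuspClass
open Fermat.Agent.GL.W3 Fermat.Agent.GL.Val.L1eAsmK0
open Fermat.Agent.Common_helper32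

section Generic

variable {F : Type*} [Field F]

/-- `x / y ∈ V` and `y / x ∈ V` (`x, y ≠ 0`) ⟹ `|x|_V = |y|_V` -/
theorem valuation_eq_of_div_mem (V : ValuationSubring F) {x y : F} (hx : x ≠ 0) (hy : y ≠ 0)
    (h1 : x / y ∈ V) (h2 : y / x ∈ V) : V.valuation x = V.valuation y := by
  have h3 : (x / y)⁻¹ ∈ V := by rwa [inv_div]
  have h4 := valuation_eq_one_of_mem_of_inv_mem V (div_ne_zero hx hy) h1 h3
  rwa [map_div₀, div_eq_one_iff_eq ((Valuation.ne_zero_iff _).mpr hy)] at h4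

end Generic

section Frame

variable (A : ValuationSubring Qb) {N : ℕ} [NeZero N] {q M' : ℕ} [NeZero (q ^ 2)] [NeZero M']
  (hq : q.Prime) (hA : A.LiesOverPrime q) (hd : q ^ 2 ∣ N) (hN : N = M' * q ^ 2) (hqM : ¬ q ∣ M')
  (h : HallDvd (q ^ 2) N)

variable {B : Type*} [CommRing B] [IsDomain B] [Algebra B (modularFunctionFieldFullC (K0 A) N)]
  [IsFractionRing B (modularFunctionFieldFullC (K0 A) N)]
  {𝒱 : Type*} {W : 𝒱 → ValuationSubring (modularFunctionFieldFullC (K0 A) N)}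

theorem aD_congr {d d' : ℕ} [NeZero d] [NeZero d'] (hdd : d = d') (hd : d ∣ N) (hd' : d' ∣ N) :
    aD A N d hd = aD A N d' hd' := by
  subst hdd
  rfl

include hq in
/-- **helper50 3206**: at a cusp place `V` centred inside `𝔫`, with `fInf, fZero ∈ 𝔫` :
`|1/j(q²z)|_V = |1/j|_V` -/
theorem valuation_aD_eq_of_frame (𝔫 : Ideal B) (h𝔫 : 𝔫 ≠ ⊤)
    (V : ValuationSubring (modularFunctionFieldFullC (K0 A) N))
    (hKV : ∀ c : K0 A, algebraMap (K0 A) (modularFunctionFieldFullC (K0 A) N) c ∈ V)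
    [IsDiscreteValuationRing V] (ha : (jK0 A N)⁻¹ ∈ V.nonunits)
    (hloc : ∀ b : B, algebraMap B (modularFunctionFieldFullC (K0 A) N) b ∈ V.nonunits → b ∈ 𝔫)
    (bI bZ : B) (hbI : algebraMap B (modularFunctionFieldFullC (K0 A) N) bI = fInf A N (q ^ 2) hd)
    (hbI𝔫 : bI ∈ 𝔫)
    (hbZ : algebraMap B (modularFunctionFieldFullC (K0 A) N) bZ = fZero A N (q ^ 2) hd)
    (hbZ𝔫 : bZ ∈ 𝔫) :
    V.valuation (genC (K0 A) (R0 A) N hd)⁻¹ = V.valuation (jK0 A N)⁻¹ := by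
  obtain ⟨h1, h2⟩ := unit_of_frame A hq hd 𝔫 h𝔫 V hKV ha hloc bI bZ hbI hbI𝔫 hbZ hbZ𝔫
  exact valuation_eq_of_div_mem V (aD_ne_zero A N (q ^ 2) hd) (inv_ne_zero (jK0_ne_zero A N)) h1 h2

variable (hW : IsFrame B W) (hcls : ∀ v, VertOrHoriz A h W v)
  (hj : ∃ b : B, algebraMap B (modularFunctionFieldFullC (K0 A) N) b = (jK0 A N)⁻¹)
  (𝔫 : Ideal B) [𝔫.IsPrime]
  (haD : ∃ b : B, algebraMap B (modularFunctionFieldFullC (K0 A) N) b = aD A N (q ^ 2) hd)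
  (h3 : ∀ b : B, algebraMap B (modularFunctionFieldFullC (K0 A) N) b ∈ (Rw3K0 A N q).nonunits →
    b ∈ 𝔫)
  (h12 : ∀ v, Over W 𝔫 v → W v ≠ RwK0 A N ∧ W v ≠ (redData2QK0 A N h).Rw)

include hq hA hN hqM hW hcls hj haD h3 h12 in
/-- at EVERY member of the frame over `𝔫` : `|1/j(q²z)| = |1/j|` -/
theorem valuation_aD_eq_of_over (v : 𝒱) (hv : Over W 𝔫 v) :
    (W v).valuation (genC (K0 A) (R0 A) N hd)⁻¹ = (W v).valuation (jK0 A N)⁻¹ := by
  obtain ⟨h1, h2⟩ := v_mem_of_over A hq hA hd hN hqM h hW hcls hj 𝔫 haD h3 h12 v hv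
  exact valuation_eq_of_div_mem (W v) (aD_ne_zero A N (q ^ 2) hd)
    (inv_ne_zero (jK0_ne_zero A N)) h1 h2

/-! #### the `q ^ 2 * 1` forms (binders of helper93 `ThirdK0HasseInt` / helper18 `CuspCongrK0`) -/

variable [NeZero (q ^ 2 * 1)] (hdN : q ^ 2 * 1 ∣ N)

include hq in
theorem valuation_genC_inv_eq_of_frame' (𝔫 : Ideal B) (h𝔫 : 𝔫 ≠ ⊤)
    (V : ValuationSubring (modularFunctionFieldFullC (K0 A) N))
    (hKV : ∀ c : K0 A, algebraMap (K0 A) (modularFunctionFieldFullC (K0 A) N) c ∈ V)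
    [IsDiscreteValuationRing V] (ha : (jK0 A N)⁻¹ ∈ V.nonunits)
    (hloc : ∀ b : B, algebraMap B (modularFunctionFieldFullC (K0 A) N) b ∈ V.nonunits → b ∈ 𝔫)
    (bI bZ : B) (hbI : algebraMap B (modularFunctionFieldFullC (K0 A) N) bI = fInf A N (q ^ 2) hd)
    (hbI𝔫 : bI ∈ 𝔫)
    (hbZ : algebraMap B (modularFunctionFieldFullC (K0 A) N) bZ = fZero A N (q ^ 2) hd)
    (hbZ𝔫 : bZ ∈ 𝔫) :
    V.valuation (genC (K0 A) (R0 A) N hdN)⁻¹ = V.valuation (jK0 A N)⁻¹ := by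
  rw [genC_congr A (mul_one (q ^ 2)) hdN hd]
  exact valuation_aD_eq_of_frame A hq hd 𝔫 h𝔫 V hKV ha hloc bI bZ hbI hbI𝔫 hbZ hbZ𝔫

include hq hA hN hqM hW hcls hj haD h3 h12 in
theorem valuation_genC_inv_eq_of_over' (v : 𝒱) (hv : Over W 𝔫 v) :
    (W v).valuation (genC (K0 A) (R0 A) N hdN)⁻¹ = (W v).valuation (jK0 A N)⁻¹ := by
  rw [genC_congr A (mul_one (q ^ 2)) hdN hd]
  exact valuation_aD_eq_of_over A hq hA hd hN hqM h hW hcls hj 𝔫 haD h3 h12 v hv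

end Frame

end Fermat.Agent.GL.CuspSpec
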