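/-
GATE-L / CUSP-SPEC at the HEIGHT-ONE frame (helper16): `CuspSpecFrame` / `CuspSpecVal` instantiated
at helper80's frame `W := V1 F₀` (all height-one localisations) of a noetherian integrally closed
`B` with `Frac B = F₀ = K₀(X₀(M' q²))` — in use `B = chartRing (R0 A) (jK0 A N)⁻¹` (helper80
`FrameInstVal.exists_frame_inv`, whose output `∀ p ∈ vertFinset, ∃ i, V1 F p = W i` is `hvert`).

* `vertOrHoriz_V1` : (`R₀ ⊆ B`, vertical height-one primes are `w₁|w₂|w₃`) ⟹ EVERY height-one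
  localisation is `w₁|w₂|w₃` or a DVR containing `K₀`  [the `hcls` of `CuspSpecFrame`];
* `fInf_mem_range_V1`, `fZero_mem_range_V1` : `fInf, fZero ∈ B`;
* **`valuation_genC_inv_eq_V1`** : at every height-one `𝔮 ≤ 𝔫` (`𝔫 ⊇ P₃`, not on `C₁, C₂`):
  `|1/j(q²z)|_𝔮 = |1/j|_𝔮`  (helper50 3206 shape);
* **`v_mem_range_loc_V1`, `v_inv_mem_range_loc_V1`** : `v = j/j(q²z)` and `1/v` lie in `O = B_𝔫`.
-/
import Fermat.Agent.GL.Cusp.CuspSpecVal
import Fermat.Agent.GL.Frame.HorizHord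

set_option autoImplicit false
set_option linter.unusedSectionVars false

noncomputable section

namespace Fermat.Agent.GL.CuspSpec

open HahnSeries ModularCurve IsLocalRing AlgebraicCurve
open Fermat.Agent.S24 Fermat.Agent.S24_helper62
open Fermat.Agent.GL.KrullFrame Fermat.Agent.GL.KrullHeightOne Fermat.Agent.GL.Frame.HeightOne
open Fermat.Agent.GL.Frame.HorizHord
open Fermat.Agent.GL.Val.GaussK0 Fermat.Agent.GL.Val.SecondK0 Fermat.Agent.GL.Val.SecondK0Hall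
open Fermat.Agent.GK.Val.GaussBase Fermat.Agent.GK.AL Fermat.Agent.GL.AL Fermat.Agent.GL.Val.OrthK0
open Fermat.Agent.GL.Val.CuspK0 Fermat.Agent.GL.Val.ThirdK0 Fermat.Agent.GL.Val.CuspClass
open Fermat.Agent.GL.W3 Fermat.Agent.GL.Val.L1eAsmK0
open Fermat.Agent.Common_helper32

variable (A : ValuationSubring Qb) {N : ℕ} [NeZero N] {q M' : ℕ} [NeZero (q ^ 2)] [NeZero M']
  (hq : q.Prime) (hA : A.LiesOverPrime q) (hd : q ^ 2 ∣ N) (hN : N = M' * q ^ 2) (hqM : ¬ q ∣ M')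
  (h : HallDvd (q ^ 2) N)

variable {B : Type*} [CommRing B] [IsDomain B] [Algebra B (modularFunctionFieldFullC (K0 A) N)]
  [IsFractionRing B (modularFunctionFieldFullC (K0 A) N)] [IsNoetherianRing B]
  [IsIntegrallyClosed B]
  (hR : ∀ c : K0 A, c ∈ R0 A →
    algebraMap (K0 A) (modularFunctionFieldFullC (K0 A) N) c ∈
      (algebraMap B (modularFunctionFieldFullC (K0 A) N)).range)
  (hvert : ∀ 𝔮 : HtOne B, ((q : ℕ) : B) ∈ 𝔮.1 →
    ∃ i, V1 (modularFunctionFieldFullC (K0 A) N) 𝔮 = W3 A h i)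

include hq hA hR hvert in
/-- **every height-one localisation of `B` is `w₁|w₂|w₃` or a DVR containing `K₀`** -/
theorem vertOrHoriz_V1 (𝔮 : HtOne B) :
    VertOrHoriz A h (V1 (modularFunctionFieldFullC (K0 A) N)) 𝔮 := by
  by_cases hq𝔮 : ((q : ℕ) : B) ∈ 𝔮.1
  · left
    obtain ⟨i, hi⟩ := hvert 𝔮 hq𝔮
    fin_cases i
    · exact Or.inl hi
    · exact Or.inr (Or.inl hi)
    · exact Or.inr (Or.inr hi)
  · right
    refine ⟨?_, isDiscreteValuationRing_V1 𝔮⟩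
    refine algebraMap_K0_mem_of_baseRing A hq hA
      (algebraMap (K0 A) (modularFunctionFieldFullC (K0 A) N)) _ (fun c hc => ?_) ?_
    · obtain ⟨b, hb⟩ := hR c hc
      rw [← hb]
      exact algebraMap_mem_V1 𝔮 b
    · have h1 := inv_algebraMap_mem_V1 (F := modularFunctionFieldFullC (K0 A) N) 𝔮 hq𝔮
      rwa [map_natCast] at h1

variable (hj : ∃ b : B, algebraMap B (modularFunctionFieldFullC (K0 A) N) b = (jK0 A N)⁻¹)

include hq hA hN hqM hR hvert hj in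
/-- `fInf ∈ B` -/
theorem fInf_mem_range_V1 :
    fInf A N (q ^ 2) hd ∈ (algebraMap B (modularFunctionFieldFullC (K0 A) N)).range :=
  fInf_mem_range A hq hA hd hN hqM h isFrame_heightOne (vertOrHoriz_V1 A hq hA h hR hvert) hj

include hq hA hN hqM hR hvert hj in
/-- `fZero ∈ B` -/
theorem fZero_mem_range_V1 :
    fZero A N (q ^ 2) hd ∈ (algebraMap B (modularFunctionFieldFullC (K0 A) N)).range :=
  fZero_mem_range A hq hA hd hN hqM h isFrame_heightOne (vertOrHoriz_V1 A hq hA h hR hvert) hj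

variable (𝔫 : Ideal B) [𝔫.IsPrime]
  (haD : ∃ b : B, algebraMap B (modularFunctionFieldFullC (K0 A) N) b = aD A N (q ^ 2) hd)
  (h3 : ∀ b : B, algebraMap B (modularFunctionFieldFullC (K0 A) N) b ∈ (Rw3K0 A N q).nonunits →
    b ∈ 𝔫)
  (h12 : ∀ 𝔮 : HtOne B, 𝔮.1 ≤ 𝔫 →
    V1 (modularFunctionFieldFullC (K0 A) N) 𝔮 ≠ RwK0 A N ∧
      V1 (modularFunctionFieldFullC (K0 A) N) 𝔮 ≠ (redData2QK0 A N h).Rw)

include hq hA hN hqM hR hvert hj haD h3 h12 in
/-- **helper50 3206**: at every height-one prime `𝔮 ≤ 𝔫` : `|1/j(q²z)|_𝔮 = |1/j|_𝔮` -/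
theorem valuation_genC_inv_eq_V1 (𝔮 : HtOne B) (h𝔮 : 𝔮.1 ≤ 𝔫) :
    (V1 (modularFunctionFieldFullC (K0 A) N) 𝔮).valuation (genC (K0 A) (R0 A) N hd)⁻¹ =
      (V1 (modularFunctionFieldFullC (K0 A) N) 𝔮).valuation (jK0 A N)⁻¹ :=
  valuation_aD_eq_of_over A hq hA hd hN hqM h isFrame_heightOne
    (vertOrHoriz_V1 A hq hA h hR hvert) hj 𝔫 haD h3
    (fun v hv => h12 v ((over_V1_iff 𝔫 v).1 hv)) 𝔮 ((over_V1_iff 𝔫 𝔮).2 h𝔮)

variable (O : Type*) [CommRing O] [Algebra B O] [IsLocalization.AtPrime O 𝔫]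
  [Algebra O (modularFunctionFieldFullC (K0 A) N)]
  [IsScalarTower B O (modularFunctionFieldFullC (K0 A) N)]

include hq hA hN hqM hR hvert hj haD h3 h12 in
/-- **`v = j / j(q²z) ∈ O = B_𝔫`** -/
theorem v_mem_range_loc_V1 :
    aD A N (q ^ 2) hd / (jK0 A N)⁻¹ ∈
      (algebraMap O (modularFunctionFieldFullC (K0 A) N)).range :=
  v_mem_range_loc A hq hA hd hN hqM h isFrame_heightOne (vertOrHoriz_V1 A hq hA h hR hvert) hj 𝔫
    haD h3 (fun v hv => h12 v ((over_V1_iff 𝔫 v).1 hv)) O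

include hq hA hN hqM hR hvert hj haD h3 h12 in
/-- **`1/v = j(q²z) / j ∈ O = B_𝔫`** -/
theorem v_inv_mem_range_loc_V1 :
    (jK0 A N)⁻¹ / aD A N (q ^ 2) hd ∈
      (algebraMap O (modularFunctionFieldFullC (K0 A) N)).range :=
  v_inv_mem_range_loc A hq hA hd hN hqM h isFrame_heightOne (vertOrHoriz_V1 A hq hA h hR hvert) hj
    𝔫 haD h3 (fun v hv => h12 v ((over_V1_iff 𝔫 v).1 hv)) O

end Fermat.Agent.GL.CuspSpec
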