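/-
GATE-L / CUSP-SPEC at a CUSP POINT (helper16) — CORRECTED frame forms.

`CuspSpecFrame.v_mem_range_loc` assumes `haD : 1/j(q²z) ∈ B`, which FAILS for the `1/j`-chart
`B = IC R₀[1/j]` (`j(q²z)` has zeros where `j` is finite and nonzero).  Here `haD` is replaced by
`hcusp : 1/j ∈ 𝔫` (the point is cuspidal), which is what REG3 (C) has:

* `not_mem_nonunits_of_intRel` (abstract): `V ⊇ B` a valuation subring centred inside `𝔫`, `a ∈ 𝔫`,
  `a · j = 1`, `j` integral over `ℤ[x]` (helper87 `IntRel x j`) ⟹ `x ∉ 𝔪_V`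
  [`x ∈ 𝔪_V` gives `1 + a(…) ∈ 𝔪_V ∩ B ⊆ 𝔫`];
* `v_mem_of_over_cusp` : at EVERY member of the frame over a cuspidal `𝔫 ⊇ P₃` (not on `C₁, C₂`):
  `v = j/j(q²z)` and `1/v` are integral;
* **`v_mem_range_loc_cusp`, `v_inv_mem_range_loc_cusp`** : `v, 1/v ∈ O = B_𝔫`;
  `valuation_aD_eq_of_over_cusp` : `|1/j(q²z)| = |1/j|` at every member over `𝔫`;
* the same at helper80's height-one frame `V1 F₀`: `valuation_genC_inv_eq_V1_cusp`,
  `v_mem_range_loc_V1_cusp`, `v_inv_mem_range_loc_V1_cusp`.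
-/
import Fermat.Agent.GL.Cusp.CuspSpecInst
import Fermat.Agent.GL.Frame.ArithInt

set_option autoImplicit false
set_option linter.unusedSectionVars false

noncomputable section

namespace Fermat.Agent.GL.CuspSpec

open HahnSeries ModularCurve IsLocalRing AlgebraicCurve Polynomial
open Fermat.Agent.S24 Fermat.Agent.S24_helper62
open Fermat.Agent.GL.KrullFrame Fermat.Agent.GL.KrullHeightOne Fermat.Agent.GL.Frame.HeightOne
open Fermat.Agent.GL.Frame.HorizHord Fermat.Agent.GL.Frame.ArithInt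
open Fermat.Agent.GL.Val.GaussK0 Fermat.Agent.GL.Val.SecondK0 Fermat.Agent.GL.Val.SecondK0Hall
open Fermat.Agent.GK.Val.GaussBase Fermat.Agent.GK.AL Fermat.Agent.GL.AL Fermat.Agent.GL.Val.OrthK0
open Fermat.Agent.GL.Val.CuspK0 Fermat.Agent.GL.Val.ThirdK0 Fermat.Agent.GL.Val.CuspClass
open Fermat.Agent.GL.W3 Fermat.Agent.GL.Val.L1eAsmK0
open Fermat.Agent.Common_helper32

/-! ### Abstract: no zero of `x` on a non-cuspidal curve through a cusp point -/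

section Abstract

variable {B F : Type*} [CommRing B] [Field F] [Algebra B F]

/-- `V ⊇ B` centred inside `𝔫`, `a ∈ 𝔫`, `a · j = 1`, `j` integral over `ℤ[x]` ⟹ `x ∉ 𝔪_V`. -/
theorem not_mem_nonunits_of_intRel (𝔫 : Ideal B) (h𝔫 : 𝔫 ≠ ⊤) (V : ValuationSubring F)
    (hBV : ∀ b : B, algebraMap B F b ∈ V)
    (hloc : ∀ b : B, algebraMap B F b ∈ V.nonunits → b ∈ 𝔫)
    {aB : B} (haB : aB ∈ 𝔫) {j x : F} (haj : algebraMap B F aB * j = 1)
    (hrel : IntRel x j) : x ∉ V.nonunits := by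
  intro hxnu
  obtain ⟨G, hG, hGz⟩ := hrel
  have hj0 : j ≠ 0 := right_ne_zero_of_mul_eq_one haj
  have haj' : algebraMap B F aB = j⁻¹ := eq_inv_of_mul_eq_one_left haj
  -- the reversed relation `H(x, a) = 0`, `H = reverse G`
  have hrev : eval₂ (evalInt x) (algebraMap B F aB) G.reverse = 0 := by
    let _ : Invertible j := invertibleOfNonzero hj0
    have h1 := Polynomial.eval₂_reverse_mul_pow (evalInt x) j G
    rw [hGz] at h1
    have h2 : eval₂ (evalInt x) (⅟ j) G.reverse = 0 := by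
      rcases mul_eq_zero.1 h1 with h | h
      · exact h
      · exact absurd h (pow_ne_zero _ hj0)
    rwa [invOf_eq_inv, ← haj'] at h2
  have hcoeff0 : G.reverse.coeff 0 = 1 := by
    rw [Polynomial.coeff_zero_reverse, hG.leadingCoeff]
  -- `b := H(0, a_B) ∈ B`
  set b : B := eval₂ (evalInt (0 : B)) aB G.reverse with hb
  -- (i) `b ≡ 1 mod 𝔫`
  have hb1 : b - 1 ∈ 𝔫 := by
    have h1 : Ideal.Quotient.mk 𝔫 b = 1 := by
      rw [hb, Polynomial.hom_eval₂, Ideal.Quotient.eq_zero_iff_mem.2 haB, Polynomial.eval₂_at_zero,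
        hcoeff0, map_one]
    rw [← Ideal.Quotient.eq_zero_iff_mem, map_sub, h1, map_one, sub_self]
  -- (ii) `b ∈ 𝔪_V`
  have hxV : x ∈ V := ValuationSubring.nonunits_le hxnu
  have hb2 : algebraMap B F b ∈ V.nonunits := by
    set xV : V := ⟨x, hxV⟩ with hxVdef
    set aV : V := ⟨algebraMap B F aB, hBV aB⟩ with haVdef
    set u : V := eval₂ (evalInt xV) aV G.reverse with hu
    set u₀ : V := eval₂ (evalInt (0 : V)) aV G.reverse with hu₀
    have e1 : (V.subtype u : F) = 0 := by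
      rw [hu, Polynomial.hom_eval₂, comp_evalInt]
      exact hrev
    have e2 : (V.subtype u₀ : F) = algebraMap B F b := by
      rw [hu₀, Polynomial.hom_eval₂, comp_evalInt, map_zero, hb, Polynomial.hom_eval₂,
        comp_evalInt, map_zero]
      rfl
    have hu0 : u = 0 := Subtype.ext e1
    have e3 : Ideal.Quotient.mk (Ideal.span {xV}) u = Ideal.Quotient.mk (Ideal.span {xV}) u₀ := by
      rw [hu, hu₀, Polynomial.hom_eval₂, Polynomial.hom_eval₂, comp_evalInt, comp_evalInt,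
        map_zero, Ideal.Quotient.eq_zero_iff_mem.2 (Ideal.mem_span_singleton_self xV)]
    have hmem : u₀ ∈ Ideal.span {xV} := by
      rw [← Ideal.Quotient.eq_zero_iff_mem, ← e3, hu0, map_zero]
    obtain ⟨w, hw⟩ := Ideal.mem_span_singleton'.1 hmem
    have e4 : algebraMap B F b = (w : F) * x := by
      rw [← e2, ← hw]
      rfl
    rw [e4, ValuationSubring.mem_nonunits_iff, map_mul]
    exact lt_of_le_of_lt (mul_le_of_le_one_left' ((V.valuation_le_one_iff _).mpr w.2))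
      ((ValuationSubring.mem_nonunits_iff _).mp hxnu)
  have hb3 : b ∈ 𝔫 := hloc b hb2
  apply h𝔫
  rw [Ideal.eq_top_iff_one]
  have : (1 : B) = b - (b - 1) := by ring
  rw [this]
  exact 𝔫.sub_mem hb3 hb1

end Abstract

/-! ### On a frame, at a cuspidal point -/

section Frame

variable (A : ValuationSubring Qb) {N : ℕ} [NeZero N] {q M' : ℕ} [NeZero (q ^ 2)] [NeZero M']
  (hq : q.Prime) (hA : A.LiesOverPrime q) (hd : q ^ 2 ∣ N) (hN : N = M' * q ^ 2) (hqM : ¬ q ∣ M')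
  (h : HallDvd (q ^ 2) N)

variable {B : Type*} [CommRing B] [IsDomain B] [Algebra B (modularFunctionFieldFullC (K0 A) N)]
  [IsFractionRing B (modularFunctionFieldFullC (K0 A) N)]
  {𝒱 : Type*} {W : 𝒱 → ValuationSubring (modularFunctionFieldFullC (K0 A) N)}
  (hW : IsFrame B W) (hcls : ∀ v, VertOrHoriz A h W v)
  (𝔫 : Ideal B) [𝔫.IsPrime]
  (hcusp : ∃ b : B, b ∈ 𝔫 ∧ algebraMap B (modularFunctionFieldFullC (K0 A) N) b = (jK0 A N)⁻¹)
  (h3 : ∀ b : B, algebraMap B (modularFunctionFieldFullC (K0 A) N) b ∈ (Rw3K0 A N q).nonunits →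
    b ∈ 𝔫)
  (h12 : ∀ v, Over W 𝔫 v → W v ≠ RwK0 A N ∧ W v ≠ (redData2QK0 A N h).Rw)

include hq hA hN hqM hW hcls hcusp h3 h12 in
/-- at every member of the frame over a CUSPIDAL point `𝔫 ⊇ P₃`, `v` and `1/v` are integral -/
theorem v_mem_of_over_cusp (v : 𝒱) (hv : Over W 𝔫 v) :
    aD A N (q ^ 2) hd / (jK0 A N)⁻¹ ∈ W v ∧ (jK0 A N)⁻¹ / aD A N (q ^ 2) hd ∈ W v := by
  obtain ⟨bj, hbj𝔫, hbj⟩ := hcusp
  have hj : ∃ b : B, algebraMap B (modularFunctionFieldFullC (K0 A) N) b = (jK0 A N)⁻¹ :=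
    ⟨bj, hbj⟩
  obtain ⟨bI, hbI⟩ := fInf_mem_range A hq hA hd hN hqM h hW hcls hj
  obtain ⟨bZ, hbZ⟩ := fZero_mem_range A hq hA hd hN hqM h hW hcls hj
  have hbI𝔫 : bI ∈ 𝔫 := h3 bI (by rw [hbI]; exact fInf_mem_nonunits_Rw3K0 A hq hA hd hN hqM)
  have hbZ𝔫 : bZ ∈ 𝔫 := h3 bZ (by rw [hbZ]; exact fZero_mem_nonunits_Rw3K0 A hq hA hd hN hqM)
  rcases hcls v with (h1 | h2 | h3') | ⟨hK, hdvr⟩
  · exact absurd h1 (h12 v hv).1
  · exact absurd h2 (h12 v hv).2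
  · rw [h3']
    exact ⟨aD_div_mem_Rw3K0 A hq hA hd hN hqM, inv_div_aD_mem_Rw3K0 A hq hA hd hN hqM⟩
  · have := hdvr
    have hjV : (jK0 A N)⁻¹ ∈ W v := hbj ▸ hW.algebraMap_mem bj v
    by_cases hnu : (jK0 A N)⁻¹ ∈ (W v).nonunits
    · exact unit_of_frame A hq hd 𝔫 (Ideal.IsPrime.ne_top inferInstance) (W v) hK hnu hv bI bZ hbI
        hbI𝔫 hbZ hbZ𝔫
    · -- not a cusp place: `j ∈ V`, `j(q²z) ∈ V`, and `j(q²z)` has no zero at `V`
      rw [ValuationSubring.mem_nonunits_iff_or, not_or, not_not, inv_inv] at hnu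
      have hjV' : jK0 A N ∈ W v := hnu.2
      have hxV : genC (K0 A) (R0 A) N hd ∈ W v := genC_mem_of_isDVR A N (W v) hK (q ^ 2) hd hjV'
      have hxnu : genC (K0 A) (R0 A) N hd ∉ (W v).nonunits :=
        not_mem_nonunits_of_intRel 𝔫 (Ideal.IsPrime.ne_top inferInstance) (W v)
          (fun b => hW.algebraMap_mem b v) hv hbj𝔫
          (by rw [hbj]; exact inv_mul_cancel₀ (jK0_ne_zero A N))
          (intRel_genC N (R0 A) (one_dvd N) hd)
      rw [ValuationSubring.mem_nonunits_iff_or, not_or, not_not] at hxnu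
      refine ⟨?_, ?_⟩
      · rw [aD, div_inv_eq_mul]
        exact (W v).mul_mem _ _ hxnu.2 hjV'
      · rw [aD, div_inv_eq_mul]
        exact (W v).mul_mem _ _ hjV hxV

include hq hA hN hqM hW hcls hcusp h3 h12 in
/-- `|1/j(q²z)| = |1/j|` at every member of the frame over a cuspidal `𝔫 ⊇ P₃` -/
theorem valuation_aD_eq_of_over_cusp (v : 𝒱) (hv : Over W 𝔫 v) :
    (W v).valuation (genC (K0 A) (R0 A) N hd)⁻¹ = (W v).valuation (jK0 A N)⁻¹ := by
  obtain ⟨h1, h2⟩ := v_mem_of_over_cusp A hq hA hd hN hqM h hW hcls 𝔫 hcusp h3 h12 v hv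
  exact valuation_eq_of_div_mem (W v) (aD_ne_zero A N (q ^ 2) hd)
    (inv_ne_zero (jK0_ne_zero A N)) h1 h2

variable (O : Type*) [CommRing O] [Algebra B O] [IsLocalization.AtPrime O 𝔫]
  [Algebra O (modularFunctionFieldFullC (K0 A) N)]
  [IsScalarTower B O (modularFunctionFieldFullC (K0 A) N)]

include hq hA hN hqM hW hcls hcusp h3 h12 in
/-- **helper50 3003 (C): `v = j / j(q²z) ∈ O_n`** at every CUSPIDAL point `𝔫 ⊇ P₃` not on `C₁, C₂` -/
theorem v_mem_range_loc_cusp :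
    aD A N (q ^ 2) hd / (jK0 A N)⁻¹ ∈
      (algebraMap O (modularFunctionFieldFullC (K0 A) N)).range := by
  rw [hW.mem_range_loc_iff 𝔫 O]
  intro v hv
  exact (v_mem_of_over_cusp A hq hA hd hN hqM h hW hcls 𝔫 hcusp h3 h12 v hv).1

include hq hA hN hqM hW hcls hcusp h3 h12 in
/-- … and `1/v ∈ O_n` : `v` is a unit of `O_n` -/
theorem v_inv_mem_range_loc_cusp :
    (jK0 A N)⁻¹ / aD A N (q ^ 2) hd ∈
      (algebraMap O (modularFunctionFieldFullC (K0 A) N)).range := by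
  rw [hW.mem_range_loc_iff 𝔫 O]
  intro v hv
  exact (v_mem_of_over_cusp A hq hA hd hN hqM h hW hcls 𝔫 hcusp h3 h12 v hv).2

end Frame

/-! ### At the height-one frame -/

section HtOneFrame

variable (A : ValuationSubring Qb) {N : ℕ} [NeZero N] {q M' : ℕ} [NeZero (q ^ 2)] [NeZero M']
  (hq : q.Prime) (hA : A.LiesOverPrime q) (hd : q ^ 2 ∣ N) (hN : N = M' * q ^ 2) (hqM : ¬ q ∣ M')
  (h : HallDvd (q ^ 2) N)

variable {B : Type*} [CommRing B] [IsDomain B] [Algebra B (modularFunctionFieldFullC (K0 A) N)]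
  [IsFractionRing B (modularFunctionFieldFullC (K0 A) N)] [IsNoetherianRing B]
  [IsIntegrallyClosed B]
  (hR : ∀ c : K0 A, c ∈ R0 A →
    algebraMap (K0 A) (modularFunctionFieldFullC (K0 A) N) c ∈
      (algebraMap B (modularFunctionFieldFullC (K0 A) N)).range)
  (hvert : ∀ 𝔮 : HtOne B, ((q : ℕ) : B) ∈ 𝔮.1 →
    ∃ i, V1 (modularFunctionFieldFullC (K0 A) N) 𝔮 = W3 A h i)
  (𝔫 : Ideal B) [𝔫.IsPrime]
  (hcusp : ∃ b : B, b ∈ 𝔫 ∧ algebraMap B (modularFunctionFieldFullC (K0 A) N) b = (jK0 A N)⁻¹)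
  (h3 : ∀ b : B, algebraMap B (modularFunctionFieldFullC (K0 A) N) b ∈ (Rw3K0 A N q).nonunits →
    b ∈ 𝔫)
  (h12 : ∀ 𝔮 : HtOne B, 𝔮.1 ≤ 𝔫 →
    V1 (modularFunctionFieldFullC (K0 A) N) 𝔮 ≠ RwK0 A N ∧
      V1 (modularFunctionFieldFullC (K0 A) N) 𝔮 ≠ (redData2QK0 A N h).Rw)

include hq hA hN hqM hR hvert hcusp h3 h12 in
/-- **helper50 3206**: at every height-one prime `𝔮 ≤ 𝔫` of a cuspidal point `𝔫 ⊇ P₃` :
`|1/j(q²z)|_𝔮 = |1/j|_𝔮` -/
theorem valuation_genC_inv_eq_V1_cusp (𝔮 : HtOne B) (h𝔮 : 𝔮.1 ≤ 𝔫) :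
    (V1 (modularFunctionFieldFullC (K0 A) N) 𝔮).valuation (genC (K0 A) (R0 A) N hd)⁻¹ =
      (V1 (modularFunctionFieldFullC (K0 A) N) 𝔮).valuation (jK0 A N)⁻¹ :=
  valuation_aD_eq_of_over_cusp A hq hA hd hN hqM h isFrame_heightOne
    (vertOrHoriz_V1 A hq hA h hR hvert) 𝔫 hcusp h3
    (fun v hv => h12 v ((over_V1_iff 𝔫 v).1 hv)) 𝔮 ((over_V1_iff 𝔫 𝔮).2 h𝔮)

variable (O : Type*) [CommRing O] [Algebra B O] [IsLocalization.AtPrime O 𝔫]
  [Algebra O (modularFunctionFieldFullC (K0 A) N)]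
  [IsScalarTower B O (modularFunctionFieldFullC (K0 A) N)]

include hq hA hN hqM hR hvert hcusp h3 h12 in
/-- **`v = j / j(q²z) ∈ O = B_𝔫`** at a cuspidal point -/
theorem v_mem_range_loc_V1_cusp :
    aD A N (q ^ 2) hd / (jK0 A N)⁻¹ ∈
      (algebraMap O (modularFunctionFieldFullC (K0 A) N)).range :=
  v_mem_range_loc_cusp A hq hA hd hN hqM h isFrame_heightOne (vertOrHoriz_V1 A hq hA h hR hvert) 𝔫
    hcusp h3 (fun v hv => h12 v ((over_V1_iff 𝔫 v).1 hv)) O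

include hq hA hN hqM hR hvert hcusp h3 h12 in
/-- **`1/v = j(q²z) / j ∈ O = B_𝔫`** at a cuspidal point -/
theorem v_inv_mem_range_loc_V1_cusp :
    (jK0 A N)⁻¹ / aD A N (q ^ 2) hd ∈
      (algebraMap O (modularFunctionFieldFullC (K0 A) N)).range :=
  v_inv_mem_range_loc_cusp A hq hA hd hN hqM h isFrame_heightOne
    (vertOrHoriz_V1 A hq hA h hR hvert) 𝔫 hcusp h3 (fun v hv => h12 v ((over_V1_iff 𝔫 v).1 hv)) O

end HtOneFrame

end Fermat.Agent.GL.CuspSpec
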