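/-
GATE-L / SCALE-THETA (helper18): the difference quotient `(f(ξQ) − f(Q))/(ξ − 1)` of a Laurent
series along a unit `ξ ≡ 1`, and its reduction `θ f~` (`θ = Q d/dQ`).

`O` a commutative ring, `ξ : Oˣ`:
* `geomZ ξ n = (ξ^n − 1)/(ξ − 1)` for `n : ℤ`, `sub_one_mul_geomZ`, `map_geomZ : φ (geomZ ξ n) = n`
  for every ring hom `φ` with `φ ξ = 1`;
* `scaleDiff ξ f` (coefficients `geomZ ξ n * f_n`), **`scaleHom_sub : f(ξQ) − f(Q) = (ξ−1)·scaleDiff ξ f`**,
  **`coeffMap_scaleDiff : (scaleDiff ξ f)~ = θ (f~)`** when `φ ξ = 1`;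
* cusp form: `cuspS_sub : f(ξ t^m) − f(t^m) = (ξ−1)·(scaleDiff ξ f)(t^m)`, reduction `(θ f~)(t^m)`;
* `ξ` a primitive `q`-th root of unity in a domain, `φ : O → k` with `char k = q`, `φ ξ = 1`:
  `exists_unit_factor : ∃ u, (ξ−1)^(q−1) * u = q ∧ φ u = −1` (Wilson), hence
  **`scale_sub_pow : (f(ξQ) − f(Q))^(q−1) · u = q · (scaleDiff ξ f)^(q−1)`**, i.e.
  `((f(ξQ) − f(Q))^(q−1)/q)~ = −(θ f~)^(q−1)` (helper50's `h₃`-formula, 2486).
-/
import Mathlib
import Fermat.Agent.S28.CuspSeries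
import Fermat.Agent.GL.Thick.ThetaL

set_option autoImplicit false

noncomputable section

namespace Fermat.Agent.GL.ScaleTheta

open HahnSeries ModularCurve Finset
open Fermat.Agent.S28 Fermat.Agent.GL.Thick

/-! ### `(ξ^n − 1)/(ξ − 1)` for integer exponents -/

section Geom

variable {O : Type*} [CommRing O]

/-- `(ξ^n − 1)/(ξ − 1)` for `n : ℤ` -/
def geomZ (ξ : Oˣ) : ℤ → O
  | Int.ofNat n => ∑ i ∈ range n, (ξ : O) ^ i
  | Int.negSucc n => -(((ξ⁻¹ : Oˣ) : O) ^ (n + 1) * ∑ i ∈ range (n + 1), (ξ : O) ^ i)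

theorem geomZ_natCast (ξ : Oˣ) (n : ℕ) : geomZ ξ (n : ℤ) = ∑ i ∈ range n, (ξ : O) ^ i := rfl

theorem geomZ_negSucc (ξ : Oˣ) (n : ℕ) :
    geomZ ξ (Int.negSucc n) =
      -(((ξ⁻¹ : Oˣ) : O) ^ (n + 1) * ∑ i ∈ range (n + 1), (ξ : O) ^ i) := rfl

/-- `(ξ − 1) · geomZ ξ n = ξ^n − 1` -/
theorem sub_one_mul_geomZ (ξ : Oˣ) (n : ℤ) :
    ((ξ : O) - 1) * geomZ ξ n = ((ξ ^ n : Oˣ) : O) - 1 := by
  cases n with
  | ofNat n =>
    rw [Int.ofNat_eq_natCast, geomZ_natCast, mul_geom_sum, zpow_natCast, Units.val_pow_eq_pow_val]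
  | negSucc n =>
    rw [geomZ_negSucc, zpow_negSucc, mul_neg, ← mul_assoc, mul_comm ((ξ : O) - 1), mul_assoc,
      mul_geom_sum, mul_sub, mul_one, ← Units.val_pow_eq_pow_val, ← Units.val_pow_eq_pow_val,
      ← Units.val_mul, inv_pow, inv_mul_cancel, Units.val_one]
    ring

/-- `geomZ ξ n ≡ n` modulo any ideal containing `ξ − 1` -/
theorem map_geomZ {k : Type*} [CommRing k] (φ : O →+* k) (ξ : Oˣ) (hξ : φ (ξ : O) = 1) (n : ℤ) :
    φ (geomZ ξ n) = (n : k) := by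
  have hξ' : φ ((ξ⁻¹ : Oˣ) : O) = 1 := by
    have h1 : φ (ξ : O) * φ ((ξ⁻¹ : Oˣ) : O) = 1 := by
      rw [← map_mul, ← Units.val_mul, mul_inv_cancel, Units.val_one, map_one]
    rwa [hξ, one_mul] at h1
  cases n with
  | ofNat n =>
    rw [Int.ofNat_eq_natCast, geomZ_natCast, map_sum]
    simp [map_pow, hξ]
  | negSucc n =>
    rw [geomZ_negSucc, map_neg, map_mul, map_pow, hξ', one_pow, one_mul, map_sum]
    simp [map_pow, hξ, Int.cast_negSucc]

end Geom

/-! ### The difference quotient of a Laurent series -/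

section ScaleDiff

variable {O : Type*} [CommRing O]

/-- the series with coefficients `geomZ ξ n · f_n`, i.e. `(f(ξQ) − f(Q))/(ξ − 1)` -/
def scaleDiff (ξ : Oˣ) (f : LaurentSeries O) : LaurentSeries O where
  coeff n := geomZ ξ n * f.coeff n
  isPWO_support' := f.isPWO_support.mono fun n hn => by
    simp only [Function.mem_support, ne_eq] at hn ⊢
    exact fun h => hn (by rw [h, mul_zero])

@[simp] theorem coeff_scaleDiff (ξ : Oˣ) (f : LaurentSeries O) (n : ℤ) :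
    (scaleDiff ξ f).coeff n = geomZ ξ n * f.coeff n := rfl

/-- **`f(ξQ) − f(Q) = (ξ − 1) · scaleDiff ξ f`** -/
theorem scaleHom_sub (ξ : Oˣ) (f : LaurentSeries O) :
    scaleHom O ξ f - f = HahnSeries.C ((ξ : O) - 1) * scaleDiff ξ f := by
  ext n
  rw [HahnSeries.coeff_sub, scaleHom_coeff, HahnSeries.C_mul_eq_smul, HahnSeries.coeff_smul,
    smul_eq_mul, coeff_scaleDiff, ← mul_assoc, sub_one_mul_geomZ]
  ring

/-- **the reduction of the difference quotient is `θ f~`** (`φ ξ = 1`) -/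
theorem coeffMap_scaleDiff {k : Type*} [CommRing k] (φ : O →+* k) (ξ : Oˣ) (hξ : φ (ξ : O) = 1)
    (f : LaurentSeries O) :
    coeffMap φ (scaleDiff ξ f) = thetaL k (coeffMap φ f) := by
  ext n
  rw [coeffMap_coeff, coeff_scaleDiff, map_mul, map_geomZ φ ξ hξ, coeff_thetaL, coeffMap_coeff]

/-- cusp form: `f(ξ t^m) − f(t^m) = (ξ − 1) · (scaleDiff ξ f)(t^m)` -/
theorem cuspS_sub (ξ : Oˣ) (m : ℕ) [NeZero m] (f : LaurentSeries O) :
    cuspS O ξ m f - qExpand O m f =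
      HahnSeries.C ((ξ : O) - 1) * qExpand O m (scaleDiff ξ f) := by
  rw [cuspS, RingHom.comp_apply, ← map_sub, scaleHom_sub, map_mul, qExpand_C]

/-- reduction of the cusp form of the difference quotient: `(θ f~)(t^m)` -/
theorem coeffMap_qExpand_scaleDiff {k : Type*} [CommRing k] (φ : O →+* k) (ξ : Oˣ)
    (hξ : φ (ξ : O) = 1) (m : ℕ) [NeZero m] (f : LaurentSeries O) :
    coeffMap φ (qExpand O m (scaleDiff ξ f)) = qExpand k m (thetaL k (coeffMap φ f)) := by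
  rw [coeffMap_qExpand, coeffMap_scaleDiff φ ξ hξ]

end ScaleDiff


/-! ### A primitive `q`-th root of unity in residue characteristic `q` -/

section Wilson

variable {O : Type*} [CommRing O] [IsDomain O] {k : Type*} [CommRing k]

/-- Wilson's lemma in any ring of characteristic `q` -/
theorem factorial_pred_eq_neg_one (q : ℕ) [Fact q.Prime] [CharP k q] :
    (((q - 1).factorial : ℕ) : k) = -1 := by
  have h := congrArg (ZMod.castHom (dvd_refl q) k) (ZMod.wilsons_lemma q)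
  rwa [map_natCast, map_neg, map_one] at h

/-- **`(ξ − 1)^(q−1) · u = q` with `u ≡ −1`**: `ξ` a primitive `q`-th root of unity, `φ ξ = 1`,
`char k = q`. -/
theorem exists_unit_factor (q : ℕ) [Fact q.Prime] [CharP k q] (φ : O →+* k) (ξ : Oˣ)
    (hprim : IsPrimitiveRoot (ξ : O) q) (hξ : φ (ξ : O) = 1) :
    ∃ u : O, ((ξ : O) - 1) ^ (q - 1) * u = (q : O) ∧ φ u = -1 := by
  have hq : q = (q - 1) + 1 := (Nat.sub_add_cancel (Fact.out (p := q.Prime)).pos).symm
  have hprim' : IsPrimitiveRoot (ξ : O) ((q - 1) + 1) := by rwa [← hq]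
  have h1 := hprim'.prod_pow_sub_one_eq_order
  -- each factor is `(ξ − 1) · geom`
  have h2 : ∀ i ∈ range (q - 1), (ξ : O) ^ (i + 1) - 1 =
      ((ξ : O) - 1) * ∑ j ∈ range (i + 1), (ξ : O) ^ j := fun i _ => (mul_geom_sum _ _).symm
  rw [prod_congr rfl h2, prod_mul_distrib, prod_const, card_range] at h1
  refine ⟨(-1) ^ (q - 1) * ∏ i ∈ range (q - 1), ∑ j ∈ range (i + 1), (ξ : O) ^ j, ?_, ?_⟩
  · have h3 : (((q - 1 : ℕ) : O) + 1) = (q : O) := by
      have := congrArg (fun n : ℕ => (n : O)) hq.symm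
      simpa using this
    rw [← h3, ← h1]
    ring
  · rw [map_mul, map_pow, map_neg, map_one, map_prod]
    have h4 : ∀ i ∈ range (q - 1), φ (∑ j ∈ range (i + 1), (ξ : O) ^ j) = ((i + 1 : ℕ) : k) := by
      intro i _
      rw [map_sum]
      simp [map_pow, hξ]
    rw [prod_congr rfl h4, ← Nat.cast_prod, prod_range_add_one_eq_factorial,
      factorial_pred_eq_neg_one q, ← pow_succ, ← hq]
    rcases (Fact.out (p := q.Prime)).eq_two_or_odd' with h2 | hodd
    · subst h2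
      have h5 : (2 : k) = 0 := by
        have := CharP.cast_eq_zero k 2
        simpa using this
      linear_combination h5
    · exact hodd.neg_one_pow

omit [IsDomain O] in
/-- **`(f(ξQ) − f(Q))^(q−1) · u = q · (scaleDiff ξ f)^(q−1)`**, `u` as in `exists_unit_factor` -/
theorem scale_sub_pow (q : ℕ) (ξ : Oˣ) {u : O} (hu : ((ξ : O) - 1) ^ (q - 1) * u = (q : O))
    (f : LaurentSeries O) :
    (scaleHom O ξ f - f) ^ (q - 1) * HahnSeries.C u =
      HahnSeries.C (q : O) * scaleDiff ξ f ^ (q - 1) := by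
  rw [scaleHom_sub, mul_pow, ← map_pow, ← hu, map_mul]
  ring

omit [IsDomain O] in
/-- cusp form of `scale_sub_pow` -/
theorem cuspS_sub_pow (q : ℕ) (ξ : Oˣ) {u : O} (hu : ((ξ : O) - 1) ^ (q - 1) * u = (q : O))
    (m : ℕ) [NeZero m] (f : LaurentSeries O) :
    (cuspS O ξ m f - qExpand O m f) ^ (q - 1) * HahnSeries.C u =
      HahnSeries.C (q : O) * qExpand O m (scaleDiff ξ f) ^ (q - 1) := by
  rw [cuspS_sub, mul_pow, ← map_pow, ← hu, map_mul]
  ring

end Wilson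

end Fermat.Agent.GL.ScaleTheta
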