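import Fermat.Agent.GJ.J1.Defs

/-!
# GATE-L / PREP L7c (abstract half): no glueing over a point of the chart line, finite families

A finite family `R i : RedData K F k (Ft i)` of reduction data on the same function field `F / K`
(the extensions of the Gauss valuation), a chart `s : F` (think `s = j⁻¹`) with reductions
`st i : Ft i`.  Write `B_∞ := {x ∈ ⋂ Rw_i | RegOver K s x}` and
`C_∞^(i) := {y : Ft i | RegOver k (st i) y}`.

If each projection `B_∞ → C_∞^(i)` is onto and there is a *separating family* `e i ∈ B_∞`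
(`red_j (e i) = 0` for `j ≠ i`, `red_i (e i)` a unit of `C_∞^(i)`), then `B_∞ → ∏ C_∞^(i)` is ONTO:
the components of the special fibre do not meet over `s = 0`.  (Family version of
`GK/Cusp/Split.lean`; in this symmetric form no "reduction preserves regularity" hypothesis is
needed.)
-/

set_option autoImplicit false

namespace Fermat.Agent.GL.CuspOrd

open Fermat.Agent.GJ.J1

variable {K F k : Type*} [Field K] [Field F] [Algebra K F] [Field k]
  {ι : Type*} {Ft : ι → Type*} [∀ i, Field (Ft i)] [∀ i, Algebra k (Ft i)]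

/-- `x` lies in the semilocal order `B_∞ = {x ∈ ⋂ Rw_i | x regular over s = 0}` and has the
prescribed family of reductions. -/
def LiftsFam (R : ∀ i, RedData K F k (Ft i)) (s x : F) (y : ∀ i, Ft i) : Prop :=
  ∃ h : ∀ i, x ∈ (R i).Rw, RegOver K s x ∧ ∀ i, (R i).red ⟨x, h i⟩ = y i

/-- a separating family over `s = 0`: `e i ∈ B_∞`, `red_j (e i) = 0` for `j ≠ i`, `red_i (e i)` is a
unit of the semilocal ring `C_∞^(i)` -/
structure IsSepFam (R : ∀ i, RedData K F k (Ft i)) (s : F) (st : ∀ i, Ft i) (e : ι → F) :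
    Prop where
  mem : ∀ i j, e i ∈ (R j).Rw
  reg : ∀ i, RegOver K s (e i)
  red_ne : ∀ i j, i ≠ j → (R j).red ⟨e i, mem i j⟩ = 0
  red_self : ∀ i, (R i).red ⟨e i, mem i i⟩ ≠ 0
  reg_inv : ∀ i, RegOver k (st i) ((R i).red ⟨e i, mem i i⟩)⁻¹

theorem regOver_finset_sum {κ : Type*} (S : Finset κ) (s : F) (f : κ → F)
    (h : ∀ i ∈ S, RegOver K s (f i)) : RegOver K s (∑ i ∈ S, f i) := by
  classical
  induction S using Finset.induction_on with
  | empty => simpa using regOver_zero (K := K) s
  | insert a S ha ih =>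
    rw [Finset.sum_insert ha]
    exact (h a (Finset.mem_insert_self a S)).add
      (ih fun i hi => h i (Finset.mem_insert_of_mem hi))

/-- **K-CUSP, family form**: with a separating family, `B_∞ → ∏ C_∞^(i)` is onto. -/
theorem cusp_split_fam [Fintype ι] [DecidableEq ι] (R : ∀ i, RedData K F k (Ft i)) (s : F)
    (st : ∀ i, Ft i) {e : ι → F} (he : IsSepFam R s st e)
    (hsurj : ∀ i (y : Ft i), RegOver k (st i) y →
      ∃ x, ∃ h : ∀ j, x ∈ (R j).Rw, RegOver K s x ∧ (R i).red ⟨x, h i⟩ = y)
    (y : ∀ i, Ft i) (hy : ∀ i, RegOver k (st i) (y i)) : ∃ x, LiftsFam R s x y := by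
  choose w hwmem hwreg hwred using fun i =>
    hsurj i (((R i).red ⟨e i, he.mem i i⟩)⁻¹ * y i) ((he.reg_inv i).mul (hy i))
  have hmem : ∀ i j, e i * w i ∈ (R j).Rw := fun i j =>
    (R j).Rw.mul_mem _ _ (he.mem i j) (hwmem i j)
  have hsum : ∀ j, ∑ i, e i * w i ∈ (R j).Rw := fun j =>
    sum_mem fun i _ => hmem i j
  refine ⟨∑ i, e i * w i, hsum, ?_, ?_⟩
  · exact regOver_finset_sum _ s _ fun i _ => (he.reg i).mul (hwreg i)
  · intro j
    have h1 : (⟨∑ i, e i * w i, hsum j⟩ : (R j).Rw) =
        ∑ i, (⟨e i, he.mem i j⟩ : (R j).Rw) * ⟨w i, hwmem i j⟩ := by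
      apply Subtype.ext
      simp
    rw [h1, map_sum, Finset.sum_eq_single j]
    · rw [map_mul, hwred j, ← mul_assoc, mul_inv_cancel₀ (he.red_self j), one_mul]
    · intro i _ hij
      rw [map_mul, he.red_ne i j hij, zero_mul]
    · intro h; exact absurd (Finset.mem_univ j) h

/-- the "idempotents": the family `(δ_{ij})_j` lifts to `B_∞` -/
theorem exists_lift_single [Fintype ι] [DecidableEq ι] (R : ∀ i, RedData K F k (Ft i)) (s : F)
    (st : ∀ i, Ft i) {e : ι → F} (he : IsSepFam R s st e)
    (hsurj : ∀ i (y : Ft i), RegOver k (st i) y →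
      ∃ x, ∃ h : ∀ j, x ∈ (R j).Rw, RegOver K s x ∧ (R i).red ⟨x, h i⟩ = y)
    (i : ι) : ∃ x, LiftsFam R s x (fun j => if j = i then 1 else 0) := by
  apply cusp_split_fam R s st he hsurj
  intro j
  by_cases hji : j = i
  · simp only [hji, if_true]; exact regOver_one _
  · simp only [hji, if_false]; exact regOver_zero _

/-- products of two-index separators give a separating family: if `e i j` (`i ≠ j`) has
`red_i (e i j)` a unit at the cusps and `red_j (e i j) = 0`, then `E i := ∏_{j ≠ i} e i j` is a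
separating family -/
theorem isSepFam_of_pairs [Fintype ι] [DecidableEq ι] (R : ∀ i, RedData K F k (Ft i)) (s : F)
    (st : ∀ i, Ft i) (e : ι → ι → F)
    (hmem : ∀ i j l, e i j ∈ (R l).Rw) (hreg : ∀ i j, RegOver K s (e i j))
    (hzero : ∀ i j, i ≠ j → (R j).red ⟨e i j, hmem i j j⟩ = 0)
    (hne : ∀ i j, i ≠ j → (R i).red ⟨e i j, hmem i j i⟩ ≠ 0)
    (hinv : ∀ i j, i ≠ j → RegOver k (st i) ((R i).red ⟨e i j, hmem i j i⟩)⁻¹) :
    IsSepFam R s st (fun i => ∏ j ∈ Finset.univ.erase i, e i j) := by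
  have hpm : ∀ i l, ∏ j ∈ Finset.univ.erase i, e i j ∈ (R l).Rw := fun i l =>
    prod_mem fun j _ => hmem i j l
  have hred : ∀ i l, (R l).red ⟨∏ j ∈ Finset.univ.erase i, e i j, hpm i l⟩ =
      ∏ j ∈ Finset.univ.erase i, (R l).red ⟨e i j, hmem i j l⟩ := by
    intro i l
    have h1 : (⟨∏ j ∈ Finset.univ.erase i, e i j, hpm i l⟩ : (R l).Rw) =
        ∏ j ∈ Finset.univ.erase i, (⟨e i j, hmem i j l⟩ : (R l).Rw) := by
      apply Subtype.ext
      simp
    rw [h1, map_prod]
  refine ⟨hpm, ?_, ?_, ?_, ?_⟩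
  · intro i
    classical
    have : ∀ S : Finset ι, RegOver K s (∏ j ∈ S, e i j) := by
      intro S
      induction S using Finset.induction_on with
      | empty => simpa using regOver_one (K := K) s
      | insert a S ha ih => rw [Finset.prod_insert ha]; exact (hreg i a).mul ih
    exact this _
  · intro i l hil
    rw [hred]
    exact Finset.prod_eq_zero (Finset.mem_erase.mpr ⟨fun h => hil h.symm, Finset.mem_univ l⟩)
      (hzero i l hil)
  · intro i
    rw [hred]
    exact Finset.prod_ne_zero_iff.mpr fun j hj => hne i j (fun h => (Finset.mem_erase.mp hj).1 h.symm)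
  · intro i
    rw [hred, ← Finset.prod_inv_distrib]
    classical
    have : ∀ S : Finset ι, (∀ j ∈ S, i ≠ j) →
        RegOver k (st i) (∏ j ∈ S, ((R i).red ⟨e i j, hmem i j i⟩)⁻¹) := by
      intro S
      induction S using Finset.induction_on with
      | empty => intro _; simpa using regOver_one (K := k) (st i)
      | insert a S ha ih =>
        intro hS
        rw [Finset.prod_insert ha]
        exact (hinv i a (hS a (Finset.mem_insert_self a S))).mul
          (ih fun j hj => hS j (Finset.mem_insert_of_mem hj))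
    exact this _ fun j hj h => (Finset.mem_erase.mp hj).1 h.symm

end Fermat.Agent.GL.CuspOrd
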