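/-
GATE-L / L3c + OLD-TRIPLES + L1e-F3 (helper18): the three OLD COPIES of level `M'` (`q ∤ M'`) inside
`F_{M'q²}` at the third valuation `w₃` (helper93's `cusp3`):

  `d0 f = f(z)`, `d1 f = f(qz)`, `d2 f = f(q²z)`   (`d0 = α∘α`, `d1 = β∘α`, `d2 = β∘β`).

For every `f ∈ F_{M'}`: `d_i f ∈ R_{w₃} ↔ f ∈ R_w` (the Gauss valuation of level `M'`), and
(for `A` over `q`)

  `red₃ (d0 f) = f~(t^N)`,  `red₃ (d1 f) = f~(t^{Nq})`,  `red₃ (d2 f) = f~(t^N)`,   `N = M'q²`.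

Direct corollaries of `W3Table` (rows `(α; w₃→w₁')`, `(β; w₃→w₂')`), helper15 `OldRed`
(`α`, `β` at `w₁`) and helper42 `W_q∘α = β`, `W_q∘β = α`.
-/
import Fermat.Agent.GL.Cusp.W3Table
import Fermat.Agent.GK.AL.WRealize

set_option autoImplicit false

noncomputable section

namespace Fermat.Agent.GL.W3Old

open HahnSeries ModularCurve IsLocalRing
open Fermat.Agent.S24 Fermat.Agent.S28
open Fermat.Agent.GJ.J1 Fermat.Agent.GJ.J1.Val Fermat.Agent.GL.CuspVal Fermat.Agent.GL.W3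
open Fermat.Agent.GK.QS Fermat.Agent.GK.AL Fermat.Agent.GJ.HN Fermat.Agent.GL.W3Table

variable {q M' : ℕ} [NeZero q] [NeZero M']

/-- `f(z)` at level `M'q²` -/
def d0 : FN M' →ₐ[Kbar] FN (M' * q * q) := (alphaB (M' * q) q).comp (alphaB M' q)

/-- `f(qz)` at level `M'q²` -/
def d1 : FN M' →ₐ[Kbar] FN (M' * q * q) := (betaB (M' * q) q).comp (alphaB M' q)

/-- `f(q²z)` at level `M'q²` -/
def d2 : FN M' →ₐ[Kbar] FN (M' * q * q) := (betaB (M' * q) q).comp (betaB M' q)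

theorem d0_apply (f : FN M') : d0 (q := q) f = alphaB (M' * q) q (alphaB M' q f) := rfl
theorem d1_apply (f : FN M') : d1 (q := q) f = betaB (M' * q) q (alphaB M' q f) := rfl
theorem d2_apply (f : FN M') : d2 (q := q) f = betaB (M' * q) q (betaB M' q f) := rfl

variable (A : ValuationSubring Kbar)

local notation "𝕜" => ResidueField A

/-! ### membership -/

/-- `f(z) ∈ R_{w₃} ↔ f ∈ R_w` -/
theorem d0_mem_Rw3_iff (hq : q.Prime) (f : FN M') :
    d0 (q := q) f ∈ (redData3 (M' * q * q) A q).Rw ↔ f ∈ (redDataBar M' A).Rw := by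
  rw [d0_apply, alphaB_mem_Rw3_iff A hq]
  exact alpha_mem_RwBar_iff M' q A f

/-- `f(qz) ∈ R_{w₃} ↔ f ∈ R_w` -/
theorem d1_mem_Rw3_iff (hq : q.Prime) (hqM : ¬ q ∣ M') (f : FN M') :
    d1 (q := q) f ∈ (redData3 (M' * q * q) A q).Rw ↔ f ∈ (redDataBar M' A).Rw := by
  rw [d1_apply, betaB_mem_Rw3_iff A hq hqM, mem_Rw2_iff, wAut_alphaB]
  exact beta_mem_RwBar_iff M' q A f

/-- `f(q²z) ∈ R_{w₃} ↔ f ∈ R_w` -/
theorem d2_mem_Rw3_iff (hq : q.Prime) (hqM : ¬ q ∣ M') (f : FN M') :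
    d2 (q := q) f ∈ (redData3 (M' * q * q) A q).Rw ↔ f ∈ (redDataBar M' A).Rw := by
  rw [d2_apply, betaB_mem_Rw3_iff A hq hqM, mem_Rw2_iff, wAut_betaB]
  exact alpha_mem_RwBar_iff M' q A f

/-! ### reductions -/

/-- **`red₃ (f(z)) = f~(t^N)`** (every `A`) -/
theorem coe_red3_d0 (hq : q.Prime) (f : FN M') (hf : f ∈ (redDataBar M' A).Rw)
    (h : d0 (q := q) f ∈ (redData3 (M' * q * q) A q).Rw) :
    (((redData3 (M' * q * q) A q).red ⟨d0 (q := q) f, h⟩ :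
        FresCusp (M' * q * q) A (cusp3 (M' * q * q) q)) : LaurentSeries 𝕜) =
      qExpand 𝕜 (M' * q * q)
        (((redDataBar M' A).red ⟨f, hf⟩ : FresBar M' A) : LaurentSeries 𝕜) := by
  have h1 : alphaB M' q f ∈ (redDataBar (M' * q) A).Rw := (alpha_mem_RwBar_iff M' q A f).mpr hf
  have h2 := coe_red3_alphaB A hq (alphaB M' q f) h1 h
  rw [coe_red_alpha M' q A ⟨f, hf⟩ h1] at h2
  exact h2

/-- **`red₃ (f(qz)) = f~(t^{Nq})`** (`A` over `q`) -/
theorem coe_red3_d1 (hq : q.Prime) (hqM : ¬ q ∣ M') (hA : A.LiesOverPrime q) (f : FN M')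
    (hf : f ∈ (redDataBar M' A).Rw) (h : d1 (q := q) f ∈ (redData3 (M' * q * q) A q).Rw) :
    (((redData3 (M' * q * q) A q).red ⟨d1 (q := q) f, h⟩ :
        FresCusp (M' * q * q) A (cusp3 (M' * q * q) q)) : LaurentSeries 𝕜) =
      qExpand 𝕜 (M' * q * q) (qExpand 𝕜 q
        (((redDataBar M' A).red ⟨f, hf⟩ : FresBar M' A) : LaurentSeries 𝕜)) := by
  have hb : betaB M' q f ∈ (redDataBar (M' * q) A).Rw := (beta_mem_RwBar_iff M' q A f).mpr hf
  have h1 : alphaB M' q f ∈ (redData2 (M' * q) A (exactDvd_level hq hqM)).Rw := by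
    rw [mem_Rw2_iff, wAut_alphaB]
    exact hb
  have h2 := coe_red3_betaB A hq hqM hA (alphaB M' q f) h1 h
  rw [red2_eq] at h2
  have h3 : (⟨wAut (exactDvd_level hq hqM) (alphaB M' q f), h1⟩ :
      (redDataBar (M' * q) A).Rw) = ⟨betaB M' q f, hb⟩ :=
    Subtype.ext (wAut_alphaB M' (exactDvd_level hq hqM) f)
  rw [h3, coe_red_beta M' q A ⟨f, hf⟩ hb] at h2
  exact h2

/-- **`red₃ (f(q²z)) = f~(t^N)`** (`A` over `q`) -/
theorem coe_red3_d2 (hq : q.Prime) (hqM : ¬ q ∣ M') (hA : A.LiesOverPrime q) (f : FN M')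
    (hf : f ∈ (redDataBar M' A).Rw) (h : d2 (q := q) f ∈ (redData3 (M' * q * q) A q).Rw) :
    (((redData3 (M' * q * q) A q).red ⟨d2 (q := q) f, h⟩ :
        FresCusp (M' * q * q) A (cusp3 (M' * q * q) q)) : LaurentSeries 𝕜) =
      qExpand 𝕜 (M' * q * q)
        (((redDataBar M' A).red ⟨f, hf⟩ : FresBar M' A) : LaurentSeries 𝕜) := by
  have ha : alphaB M' q f ∈ (redDataBar (M' * q) A).Rw := (alpha_mem_RwBar_iff M' q A f).mpr hf
  have h1 : betaB M' q f ∈ (redData2 (M' * q) A (exactDvd_level hq hqM)).Rw := by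
    rw [mem_Rw2_iff, wAut_betaB]
    exact ha
  have h2 := coe_red3_betaB A hq hqM hA (betaB M' q f) h1 h
  rw [red2_eq] at h2
  have h3 : (⟨wAut (exactDvd_level hq hqM) (betaB M' q f), h1⟩ :
      (redDataBar (M' * q) A).Rw) = ⟨alphaB M' q f, ha⟩ :=
    Subtype.ext (wAut_betaB M' (exactDvd_level hq hqM) f)
  rw [h3, coe_red_alpha M' q A ⟨f, hf⟩ ha] at h2
  exact h2

/-- on `w₃` the two outer old copies have the SAME reduction: `red₃ (f(z)) = red₃ (f(q²z))` -/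
theorem coe_red3_d0_eq_d2 (hq : q.Prime) (hqM : ¬ q ∣ M') (hA : A.LiesOverPrime q) (f : FN M')
    (hf : f ∈ (redDataBar M' A).Rw) (h0 : d0 (q := q) f ∈ (redData3 (M' * q * q) A q).Rw)
    (h2 : d2 (q := q) f ∈ (redData3 (M' * q * q) A q).Rw) :
    (redData3 (M' * q * q) A q).red ⟨d0 (q := q) f, h0⟩ =
      (redData3 (M' * q * q) A q).red ⟨d2 (q := q) f, h2⟩ := by
  apply Subtype.ext
  rw [coe_red3_d0 A hq f hf h0, coe_red3_d2 A hq hqM hA f hf h2]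

end Fermat.Agent.GL.W3Old
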